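import Mathlib

/-!
# S16Lib.QDefs — shared q-series definitions for the S16 upper bound (interface file, lead)
-/

set_option autoImplicit false

namespace Fermat.Agent.S16Lib

/-- `U_p` on power series: `a_n ↦ a_{pn}`. -/
noncomputable def Uop (p : ℕ) (s : PowerSeries ℂ) : PowerSeries ℂ :=
  PowerSeries.mk fun n => PowerSeries.coeff (p * n) s

/-- `V_p` on power series: `s(q^p)`. -/
noncomputable def Vop (p : ℕ) (s : PowerSeries ℂ) : PowerSeries ℂ :=
  PowerSeries.mk fun n => if p ∣ n then PowerSeries.coeff (n / p) s else 0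

/-- `∑_{n ≥ 1} σ_k(n) q^n`. -/
noncomputable def sigSer (k : ℕ) : PowerSeries ℂ :=
  PowerSeries.mk fun n => if n = 0 then 0 else ((ArithmeticFunction.sigma k n : ℕ) : ℂ)

/-- `E₄ = 1 + 240 ∑ σ₃(n) q^n`. -/
noncomputable def E4ser : PowerSeries ℂ := 1 + (240 : ℂ) • sigSer 3

/-- `E₆ = 1 - 504 ∑ σ₅(n) q^n`. -/
noncomputable def E6ser : PowerSeries ℂ := 1 - (504 : ℂ) • sigSer 5

/-- Sum of the divisors of `n` that are not divisible by `N`. -/
def sigPrime (N n : ℕ) : ℕ := ∑ d ∈ n.divisors.filter (fun d => ¬ N ∣ d), d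

/-- `∑_{n ≥ 1} σ^{(N)}(n) q^n`. -/
noncomputable def sigPrimeSer (N : ℕ) : PowerSeries ℂ :=
  PowerSeries.mk fun n => if n = 0 then 0 else (sigPrime N n : ℂ)

/-- The weight-2 Eisenstein series of prime level `N`, normalised to constant term `1`:
`A_N = 1 + (24/(N-1)) ∑ σ^{(N)}(n) q^n = (N E₂(Nz) - E₂(z))/(N-1)`. -/
noncomputable def ANser (N : ℕ) : PowerSeries ℂ :=
  1 + (24 / ((N : ℂ) - 1)) • sigPrimeSer N

/-- `x` is `r`-integral rational: `x = a / b` with `r ∤ b`. -/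
def RInt (r : ℕ) (x : ℂ) : Prop := ∃ a : ℤ, ∃ b : ℕ, b ≠ 0 ∧ ¬ r ∣ b ∧ (b : ℂ) * x = a

end Fermat.Agent.S16Lib
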