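import Mathlib
import Fermat.Statements.S16
import Fermat.Agent.S16Lib.QDefs

/-!
# S16: interface statements between the pieces of the S16 project

* `TT p`, `spec p`, `JJ p`: the integral Hecke algebra of weight `2` and level `p`, the
  specialisation of the abstract Hecke algebra and the image of the Eisenstein ideal (literally the
  terms of the frozen statement);
* `IG`: the lower bound; `IE`: the upper bound in terms of congruences of cusp forms;
* `Claim`, `IEis`: the shape of the claims and the Eisenstein series from which `IE` is derived.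
-/

set_option autoImplicit false
open ModularCurve CuspForm

namespace Fermat.Agent.S16Lib.Iface

variable (p : ℕ) [Fact p.Prime]

/-- the integral Hecke algebra of weight `2` and level `p` -/
abbrev TT : Type := ↥(heckeLatticeAlgebra p ∅)

/-- the specialisation of the abstract Hecke algebra -/
noncomputable abbrev spec : HeckeAlg →+* TT p :=
  (latticeRestrictHom p ∅).toRingHom.comp (heckeEvalForms p 2)

/-- the image of the Eisenstein ideal -/
noncomputable abbrev JJ : Ideal (TT p) := Ideal.map (spec p) (eisensteinIdeal p)

/-- **(G)** the lower bound: an integer in the image of the Eisenstein ideal is divisible by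
`n = eisensteinNumerator p` -/
def IG : Prop :=
  ∀ k : ℤ, algebraMap ℤ (TT p) k ∈ JJ p → (eisensteinNumerator p : ℤ) ∣ k

/-- **(E')** the upper bound: a cusp form with integral coefficients congruent to the Eisenstein
series modulo a prime power `r ^ a` forces `r ^ a ∣ n` -/
def IE : Prop :=
  ∀ (r a : ℕ), r.Prime → ∀ f : CuspForm (CongruenceSubgroup.Gamma0 p) 2,
    (∀ k : ℕ, 1 ≤ k → ∃ m : ℤ,
      ModularFormClass.qCoeff f k = (sigPrime p k : ℂ) + ((r ^ a : ℕ) : ℂ) * (m : ℂ)) →
    r ^ a ∣ eisensteinNumerator p

omit [Fact p.Prime] in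
/-- there is no `F ≡ 1 mod M`, `r`-integrally: constant term `1` and `d c_k ∈ M ℤ` for all
`k ≥ 1`, with `d` prime to `r` -/
def Claim (r M : ℕ) : Prop :=
  ∀ (F : ModularForm (CongruenceSubgroup.Gamma0 p) 2) (d : ℕ), Nat.Coprime d r →
    (UpperHalfPlane.qExpansion 1 F).coeff 0 = 1 →
    (∀ k : ℕ, 1 ≤ k → ∃ m : ℤ,
      (d : ℂ) * (UpperHalfPlane.qExpansion 1 F).coeff k = (M : ℂ) * (m : ℂ)) → False

omit [Fact p.Prime] in
/-- the Eisenstein series `A_p = 1 + 24/(p-1) ∑ σ'(k) q^k` is a modular form of level `p` -/
def IEis : Prop :=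
  ∃ A : ModularForm (CongruenceSubgroup.Gamma0 p) 2, UpperHalfPlane.qExpansion 1 A = ANser p

end Fermat.Agent.S16Lib.Iface
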