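import Mathlib
import Fermat.Statements.S16
import Fermat.Agent.S49Lib.QExp
import Fermat.Agent.S16Lib.Iface

/-!
# S16: the duality between the integral Hecke algebra and the lattice of integral cusp forms

`coeffZ k : L →ₗ[ℤ] ℤ` is the `k`-th `q`-coefficient on the lattice `L` of cusp forms of weight `2`
and level `p` with integral coefficients; the pairing `TT × L → ℤ`, `(t, f) ↦ a₁(t f)` is perfect
(`exists_form`).
-/

set_option autoImplicit false
set_option linter.unusedSectionVars false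
open ModularCurve CuspForm

namespace Fermat.Agent.S16Lib.Dual

open Fermat.Agent.S16Lib.Iface Fermat.Agent.S49Lib

variable (p : ℕ) [Fact p.Prime]

/-- the lattice of integral cusp forms -/
abbrev LL : Type := ↥(intLattice p 2)

theorem exists_int_coeff_of_mem {f : CuspForm (CongruenceSubgroup.Gamma0 p) 2}
    (hf : f ∈ intLattice p 2) (k : ℕ) :
    ∃ m : ℤ, ModularFormClass.qCoeff (⇑f) k = (m : ℂ) := by
  refine Submodule.span_induction
    (p := fun (x : CuspForm (CongruenceSubgroup.Gamma0 p) 2) _ =>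
      ∃ m : ℤ, ModularFormClass.qCoeff (⇑x) k = (m : ℂ))
    ?_ ?_ ?_ ?_ hf
  · intro x hx
    exact hx k
  · refine ⟨0, ?_⟩
    have h := qCoeff_smul (0 : ℂ) (0 : CuspForm (CongruenceSubgroup.Gamma0 p) 2) k
    rw [zero_smul, zero_mul] at h
    rw [Int.cast_zero]
    exact h
  · rintro x y _ _ ⟨a, ha⟩ ⟨b, hb⟩
    exact ⟨a + b, by rw [qCoeff_add, ha, hb, Int.cast_add]⟩
  · rintro z x _ ⟨a, ha⟩
    refine ⟨z * a, ?_⟩
    have h : (z • x : CuspForm (CongruenceSubgroup.Gamma0 p) 2) = ((z : ℂ) • x) := by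
      rw [Int.cast_smul_eq_zsmul]
    rw [h, qCoeff_smul, ha, Int.cast_mul]

theorem exists_int_coeff (f : LL p) (k : ℕ) :
    ∃ m : ℤ, ModularFormClass.qCoeff (⇑(f : CuspForm (CongruenceSubgroup.Gamma0 p) 2)) k = (m : ℂ) :=
  exists_int_coeff_of_mem p f.2 k

/-- the `k`-th coefficient of an integral cusp form, as an integer -/
noncomputable def coeffZ (k : ℕ) : LL p →ₗ[ℤ] ℤ where
  toFun f := Classical.choose (exists_int_coeff p f k)
  map_add' f g := by
    apply Int.cast_injective (α := ℂ)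
    rw [Int.cast_add, ← Classical.choose_spec (exists_int_coeff p (f + g) k),
      ← Classical.choose_spec (exists_int_coeff p f k),
      ← Classical.choose_spec (exists_int_coeff p g k)]
    exact qCoeff_add _ _ k
  map_smul' z f := by
    apply Int.cast_injective (α := ℂ)
    rw [RingHom.id_apply, smul_eq_mul, Int.cast_mul,
      ← Classical.choose_spec (exists_int_coeff p (z • f) k),
      ← Classical.choose_spec (exists_int_coeff p f k)]
    have h : ((z • f : LL p) : CuspForm (CongruenceSubgroup.Gamma0 p) 2)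
        = ((z : ℂ) • (f : CuspForm (CongruenceSubgroup.Gamma0 p) 2)) := by
      rw [Int.cast_smul_eq_zsmul]; rfl
    rw [h, qCoeff_smul]

theorem coeffZ_spec (k : ℕ) (f : LL p) :
    ((coeffZ p k f : ℤ) : ℂ)
      = ModularFormClass.qCoeff (⇑(f : CuspForm (CongruenceSubgroup.Gamma0 p) 2)) k :=
  (Classical.choose_spec (exists_int_coeff p f k)).symm

/-! ### Hecke operators on the lattice -/

/-- the Hecke operator `T_l` (`l ≠ p`) in `TT` -/
noncomputable def Tl {l : ℕ} (hl : l.Prime) (hlp : ¬ l ∣ p) : TT p :=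
  latticeRestrictHom p ∅ (heckeAlgebra.T hl hlp (Set.notMem_empty _))

/-- the Hecke operator `U_p` in `TT` -/
noncomputable def Up : TT p :=
  latticeRestrictHom p ∅
    (heckeAlgebra.U (Fact.out : p.Prime) (dvd_refl p) (Set.notMem_empty _))

theorem coe_Tl_apply {l : ℕ} (hl : l.Prime) (hlp : ¬ l ∣ p) (f : LL p) :
    (((Tl p hl hlp : TT p) : Module.End ℤ (LL p)) f : CuspForm (CongruenceSubgroup.Gamma0 p) 2)
      = CuspForm.heckeTLin 2 hl hlp (f : CuspForm (CongruenceSubgroup.Gamma0 p) 2) := rfl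

theorem coe_Up_apply (f : LL p) :
    (((Up p : TT p) : Module.End ℤ (LL p)) f : CuspForm (CongruenceSubgroup.Gamma0 p) 2)
      = CuspForm.heckeULin 2 (dvd_refl p) (f : CuspForm (CongruenceSubgroup.Gamma0 p) 2) := rfl

theorem coeffZ_Tl {l : ℕ} (hl : l.Prime) (hlp : ¬ l ∣ p) (n : ℕ) (f : LL p) :
    coeffZ p n (((Tl p hl hlp : TT p) : Module.End ℤ (LL p)) f)
      = coeffZ p (n * l) f + if l ∣ n then (l : ℤ) * coeffZ p (n / l) f else 0 := by
  apply Int.cast_injective (α := ℂ)
  rw [coeffZ_spec, coe_Tl_apply, qCoeff_heckeTLin, Int.cast_add, coeffZ_spec]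
  split_ifs with h
  · rw [Int.cast_mul, coeffZ_spec, Int.cast_natCast]
  · rw [Int.cast_zero]

theorem coeffZ_Up (n : ℕ) (f : LL p) :
    coeffZ p n (((Up p : TT p) : Module.End ℤ (LL p)) f) = coeffZ p (n * p) f := by
  apply Int.cast_injective (α := ℂ)
  rw [coeffZ_spec, coe_Up_apply, qCoeff_heckeULin (Fact.out : p.Prime), coeffZ_spec]

theorem mul_apply' (s t : TT p) (f : LL p) :
    ((s * t : TT p) : Module.End ℤ (LL p)) f
      = (s : Module.End ℤ (LL p)) ((t : Module.End ℤ (LL p)) f) := rfl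

/-- every `k ≥ 2` is `n * l` with `l` prime and `1 ≤ n < k` -/
theorem exists_prime_factor {k : ℕ} (hk : 2 ≤ k) :
    ∃ l n : ℕ, l.Prime ∧ k = n * l ∧ 1 ≤ n ∧ n < k := by
  obtain ⟨l, hl, hlk⟩ := Nat.exists_prime_and_dvd (show k ≠ 1 by omega)
  obtain ⟨n, rfl⟩ := hlk
  have hn : 1 ≤ n := by
    rcases Nat.eq_zero_or_pos n with h | h
    · rw [h, mul_zero] at hk; omega
    · exact h
  refine ⟨l, n, hl, mul_comm l n, hn, ?_⟩
  have := hl.two_le
  nlinarith

/-- **propagation**: if `a₁(t f)` lies in an ideal `D` of `ℤ` for all `t`, so do all `a_k(t f)`,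
`k ≥ 1` -/
theorem coeff_mem_of_one (D : Ideal ℤ) (f : LL p)
    (h : ∀ t : TT p, coeffZ p 1 ((t : Module.End ℤ (LL p)) f) ∈ D) :
    ∀ k : ℕ, 1 ≤ k → ∀ t : TT p, coeffZ p k ((t : Module.End ℤ (LL p)) f) ∈ D := by
  intro k
  induction k using Nat.strong_induction_on with
  | _ k ih =>
    intro hk t
    rcases Nat.lt_or_ge k 2 with h2 | h2
    · have h1 : k = 1 := by omega
      rw [h1]
      exact h t
    · obtain ⟨l, n, hl, rfl, hn, hnk⟩ := exists_prime_factor h2
      by_cases hlp : l = p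
      · subst hlp
        rw [← coeffZ_Up, ← mul_apply']
        exact ih n hnk hn _
      · have hlp' : ¬ l ∣ p := fun hd =>
          hlp ((Nat.prime_dvd_prime_iff_eq hl (Fact.out : p.Prime)).1 hd)
        have e := coeffZ_Tl p hl hlp' n ((t : Module.End ℤ (LL p)) f)
        rw [← mul_apply'] at e
        have e' : coeffZ p (n * l) ((t : Module.End ℤ (LL p)) f)
            = coeffZ p n (((Tl p hl hlp' * t : TT p) : Module.End ℤ (LL p)) f)
              - (if l ∣ n then (l : ℤ) * coeffZ p (n / l) ((t : Module.End ℤ (LL p)) f) else 0) := by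
          rw [e]; ring
        rw [e']
        refine D.sub_mem (ih n hnk hn _) ?_
        split_ifs with hd
        · refine D.mul_mem_left _ (ih (n / l) ?_ ?_ t)
          · exact lt_of_le_of_lt (Nat.div_le_self n l) hnk
          · exact Nat.div_pos (Nat.le_of_dvd hn hd) hl.pos
        · exact D.zero_mem

/-- the pairing is nondegenerate on the right -/
theorem eq_zero_of_pairing_eq_zero (f : LL p)
    (h : ∀ t : TT p, coeffZ p 1 ((t : Module.End ℤ (LL p)) f) = 0) : f = 0 := by
  have h' := coeff_mem_of_one p ⊥ f (fun t => by rw [Ideal.mem_bot]; exact h t)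
  apply Subtype.ext
  apply eq_zero_of_qCoeff_eq_zero
  intro n
  rcases Nat.eq_zero_or_pos n with h0 | hpos
  · rw [h0]; exact qCoeff_cusp_zero _
  · have h1 := h' n hpos 1
    rw [Ideal.mem_bot] at h1
    have h2 := coeffZ_spec p n f
    have h3 : ((1 : TT p) : Module.End ℤ (LL p)) f = f := rfl
    rw [h3] at h1
    rw [h1, Int.cast_zero] at h2
    exact h2.symm

/-- the pairing is nondegenerate on the left -/
theorem eq_zero_of_pairing_eq_zero_left (t : TT p)
    (h : ∀ f : LL p, coeffZ p 1 ((t : Module.End ℤ (LL p)) f) = 0) : t = 0 := by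
  apply Subtype.ext
  apply LinearMap.ext
  intro f
  apply eq_zero_of_pairing_eq_zero p
  intro s
  rw [← mul_apply', mul_comm, mul_apply']
  exact h _

/-! ### The perfect pairing -/

/-- the pairing `TT → Hom(L, ℤ)`, `t ↦ (f ↦ a₁(t f))` -/
noncomputable def pairL : TT p →ₗ[ℤ] (LL p →ₗ[ℤ] ℤ) where
  toFun t := (coeffZ p 1).comp (t : Module.End ℤ (LL p))
  map_add' s t := by
    apply LinearMap.ext
    intro f
    show coeffZ p 1 (((s + t : TT p) : Module.End ℤ (LL p)) f) = _
    rw [Subalgebra.coe_add, LinearMap.add_apply, map_add]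
    rfl
  map_smul' z t := by
    apply LinearMap.ext
    intro f
    show coeffZ p 1 (((z • t : TT p) : Module.End ℤ (LL p)) f) = _
    rw [Subalgebra.coe_smul, LinearMap.smul_apply, map_smul]
    rfl

theorem pairL_apply (t : TT p) (f : LL p) :
    pairL p t f = coeffZ p 1 ((t : Module.End ℤ (LL p)) f) := rfl

theorem pairL_injective : Function.Injective (pairL p) := by
  rw [injective_iff_map_eq_zero]
  intro t ht
  apply eq_zero_of_pairing_eq_zero_left p
  intro f
  rw [← pairL_apply, ht]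
  rfl

theorem pairR_injective : Function.Injective (pairL p).flip := by
  rw [injective_iff_map_eq_zero]
  intro f hf
  apply eq_zero_of_pairing_eq_zero p
  intro t
  rw [← pairL_apply, ← LinearMap.flip_apply, hf]
  rfl

/-- **the pairing is perfect**: every functional on the Hecke algebra is `t ↦ a₁(t f)` for an
integral cusp form `f` -/
theorem exists_form (φ : TT p →ₗ[ℤ] ℤ) :
    ∃ f : LL p, ∀ t : TT p, coeffZ p 1 ((t : Module.End ℤ (LL p)) f) = φ t := by
  haveI : Module.Finite ℤ (LL p) := intLattice.moduleFinite p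
  haveI : Module.Free ℤ (LL p) := intLattice.moduleFree p
  have h1 : Module.finrank ℤ (TT p) ≤ Module.finrank ℤ (LL p) := by
    have h := LinearMap.finrank_le_finrank_of_injective (pairL_injective p)
    rwa [Module.finrank_linearMap, Module.finrank_self, mul_one] at h
  have h2 : Module.finrank ℤ (LL p) ≤ Module.finrank ℤ (TT p) := by
    have h := LinearMap.finrank_le_finrank_of_injective (pairR_injective p)
    rwa [Module.finrank_linearMap, Module.finrank_self, mul_one] at h
  have hrank : Module.finrank ℤ (LinearMap.range (pairL p).flip)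
      = Module.finrank ℤ (TT p →ₗ[ℤ] ℤ) := by
    rw [LinearMap.finrank_range_of_inj (pairR_injective p), Module.finrank_linearMap,
      Module.finrank_self, mul_one]
    exact le_antisymm h2 h1
  haveI : Finite ((TT p →ₗ[ℤ] ℤ) ⧸ LinearMap.range (pairL p).flip) :=
    Submodule.finiteQuotientOfFreeOfRankEq _ hrank
  set c : ℕ := Nat.card ((TT p →ₗ[ℤ] ℤ) ⧸ LinearMap.range (pairL p).flip) with hc
  have hc0 : c ≠ 0 := Nat.card_ne_zero.mpr ⟨⟨0⟩, inferInstance⟩
  have hmem : c • φ ∈ LinearMap.range (pairL p).flip := by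
    rw [← Submodule.Quotient.mk_eq_zero, Submodule.Quotient.mk_smul]
    exact card_nsmul_eq_zero'
  obtain ⟨f₀, hf₀⟩ := hmem
  have hf₀' : ∀ t : TT p, coeffZ p 1 ((t : Module.End ℤ (LL p)) f₀) = (c : ℤ) * φ t := by
    intro t
    have h := LinearMap.congr_fun hf₀ t
    rw [LinearMap.flip_apply, pairL_apply] at h
    rw [h, LinearMap.smul_apply, nsmul_eq_mul]
  -- all coefficients of `f₀` are divisible by `c`
  have hdiv : ∀ k : ℕ, 1 ≤ k → (c : ℤ) ∣ coeffZ p k f₀ := by
    intro k hk
    have h := coeff_mem_of_one p (Ideal.span {(c : ℤ)}) f₀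
      (fun t => by rw [hf₀' t]; exact Ideal.mul_mem_right _ _ (Ideal.mem_span_singleton_self _)) k hk 1
    exact Ideal.mem_span_singleton.mp h
  -- divide by `c`
  have hcC : (c : ℂ) ≠ 0 := Nat.cast_ne_zero.mpr hc0
  have hg : ((c : ℂ)⁻¹ • (f₀ : CuspForm (CongruenceSubgroup.Gamma0 p) 2)) ∈ intLattice p 2 := by
    apply Submodule.subset_span
    intro n
    rcases Nat.eq_zero_or_pos n with h0 | hpos
    · refine ⟨0, ?_⟩
      rw [h0, qCoeff_cusp_zero, Int.cast_zero]
    · obtain ⟨m, hm⟩ := hdiv n hpos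
      refine ⟨m, ?_⟩
      rw [qCoeff_smul, ← coeffZ_spec, hm, Int.cast_mul, Int.cast_natCast]
      field_simp
  refine ⟨⟨_, hg⟩, fun t => ?_⟩
  have hsm : ((c : ℤ) • (⟨_, hg⟩ : LL p)) = f₀ := by
    apply Subtype.ext
    show (c : ℤ) • ((c : ℂ)⁻¹ • (f₀ : CuspForm (CongruenceSubgroup.Gamma0 p) 2)) = _
    rw [← Int.cast_smul_eq_zsmul ℂ, smul_smul, Int.cast_natCast, mul_inv_cancel₀ hcC, one_smul]
  have h := hf₀' t
  rw [← hsm, map_smul, map_smul, smul_eq_mul] at h
  exact mul_left_cancel₀ (Int.natCast_ne_zero.mpr hc0) h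

end Fermat.Agent.S16Lib.Dual
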