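import Fermat.Agent.S16Lib.QDefs

/-!
# S16Lib.SigmaRec — Hecke recursions for `sigPrime p k = σ(k) - p σ(k/p)` (the sum of the divisors
of `k` prime to `p`), elementary number theory
-/

set_option autoImplicit false

namespace Fermat.Agent.S16Lib.SigmaRec

open ArithmeticFunction

/-- `σ'(k) = σ(k) - p σ(k/p)` as an integer. -/
def sigmaZ (p k : ℕ) : ℤ :=
  (ArithmeticFunction.sigma 1 k : ℤ)
    - (p : ℤ) * (if p ∣ k then (ArithmeticFunction.sigma 1 (k / p) : ℤ) else 0)

/-- `σ(mℓ) + ℓ·[ℓ ∣ m]·σ(m/ℓ) = (1 + ℓ) σ(m)` for `ℓ` prime, `m ≥ 1`. -/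
theorem sigma_mul_prime (l m : ℕ) (hl : l.Prime) (hm : 1 ≤ m) :
    sigma 1 (m * l) + (if l ∣ m then l * sigma 1 (m / l) else 0) = (1 + l) * sigma 1 m := by
  obtain ⟨a, m', hm', rfl⟩ := Nat.exists_eq_pow_mul_and_not_dvd (by omega : m ≠ 0) l hl.ne_one
  have hcop : ∀ i, Nat.Coprime (l ^ i) m' := fun i =>
    Nat.Coprime.pow_left i ((Nat.Prime.coprime_iff_not_dvd hl).mpr hm')
  have hmul : ∀ i, sigma 1 (l ^ i * m') = sigma 1 (l ^ i) * sigma 1 m' := fun i =>
    isMultiplicative_sigma.map_mul_of_coprime (hcop i)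
  have e1 : l ^ a * m' * l = l ^ (a + 1) * m' := by ring
  rw [e1, hmul, hmul]
  cases a with
  | zero =>
    have hnd : ¬ l ∣ l ^ 0 * m' := by simpa using hm'
    rw [if_neg hnd]
    simp only [sigma_one_apply_prime_pow hl, Finset.sum_range_succ, Finset.sum_range_zero]
    ring
  | succ a =>
    have hd : l ∣ l ^ (a + 1) * m' := Dvd.dvd.mul_right (dvd_pow_self l (by omega)) m'
    have hdiv : l ^ (a + 1) * m' / l = l ^ a * m' := by
      rw [show l ^ (a + 1) * m' = l * (l ^ a * m') by ring]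
      exact Nat.mul_div_cancel_left _ hl.pos
    rw [if_pos hd, hdiv, hmul]
    simp only [sigma_one_apply_prime_pow hl, Finset.sum_range_succ]
    ring

theorem sigmaZ_one (p : ℕ) (hp : p.Prime) : sigmaZ p 1 = 1 := by
  have h : ¬ p ∣ 1 := hp.not_dvd_one
  simp [sigmaZ, h]

theorem sigmaZ_mul_self (p k : ℕ) (hp : p.Prime) (hk : 1 ≤ k) :
    sigmaZ p (k * p) = sigmaZ p k := by
  have hR := sigma_mul_prime p k hp hk
  have hRz := congrArg (Nat.cast : ℕ → ℤ) hR
  unfold sigmaZ
  rw [if_pos (dvd_mul_left p k), Nat.mul_div_cancel _ hp.pos]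
  by_cases hpk : p ∣ k
  · rw [if_pos hpk] at hRz ⊢
    push_cast at hRz ⊢
    linear_combination hRz
  · rw [if_neg hpk] at hRz ⊢
    push_cast at hRz ⊢
    linear_combination hRz

theorem sigmaZ_mul_prime (p l k : ℕ) (hp : p.Prime) (hl : l.Prime) (hlp : l ≠ p) (hk : 1 ≤ k) :
    sigmaZ p (k * l) + (if l ∣ k then (l : ℤ) * sigmaZ p (k / l) else 0) =
      (1 + (l : ℤ)) * sigmaZ p k := by
  have hR := sigma_mul_prime l k hl hk
  have hpl : ¬ p ∣ l := fun h => hlp ((Nat.prime_dvd_prime_iff_eq hp hl).mp h).symm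
  have hlp' : ¬ l ∣ p := fun h => hlp ((Nat.prime_dvd_prime_iff_eq hl hp).mp h)
  unfold sigmaZ
  by_cases hpk : p ∣ k
  · obtain ⟨k', rfl⟩ := hpk
    have hk' : 1 ≤ k' := by
      rcases Nat.eq_zero_or_pos k' with h | h
      · rw [h, mul_zero] at hk; omega
      · exact h
    have hR' := sigma_mul_prime l k' hl hk'
    have e1 : p ∣ p * k' * l := Dvd.dvd.mul_right (dvd_mul_right p k') l
    have e2 : p * k' * l / p = k' * l := by
      rw [mul_assoc]; exact Nat.mul_div_cancel_left _ hp.pos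
    have e3 : p * k' / p = k' := Nat.mul_div_cancel_left _ hp.pos
    have e4 : l ∣ p * k' ↔ l ∣ k' :=
      ⟨fun h => (hl.dvd_mul.mp h).resolve_left hlp', fun h => Dvd.dvd.mul_left h p⟩
    rw [if_pos e1, e2, if_pos (dvd_mul_right p k'), e3]
    by_cases hlk : l ∣ k'
    · obtain ⟨k'', rfl⟩ := hlk
      have hd : l ∣ p * (l * k'') := e4.mpr (dvd_mul_right l k'')
      have e5 : p * (l * k'') / l = p * k'' := by
        rw [show p * (l * k'') = l * (p * k'') by ring]
        exact Nat.mul_div_cancel_left _ hl.pos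
      have e6 : p * k'' / p = k'' := Nat.mul_div_cancel_left _ hp.pos
      rw [if_pos hd, e5, if_pos (dvd_mul_right p k''), e6]
      rw [if_pos hd, e5] at hR
      rw [if_pos (dvd_mul_right l k''), Nat.mul_div_cancel_left _ hl.pos] at hR'
      have hRz := congrArg (Nat.cast : ℕ → ℤ) hR
      have hRz' := congrArg (Nat.cast : ℕ → ℤ) hR'
      push_cast at hRz hRz' ⊢
      linear_combination hRz - (p : ℤ) * hRz'
    · have hnd : ¬ l ∣ p * k' := fun h => hlk (e4.mp h)
      rw [if_neg hnd]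
      rw [if_neg hnd] at hR
      rw [if_neg hlk] at hR'
      have hRz := congrArg (Nat.cast : ℕ → ℤ) hR
      have hRz' := congrArg (Nat.cast : ℕ → ℤ) hR'
      push_cast at hRz hRz' ⊢
      linear_combination hRz - (p : ℤ) * hRz'
  · have e1 : ¬ p ∣ k * l := fun h => (hp.dvd_mul.mp h).elim hpk hpl
    rw [if_neg e1, if_neg hpk]
    by_cases hlk : l ∣ k
    · have hnd : ¬ p ∣ k / l := fun h => hpk (dvd_trans h (Nat.div_dvd_of_dvd hlk))
      rw [if_pos hlk, if_neg hnd]
      rw [if_pos hlk] at hR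
      have hRz := congrArg (Nat.cast : ℕ → ℤ) hR
      push_cast at hRz ⊢
      linear_combination hRz
    · rw [if_neg hlk]
      rw [if_neg hlk] at hR
      have hRz := congrArg (Nat.cast : ℕ → ℤ) hR
      push_cast at hRz ⊢
      linear_combination hRz

/-- bridge: `sigPrime p k = σ(k) - p·[p ∣ k]·σ(k/p)`. -/
theorem sigPrime_cast (p k : ℕ) (hp : p.Prime) (hk : 1 ≤ k) :
    ((sigPrime p k : ℕ) : ℤ) = sigmaZ p k := by
  have hk0 : k ≠ 0 := by omega
  have hsplit : sigma 1 k = sigPrime p k + ∑ d ∈ k.divisors.filter (fun d => p ∣ d), d := by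
    rw [sigma_one_apply, sigPrime, add_comm]
    exact (Finset.sum_filter_add_sum_filter_not k.divisors (fun d => p ∣ d) (fun d => d)).symm
  have hdiv : ∑ d ∈ k.divisors.filter (fun d => p ∣ d), d =
      if p ∣ k then p * sigma 1 (k / p) else 0 := by
    split_ifs with hpk
    · obtain ⟨k', rfl⟩ := hpk
      have hk' : k' ≠ 0 := by
        rintro rfl
        simp at hk0
      rw [Nat.mul_div_cancel_left _ hp.pos, sigma_one_apply, Finset.mul_sum]
      refine Finset.sum_nbij' (fun d => d / p) (fun e => p * e) ?_ ?_ ?_ ?_ ?_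
      · intro d hd
        obtain ⟨hd1, hd2⟩ := Finset.mem_filter.mp hd
        obtain ⟨d', rfl⟩ := hd2
        rw [Nat.mul_div_cancel_left _ hp.pos]
        exact Nat.mem_divisors.mpr ⟨(Nat.mul_dvd_mul_iff_left hp.pos).mp (Nat.mem_divisors.mp hd1).1,
          hk'⟩
      · intro e he
        refine Finset.mem_filter.mpr ⟨Nat.mem_divisors.mpr
          ⟨Nat.mul_dvd_mul_left p (Nat.mem_divisors.mp he).1, hk0⟩, dvd_mul_right p e⟩
      · intro d hd
        exact Nat.mul_div_cancel' (Finset.mem_filter.mp hd).2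
      · intro e _
        exact Nat.mul_div_cancel_left _ hp.pos
      · intro d hd
        exact (Nat.mul_div_cancel' (Finset.mem_filter.mp hd).2).symm
    · apply Finset.sum_eq_zero
      intro d hd
      obtain ⟨hd1, hd2⟩ := Finset.mem_filter.mp hd
      exact absurd (dvd_trans hd2 (Nat.mem_divisors.mp hd1).1) hpk
  have h1 := congrArg (Nat.cast : ℕ → ℤ) hsplit
  rw [hdiv] at h1
  unfold sigmaZ
  split_ifs at h1 ⊢ with hpk
  · push_cast at h1 ⊢
    linear_combination -h1
  · push_cast at h1 ⊢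
    linear_combination -h1

theorem sigPrime_one (p : ℕ) (hp : p.Prime) : sigPrime p 1 = 1 := by
  have h := sigPrime_cast p 1 hp le_rfl
  rw [sigmaZ_one p hp] at h
  exact_mod_cast h

theorem sigPrime_mul_self (p k : ℕ) (hp : p.Prime) (hk : 1 ≤ k) :
    sigPrime p (k * p) = sigPrime p k := by
  have hkp : 1 ≤ k * p := Nat.one_le_iff_ne_zero.mpr (Nat.mul_ne_zero (by omega) hp.ne_zero)
  have h := sigmaZ_mul_self p k hp hk
  rw [← sigPrime_cast p _ hp hkp, ← sigPrime_cast p _ hp hk] at h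
  exact_mod_cast h

theorem sigPrime_mul_prime (p l k : ℕ) (hp : p.Prime) (hl : l.Prime) (hlp : l ≠ p) (hk : 1 ≤ k) :
    sigPrime p (k * l) + (if l ∣ k then l * sigPrime p (k / l) else 0) =
      (1 + l) * sigPrime p k := by
  have hkl : 1 ≤ k * l := Nat.one_le_iff_ne_zero.mpr (Nat.mul_ne_zero (by omega) hl.ne_zero)
  have h := sigmaZ_mul_prime p l k hp hl hlp hk
  rw [← sigPrime_cast p _ hp hkl, ← sigPrime_cast p _ hp hk] at h
  by_cases hlk : l ∣ k
  · have hkl' : 1 ≤ k / l := Nat.div_pos (Nat.le_of_dvd (by omega) hlk) hl.pos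
    rw [if_pos hlk, ← sigPrime_cast p _ hp hkl'] at h
    rw [if_pos hlk]
    exact_mod_cast h
  · rw [if_neg hlk] at h
    rw [if_neg hlk]
    exact_mod_cast h

end Fermat.Agent.S16Lib.SigmaRec
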