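import Mathlib
import Fermat.Statements.S16
import Fermat.Agent.S16Lib.Iface
import Fermat.Agent.S16Lib.Dual
import Fermat.Agent.S16Lib.SigmaRec

/-!
# S16: assembly — the index of the Eisenstein ideal from the lower bound `IG` and the upper
bound `IE`
-/

set_option autoImplicit false
set_option linter.unusedSectionVars false
open ModularCurve CuspForm

namespace Fermat.Agent.S16Lib.Assembly

open Fermat.Agent.S16Lib.Iface Fermat.Agent.S16Lib.Dual Fermat.Agent.S16Lib

/-- the abstract-to-concrete evaluation of Hecke operators is surjective -/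
theorem evalForms_surjective (N : ℕ) [NeZero N] (k : ℤ) :
    Function.Surjective (heckeEvalForms N k) := by
  rintro ⟨t, ht⟩
  have key : ∀ (s : Module.End ℂ (CuspForm (CongruenceSubgroup.Gamma0 N) k))
      (hs : s ∈ heckeAlgebra N k ∅), ∃ x, heckeEvalForms N k x = ⟨s, hs⟩ := by
    intro s hs
    induction hs using Algebra.adjoin_induction with
    | mem s hs =>
      rcases hs with ⟨ℓ, hℓ, hℓN, hℓS, rfl⟩ | ⟨q, hqN, hq, hqS, rfl⟩
      · exact ⟨heckeGen ⟨ℓ, hℓ⟩, heckeEvalForms_heckeGen_of_not_dvd (ℓ := ⟨ℓ, hℓ⟩) hℓN⟩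
      · exact ⟨heckeGen ⟨q, hq⟩, heckeEvalForms_heckeGen_of_dvd (q := ⟨q, hq⟩) hqN⟩
    | algebraMap r =>
      exact ⟨MvPolynomial.C r, by rw [heckeEvalForms_C]; rfl⟩
    | add s₁ s₂ h₁ h₂ ih₁ ih₂ =>
      obtain ⟨x₁, hx₁⟩ := ih₁
      obtain ⟨x₂, hx₂⟩ := ih₂
      exact ⟨x₁ + x₂, by rw [map_add, hx₁, hx₂]; rfl⟩
    | mul s₁ s₂ h₁ h₂ ih₁ ih₂ =>
      obtain ⟨x₁, hx₁⟩ := ih₁
      obtain ⟨x₂, hx₂⟩ := ih₂
      exact ⟨x₁ * x₂, by rw [map_mul, hx₁, hx₂]; rfl⟩
  exact key t ht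

variable (p : ℕ) [Fact p.Prime]

theorem spec_surjective : Function.Surjective (spec p) := by
  intro t
  obtain ⟨s, rfl⟩ := latticeRestrictHom_surjective p ∅ t
  obtain ⟨x, rfl⟩ := evalForms_surjective p 2 s
  exact ⟨x, rfl⟩

theorem spec_C (a : ℤ) : spec p (MvPolynomial.C a) = algebraMap ℤ (TT p) a := by
  show (latticeRestrictHom p ∅) (heckeEvalForms p 2 (MvPolynomial.C a)) = _
  rw [heckeEvalForms_C, AlgHom.commutes]

/-- modulo the Eisenstein ideal every Hecke operator is an integer -/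
theorem spec_sub_mem (P : HeckeAlg) :
    spec p P - algebraMap ℤ (TT p) (MvPolynomial.aeval (eisensteinSystem p) P) ∈ JJ p := by
  have h : P - MvPolynomial.C (MvPolynomial.aeval (eisensteinSystem p) P) ∈ eisensteinIdeal p := by
    rw [eisensteinIdeal, mem_eigenIdeal_iff, map_sub, MvPolynomial.aeval_C]
    simp
  have h2 := Ideal.mem_map_of_mem (spec p) h
  rwa [map_sub, spec_C] at h2

theorem Tl_sub_mem {l : ℕ} (hl : l.Prime) (hlp : ¬ l ∣ p) :
    Tl p hl hlp - algebraMap ℤ (TT p) (1 + (l : ℤ)) ∈ JJ p := by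
  have h := spec_sub_mem p (heckeGen ⟨l, hl⟩)
  rw [aeval_heckeGen, eisensteinSystem_of_not_dvd (ℓ := ⟨l, hl⟩) hlp] at h
  have e : spec p (heckeGen ⟨l, hl⟩) = Tl p hl hlp := by
    show (latticeRestrictHom p ∅) (heckeEvalForms p 2 (heckeGen ⟨l, hl⟩)) = _
    rw [heckeEvalForms_heckeGen_of_not_dvd (ℓ := ⟨l, hl⟩) hlp]
    rfl
  rw [e] at h
  exact h

theorem Up_sub_mem : Up p - algebraMap ℤ (TT p) 1 ∈ JJ p := by
  have h := spec_sub_mem p (heckeGen ⟨p, Fact.out⟩)
  rw [aeval_heckeGen, eisensteinSystem_of_dvd (ℓ := ⟨p, Fact.out⟩) (dvd_refl p)] at h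
  have e : spec p (heckeGen ⟨p, Fact.out⟩) = Up p := by
    show (latticeRestrictHom p ∅) (heckeEvalForms p 2 (heckeGen ⟨p, Fact.out⟩)) = _
    rw [heckeEvalForms_heckeGen_of_dvd (q := ⟨p, Fact.out⟩) (dvd_refl p)]
    rfl
  rw [e] at h
  exact h

/-- every class modulo the Eisenstein ideal is the class of an integer -/
theorem exists_int (x : TT p ⧸ JJ p) : ∃ k : ℤ, ((k : ℤ) : TT p ⧸ JJ p) = x := by
  obtain ⟨t, rfl⟩ := Ideal.Quotient.mk_surjective x
  obtain ⟨P, rfl⟩ := spec_surjective p t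
  refine ⟨MvPolynomial.aeval (eisensteinSystem p) P, ?_⟩
  have h := spec_sub_mem p P
  rw [← Ideal.Quotient.eq] at h
  rw [h, eq_intCast (algebraMap ℤ (TT p)), map_intCast]

theorem theta_eq_of_sub_mem {M : ℕ} (θ' : TT p ⧸ JJ p →+* ZMod M) (t : TT p) (z : ℤ)
    (h : t - algebraMap ℤ (TT p) z ∈ JJ p) :
    θ' (Ideal.Quotient.mk (JJ p) t) = (z : ZMod M) := by
  rw [(Ideal.Quotient.eq).mpr h, eq_intCast (algebraMap ℤ (TT p)), map_intCast, map_intCast]

/-- a ring homomorphism `TT → ℤ/M` lifts to a `ℤ`-linear functional -/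
theorem exists_lift {M : ℕ} (θ : TT p →+* ZMod M) :
    ∃ φ : TT p →ₗ[ℤ] ℤ, ∀ t, ((φ t : ℤ) : ZMod M) = θ t := by
  obtain ⟨φ, hφ⟩ := Module.projective_lifting_property
    (Int.castAddHom (ZMod M)).toIntLinearMap θ.toAddMonoidHom.toIntLinearMap
    (fun x => ZMod.intCast_surjective x)
  exact ⟨φ, fun t => LinearMap.congr_fun hφ t⟩

/-- **congruence propagation**: if `a₁(t f) ≡ θ(t) mod M` for a ring homomorphism `θ` with the
Eisenstein eigenvalues, then `a_k(t f) ≡ σ'(k) θ(t) mod M` for all `k ≥ 1` -/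
theorem coeff_cong {M : ℕ} (θ : TT p →+* ZMod M)
    (hT : ∀ {l : ℕ} (hl : l.Prime) (hlp : ¬ l ∣ p), θ (Tl p hl hlp) = 1 + (l : ZMod M))
    (hU : θ (Up p) = 1) (f : LL p)
    (h : ∀ t : TT p, ((coeffZ p 1 ((t : Module.End ℤ (LL p)) f) : ℤ) : ZMod M) = θ t) :
    ∀ k : ℕ, 1 ≤ k → ∀ t : TT p,
      ((coeffZ p k ((t : Module.End ℤ (LL p)) f) : ℤ) : ZMod M)
        = (sigPrime p k : ZMod M) * θ t := by
  intro k
  induction k using Nat.strong_induction_on with
  | _ k ih =>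
    intro hk t
    rcases Nat.lt_or_ge k 2 with h2 | h2
    · have h1 : k = 1 := by omega
      rw [h1, SigmaRec.sigPrime_one p Fact.out, Nat.cast_one, one_mul]
      exact h t
    · obtain ⟨l, n, hl, rfl, hn, hnk⟩ := exists_prime_factor h2
      by_cases hlp : l = p
      · subst hlp
        rw [← coeffZ_Up, ← mul_apply', ih n hnk hn _, map_mul, hU, one_mul,
          SigmaRec.sigPrime_mul_self _ n Fact.out hn]
      · have hlp' : ¬ l ∣ p := fun hd =>
          hlp ((Nat.prime_dvd_prime_iff_eq hl (Fact.out : p.Prime)).1 hd)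
        have e := coeffZ_Tl p hl hlp' n ((t : Module.End ℤ (LL p)) f)
        rw [← mul_apply'] at e
        have e1 := ih n hnk hn (Tl p hl hlp' * t)
        rw [e, map_mul, hT hl hlp'] at e1
        have e2 := congrArg (Nat.cast : ℕ → ZMod M)
          (SigmaRec.sigPrime_mul_prime p l n Fact.out hl hlp hn)
        by_cases hd : l ∣ n
        · have e3 := ih (n / l) (lt_of_le_of_lt (Nat.div_le_self n l) hnk)
            (Nat.div_pos (Nat.le_of_dvd hn hd) hl.pos) t
          rw [if_pos hd] at e1 e2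
          push_cast at e1 e2
          linear_combination e1 - θ t * e2 - (l : ZMod M) * e3
        · rw [if_neg hd] at e1 e2
          push_cast at e1 e2
          linear_combination e1 - θ t * e2

/-- **S16 from the lower bound and the upper bound** -/
theorem result_of (hG : IG p) (hE : IE p) :
    Nat.card (TT p ⧸ JJ p) = eisensteinNumerator p := by
  let g : ℕ := ringChar (TT p ⧸ JJ p)
  haveI : CharP (TT p ⧸ JJ p) g := ringChar.charP _
  have hbij : Function.Bijective (ZMod.castHom (dvd_refl g) (TT p ⧸ JJ p)) := by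
    refine ⟨ZMod.castHom_injective _, fun x => ?_⟩
    obtain ⟨k, rfl⟩ := exists_int p x
    exact ⟨(k : ZMod g), map_intCast _ k⟩
  have hcard : Nat.card (TT p ⧸ JJ p) = g := by
    rw [← Nat.card_congr (Equiv.ofBijective _ hbij), Nat.card_zmod]
  rw [hcard]
  have hng : eisensteinNumerator p ∣ g := by
    have h : algebraMap ℤ (TT p) (g : ℤ) ∈ JJ p := by
      rw [← Ideal.Quotient.eq_zero_iff_mem, eq_intCast (algebraMap ℤ (TT p)), map_intCast,
        Int.cast_natCast]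
      exact CharP.cast_eq_zero _ g
    exact Int.natCast_dvd_natCast.mp (hG (g : ℤ) h)
  have hgn : g ∣ eisensteinNumerator p := by
    rw [Nat.dvd_iff_prime_pow_dvd_dvd]
    intro r a hr hdiv
    let e : ZMod g ≃+* (TT p ⧸ JJ p) := RingEquiv.ofBijective _ hbij
    let θ' : (TT p ⧸ JJ p) →+* ZMod (r ^ a) :=
      (ZMod.castHom hdiv (ZMod (r ^ a))).comp e.symm.toRingHom
    let θ : TT p →+* ZMod (r ^ a) := θ'.comp (Ideal.Quotient.mk (JJ p))
    obtain ⟨φ, hφ⟩ := exists_lift p θ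
    obtain ⟨f, hf⟩ := exists_form p φ
    have hT : ∀ {l : ℕ} (hl : l.Prime) (hlp : ¬ l ∣ p),
        θ (Tl p hl hlp) = 1 + (l : ZMod (r ^ a)) := by
      intro l hl hlp
      have h := theta_eq_of_sub_mem p θ' _ _ (Tl_sub_mem p hl hlp)
      rw [Int.cast_add, Int.cast_one, Int.cast_natCast] at h
      exact h
    have hU : θ (Up p) = 1 := by
      have h := theta_eq_of_sub_mem p θ' _ _ (Up_sub_mem p)
      rw [Int.cast_one] at h
      exact h
    have hc := coeff_cong p θ hT hU f (fun t => by rw [hf t]; exact hφ t)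
    refine hE r a hr (f : CuspForm (CongruenceSubgroup.Gamma0 p) 2) ?_
    intro k hk
    have h1 := hc k hk 1
    have h3 : ((1 : TT p) : Module.End ℤ (LL p)) f = f := rfl
    rw [h3, map_one, mul_one, ← Int.cast_natCast (R := ZMod (r ^ a))] at h1
    obtain ⟨m, hm⟩ := (ZMod.intCast_eq_intCast_iff_dvd_sub _ _ _).mp h1
    refine ⟨-m, ?_⟩
    have h5 : coeffZ p k f = (sigPrime p k : ℤ) + ((r ^ a : ℕ) : ℤ) * (-m) := by
      linarith
    rw [← coeffZ_spec, h5]
    push_cast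
    ring
  exact Nat.dvd_antisymm hgn hng

end Fermat.Agent.S16Lib.Assembly
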