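import Fermat.Agent.S16Lib.TraceQ
import Fermat.Agent.S16Lib.QDefs

/-!
# S16Lib.TraceFour — (B) `p f² + U_p((U_p f)²) = (p+1) a₀(f)² E₄` from (A1)
`qExpansion p (F ∣ S) = -(1/p) • U_p f`, via the level-one trace of `F² ∈ M₄(Γ₀(p))`.
-/

set_option autoImplicit false
set_option linter.unusedSectionVars false

namespace Fermat.Agent.S16Lib.TraceFour

open UpperHalfPlane ModularForm ModularGroup CongruenceSubgroup Function
open Fermat.Agent.S16Lib.Trace
open scoped MatrixGroups ModularForm Manifold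

variable {p : ℕ} [Fact p.Prime]

/-- `F²` as a form of weight `4`. -/
noncomputable def sqForm (F : ModularForm (Gamma0 p) 2) : ModularForm (Gamma0 p) 4 :=
  ModularForm.mcast (by norm_num) (F.mul F)

theorem sqForm_coe (F : ModularForm (Gamma0 p) 2) : ⇑(sqForm F) = ⇑F * ⇑F := rfl

theorem qExpansion_sqForm (F : ModularForm (Gamma0 p) 2) :
    qExpansion 1 (sqForm F) = (qExpansion 1 F) ^ 2 := by
  rw [sqForm_coe, sq]
  exact ModularForm.qExpansion_mul_coe one_pos one_mem_sp F F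

theorem psi_sqForm (F : ModularForm (Gamma0 p) 2) :
    psi (sqForm F) 0 = psi F 0 * psi F 0 := by
  rw [psi_zero, psi_zero, sqForm_coe]
  exact ModularForm.mul_slash_SL2 2 2 S _ _

theorem qExpansion_psi_sqForm (F : ModularForm (Gamma0 p) 2) :
    qExpansion (p : ℝ) (psi (sqForm F) 0) = (qExpansion (p : ℝ) (psi F 0)) ^ 2 := by
  rw [psi_sqForm, sq]
  exact qExpansion_mul (psi_analytic F) (psi_analytic F)

/-- the trace identity in weight four, on `q`-expansions -/
theorem coeff_add_eq (F : ModularForm (Gamma0 p) 4) :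
    ∃ c : ℂ, ∀ n : ℕ, (qExpansion 1 F).coeff n +
      (p : ℂ) * (qExpansion (p : ℝ) (psi F 0)).coeff (p * n) = c * (qExpansion 1 E₄).coeff n := by
  obtain ⟨c, hc⟩ := traceFun_four F
  refine ⟨c, fun n => ?_⟩
  have h := fun τ => hasSum_traceFun F τ
  have h0 : ∀ τ : ℍ, traceFun F τ = (c • E₄ : ModularForm 𝒮ℒ 4) τ := by
    intro τ; rw [hc]; rfl
  simp_rw [h0] at h
  have h1 := ModularFormClass.qExpansion_coeff_unique one_pos one_mem_strictPeriods_SL h n
  rw [h1]
  have h2 : qExpansion 1 (⇑(c • E₄ : ModularForm 𝒮ℒ 4)) = c • qExpansion 1 (⇑E₄) :=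
    ModularForm.qExpansion_smul one_pos one_mem_strictPeriods_SL c E₄
  rw [h2, PowerSeries.coeff_smul, smul_eq_mul]

/-- **(B)** from (A1). -/
theorem tr4_of (F : ModularForm (Gamma0 p) 2)
    (hA1 : qExpansion (p : ℝ) (⇑F ∣[(2 : ℤ)] S) = (-(1 / p : ℂ)) • Uop p (qExpansion 1 F)) :
    (p : ℂ) • (qExpansion 1 F) ^ 2 + Uop p ((Uop p (qExpansion 1 F)) ^ 2) =
      (((p : ℂ) + 1) * ((qExpansion 1 F).coeff 0) ^ 2) • qExpansion 1 E₄ := by
  have hp0 : (p : ℂ) ≠ 0 := Nat.cast_ne_zero.mpr (Fact.out : p.Prime).ne_zero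
  obtain ⟨c, hc⟩ := coeff_add_eq (sqForm F)
  have hpsi : qExpansion (p : ℝ) (psi (sqForm F) 0) =
      ((1 / (p : ℂ)) ^ 2) • (Uop p (qExpansion 1 F)) ^ 2 := by
    rw [qExpansion_psi_sqForm, psi_zero, hA1]
    rw [smul_pow]
    congr 1
    ring
  have key : ∀ n : ℕ, (p : ℂ) * ((qExpansion 1 F) ^ 2).coeff n +
      ((Uop p (qExpansion 1 F)) ^ 2).coeff (p * n) = (p : ℂ) * c * (qExpansion 1 E₄).coeff n := by
    intro n
    have h := hc n
    rw [qExpansion_sqForm, hpsi, PowerSeries.coeff_smul, smul_eq_mul] at h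
    rw [mul_assoc, ← h]
    field_simp
  have hc0 : (p : ℂ) * c = ((p : ℂ) + 1) * ((qExpansion 1 F).coeff 0) ^ 2 := by
    have h := key 0
    rw [EisensteinSeries.E_qExpansion_coeff_zero (by norm_num) ⟨2, rfl⟩, mul_one, mul_zero] at h
    rw [← h]
    have e1 : ((qExpansion 1 F) ^ 2).coeff 0 = ((qExpansion 1 F).coeff 0) ^ 2 := by
      simp [sq, PowerSeries.coeff_mul]
    have e2 : ((Uop p (qExpansion 1 F)) ^ 2).coeff 0 = ((qExpansion 1 F).coeff 0) ^ 2 := by
      simp [sq, PowerSeries.coeff_mul, Uop]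
    rw [e1, e2]; ring
  ext n
  rw [map_add, PowerSeries.coeff_smul, PowerSeries.coeff_smul, smul_eq_mul, smul_eq_mul, ← hc0]
  have hU : (Uop p ((Uop p (qExpansion 1 F)) ^ 2)).coeff n =
      ((Uop p (qExpansion 1 F)) ^ 2).coeff (p * n) := by
    simp [Uop]
  rw [hU]
  exact key n

/-- **(A3)** `U_p U_p f = f` from (A1) and the vanishing of the trace in weight two. -/
theorem uu_of (F : ModularForm (Gamma0 p) 2)
    (hA1 : qExpansion (p : ℝ) (⇑F ∣[(2 : ℤ)] S) = (-(1 / p : ℂ)) • Uop p (qExpansion 1 F)) :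
    Uop p (Uop p (qExpansion 1 F)) = qExpansion 1 F := by
  have hp0 : (p : ℂ) ≠ 0 := Nat.cast_ne_zero.mpr (Fact.out : p.Prime).ne_zero
  ext n
  have h := coeff_add_eq_zero F n
  rw [psi_zero, hA1, PowerSeries.coeff_smul, smul_eq_mul] at h
  have hU : (Uop p (qExpansion 1 F)).coeff (p * n) = (qExpansion 1 F).coeff (p * (p * n)) := by
    simp [Uop]
  have hUU : (Uop p (Uop p (qExpansion 1 F))).coeff n = (qExpansion 1 F).coeff (p * (p * n)) := by
    simp [Uop]
  rw [hU] at h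
  rw [hUU]
  have h' : (qExpansion 1 F).coeff n - (qExpansion 1 F).coeff (p * (p * n)) = 0 := by
    rw [← h]; field_simp; ring
  exact (sub_eq_zero.mp h').symm

end Fermat.Agent.S16Lib.TraceFour
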