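import Fermat.Agent.S16Lib.ClaimsTR
import Fermat.Agent.S16Lib.TraceFour

/-!
# S16Lib.ClaimsTRA1 — the five TR4 cases of the claims (E) from the single hypothesis (A1):
`qExpansion p (F ∣ S) = -(1/p) • U_p (qExpansion 1 F)` for all `F ∈ M₂(Γ₀(p))`.
-/

set_option autoImplicit false

namespace Fermat.Agent.S16Lib.ClaimsTRA1

open UpperHalfPlane CongruenceSubgroup PowerSeries ModularGroup
open scoped MatrixGroups ModularForm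

/-- (A1): the `q^{1/p}`-expansion of `F ∣ S`. -/
def HypA1 (p : ℕ) : Prop :=
  ∀ F : ModularForm (Gamma0 p) 2,
    qExpansion (p : ℝ) (⇑F ∣[(2 : ℤ)] S) = (-(1 / p : ℂ)) • Uop p (qExpansion 1 F)

variable {p : ℕ} [Fact p.Prime]

theorem hypUU_of (h : HypA1 p) : ClaimsTR.HypUU p := fun F => TraceFour.uu_of F (h F)

theorem hypTR_of (h : HypA1 p) : ClaimsTR.HypTR p := fun F => TraceFour.tr4_of F (h F)

/-- **C5, TR4 case**: `r ≥ 5` prime, `p % r ≠ r - 1` (and `p ≠ 5` if `r = 5`). -/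
theorem c5 (h : HypA1 p) {r : ℕ} (hr : r.Prime) (hr5 : 5 ≤ r) (hpr : p % r ≠ r - 1)
    (hp5 : r = 5 → p ≠ 5) (F : ModularForm (Gamma0 p) 2) (d : ℕ) (hd : d.Coprime r)
    (h0 : (qExpansion 1 F).coeff 0 = 1)
    (hF : ∀ k, 1 ≤ k → ∃ m : ℤ, (d : ℂ) * (qExpansion 1 F).coeff k = (r : ℂ) * (m : ℂ)) :
    False :=
  ClaimsTR.c5 (hypUU_of h) (hypTR_of h) hr hr5 hpr hp5 F d hd h0 hF

/-- **C3a**: `p % 3 = 1`, `M = 3`. -/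
theorem c3a (h : HypA1 p) (hp3 : p % 3 = 1) (F : ModularForm (Gamma0 p) 2) (d : ℕ)
    (hd : d.Coprime 3) (h0 : (qExpansion 1 F).coeff 0 = 1)
    (hF : ∀ k, 1 ≤ k → ∃ m : ℤ, (d : ℂ) * (qExpansion 1 F).coeff k = ((3 : ℕ) : ℂ) * (m : ℂ)) :
    False :=
  ClaimsTR.c3a (hypUU_of h) (hypTR_of h) hp3 F d hd h0 hF

/-- **C3b, TR4 case**: `p % 9 ∈ {2, 5}`, `M = 9`. -/
theorem c3b (h : HypA1 p) (hp9 : p % 9 = 2 ∨ p % 9 = 5) (F : ModularForm (Gamma0 p) 2) (d : ℕ)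
    (hd : d.Coprime 3) (h0 : (qExpansion 1 F).coeff 0 = 1)
    (hF : ∀ k, 1 ≤ k → ∃ m : ℤ, (d : ℂ) * (qExpansion 1 F).coeff k = ((9 : ℕ) : ℂ) * (m : ℂ)) :
    False :=
  ClaimsTR.c3b (hypUU_of h) (hypTR_of h) hp9 F d hd h0 hF

/-- **C2a**: `p % 4 = 1`, `M = 4`. -/
theorem c2a (h : HypA1 p) (hp4 : p % 4 = 1) (F : ModularForm (Gamma0 p) 2) (d : ℕ)
    (hd : d.Coprime 2) (h0 : (qExpansion 1 F).coeff 0 = 1)
    (hF : ∀ k, 1 ≤ k → ∃ m : ℤ, (d : ℂ) * (qExpansion 1 F).coeff k = ((4 : ℕ) : ℂ) * (m : ℂ)) :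
    False :=
  ClaimsTR.c2a (hypUU_of h) (hypTR_of h) hp4 F d hd h0 hF

/-- **C2b, TR4 case**: `p % 8 = 3`, `M = 8`. -/
theorem c2b (h : HypA1 p) (hp8 : p % 8 = 3) (F : ModularForm (Gamma0 p) 2) (d : ℕ)
    (hd : d.Coprime 2) (h0 : (qExpansion 1 F).coeff 0 = 1)
    (hF : ∀ k, 1 ≤ k → ∃ m : ℤ, (d : ℂ) * (qExpansion 1 F).coeff k = ((8 : ℕ) : ℂ) * (m : ℂ)) :
    False :=
  ClaimsTR.c2b (hypUU_of h) (hypTR_of h) hp8 F d hd h0 hF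

end Fermat.Agent.S16Lib.ClaimsTRA1
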