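import Mathlib
import Fermat.Agent.S21
import Fermat.Agent.GenusLib.ESPrim
import Fermat.Agent.S22Lib.Hecke
import Fermat.Prelude.Def_CuspForm_HeckeAlgebra

/-!
# S16 (G)(2): Hecke operators on parabolic homomorphisms

The Hecke algebra of weight 2 and level `N` acts on `parabolicHoms ℂ (Gamma0 N) ℂ` by transport
through the Eichler–Shimura isomorphism (S21).  On a hom `ψ` the generators act by the classical
coset formula `γ ↦ ∑ i, ψ (t i)` for any decomposition `α i * γ = t i * α (σ i)`, and the action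
preserves integer valued homs.
-/

set_option autoImplicit false

noncomputable section

namespace Fermat.Agent.S16Lib.HeckeHom

open UpperHalfPlane hiding I
open Filter Topology Complex
open scoped Real MatrixGroups ModularForm Manifold
open CongruenceSubgroup ModularCurve ModularCurve.Period CuspForm
open Fermat.Agent.S22Lib Matrix.SpecialLinearGroup
open Fermat.Agent.GenusLib.ES
open P2MW.S_ModularForm_heckeT_slash_eq_self_of_mem_Gamma0.ModularForm.HeckeSlashInvariance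

variable {N : ℕ} [NeZero N]

/-- chain rule for a positive-determinant real matrix -/
theorem hasDerivAt_comp_gl {f F : ℍ → ℂ} (hF : ∀ τ : ℍ, HasDerivAt (F ∘ ofComplex) (f τ) τ)
    {g : GL (Fin 2) ℝ} (hg : 0 < g.val.det) (τ : ℍ) :
    HasDerivAt ((fun w : ℍ => F (g • w)) ∘ ofComplex) ((f ∣[(2 : ℤ)] g) τ) τ := by
  have h0 : PrimOf f 0 (fun τ _ _ => F τ) := by
    intro x y τ
    have h := hF τ
    simp only [pow_zero, mul_one]
    exact h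
  have h1 := h0.mv hg
  have h2 := h1 0 0 τ
  simp only [pow_zero, mul_one] at h2
  have hk : ((0 : ℕ) : ℤ) + 2 = 2 := by norm_num
  rw [hk] at h2
  exact h2

theorem vv_prim (f : CuspForm (Gamma0 N) 2) : VV (prim f) :=
  fun x₀ => (prim_tendsto f).comp (tendsto_vert x₀)

section general

variable {ι : Type*} [Fintype ι] (α : ι → GL (Fin 2) ℝ)

theorem prim_of_sum
    (h10 : ∀ i, (α i) 1 0 = 0) (h00 : ∀ i, 0 < (α i) 0 0) (h11 : ∀ i, 0 < (α i) 1 1)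
    (f Tf : CuspForm (Gamma0 N) 2) (hT : ⇑Tf = ∑ i, (⇑f) ∣[(2 : ℤ)] α i) :
    prim Tf = fun τ => ∑ i, prim f (α i • τ) := by
  refine eq_of_hasDerivAt_of_tendsto (d := ⇑Tf) (prim_hasDerivAt Tf) (fun τ => ?_) ?_
  · have h := HasDerivAt.fun_sum (u := Finset.univ) (fun i _ =>
      hasDerivAt_comp_gl (prim_hasDerivAt f) (Hecke.det_pos_of_upper (h10 i) (h00 i) (h11 i)) τ)
    rw [hT, Finset.sum_apply]
    exact h
  · have h1 : VV (fun τ => prim Tf τ - ∑ i, prim f (α i • τ)) :=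
      (vv_prim Tf).sub (VV.sum Finset.univ fun i _ =>
        (vv_prim f).smul_upper (h10 i) (h00 i) (h11 i))
    have h2 := h1 0
    simpa using h2

theorem periodMap_of_decomp
    (h10 : ∀ i, (α i) 1 0 = 0) (h00 : ∀ i, 0 < (α i) 0 0) (h11 : ∀ i, 0 < (α i) 1 1)
    (f Tf : CuspForm (Gamma0 N) 2) (hT : ⇑Tf = ∑ i, (⇑f) ∣[(2 : ℤ)] α i)
    (γ : Gamma0 N) (σ : Equiv.Perm ι) (t : ι → Gamma0 N)
    (hdec : ∀ i, α i * mapGL ℝ (γ : SL(2, ℤ)) = mapGL ℝ (t i : SL(2, ℤ)) * α (σ i)) :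
    periodMap N Tf (Additive.ofMul γ) = ∑ i, periodMap N f (Additive.ofMul (t i)) := by
  simp only [periodMap_apply]
  show prim Tf ((γ : SL(2, ℤ)) • UpperHalfPlane.I) - prim Tf UpperHalfPlane.I = _
  rw [prim_of_sum α h10 h00 h11 f Tf hT]
  simp only
  have key : ∀ i, prim f (α i • ((γ : SL(2, ℤ)) • UpperHalfPlane.I))
      = prim f (α (σ i) • UpperHalfPlane.I) + per f (t i : SL(2, ℤ)) := by
    intro i
    have h : α i • ((γ : SL(2, ℤ)) • UpperHalfPlane.I)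
        = (t i : SL(2, ℤ)) • (α (σ i) • UpperHalfPlane.I) := by
      show α i • ((mapGL ℝ (γ : SL(2, ℤ)) : GL (Fin 2) ℝ) • UpperHalfPlane.I)
        = (mapGL ℝ (t i : SL(2, ℤ)) : GL (Fin 2) ℝ) • (α (σ i) • UpperHalfPlane.I)
      rw [← mul_smul, ← mul_smul, hdec i]
    rw [h, prim_smul_eq f (t i).2]
  simp only [key]
  rw [Finset.sum_add_distrib, Equiv.sum_comp σ (fun i => prim f (α i • UpperHalfPlane.I))]
  ring

end general


/-- the matrix `diag(1, -1)` -/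
def Dm : GL (Fin 2) ℝ := ModularForm.upperTriangularGL 1 0 (-1) (by norm_num)

theorem Dm_mapGL (γ : SL(2, ℤ)) : Dm * mapGL ℝ γ = mapGL ℝ (jConjSL γ) * Dm := by
  ext i j
  fin_cases i <;> fin_cases j <;>
    simp [Dm, Matrix.mul_apply, Fin.sum_univ_two, jConjMat]

theorem grp_aux {G : Type*} [Group G] (D a a' g g' t t' s s' e e' : G)
    (h1 : D * a = e * a' * D) (h2 : D * g = g' * D) (h3 : D * t = t' * D)
    (h4 : D * s = e' * s' * D) (h5 : a * g = t * s) : a' * g' = e⁻¹ * t' * e' * s' := by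
  have ha' : a' = e⁻¹ * (D * a) * D⁻¹ := by rw [h1]; group
  have hg' : g' = (D * g) * D⁻¹ := by rw [h2]; group
  rw [ha', hg']
  calc e⁻¹ * (D * a) * D⁻¹ * (D * g * D⁻¹) = e⁻¹ * (D * (a * g)) * D⁻¹ := by group
    _ = e⁻¹ * ((D * t) * s) * D⁻¹ := by rw [h5]; group
    _ = e⁻¹ * t' * (D * s) * D⁻¹ := by rw [h3]; group
    _ = e⁻¹ * t' * e' * s' := by rw [h4]; group

section general2

variable {ι : Type*} [Fintype ι] (α : ι → GL (Fin 2) ℝ)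

theorem periodMap_of_decomp_J
    (h10 : ∀ i, (α i) 1 0 = 0) (h00 : ∀ i, 0 < (α i) 0 0) (h11 : ∀ i, 0 < (α i) 1 1)
    (f Tf : CuspForm (Gamma0 N) 2) (hT : ⇑Tf = ∑ i, (⇑f) ∣[(2 : ℤ)] α i)
    (ν : Equiv.Perm ι)
    (hJ : ∀ i, ∃ e : Gamma0 N, Dm * α i = mapGL ℝ (e : SL(2, ℤ)) * α (ν i) * Dm)
    (γ : Gamma0 N) (σ : Equiv.Perm ι) (t : ι → Gamma0 N)
    (hdec : ∀ i, α i * mapGL ℝ (γ : SL(2, ℤ)) = mapGL ℝ (t i : SL(2, ℤ)) * α (σ i)) :
    periodMap N Tf (Additive.ofMul (jConjGamma0 N γ))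
      = ∑ i, periodMap N f (Additive.ofMul (jConjGamma0 N (t i))) := by
  choose e he using hJ
  have hdec' : ∀ k, α k * mapGL ℝ ((jConjGamma0 N γ : Gamma0 N) : SL(2, ℤ))
      = mapGL ℝ ((((e (ν.symm k))⁻¹ * jConjGamma0 N (t (ν.symm k)) * e (σ (ν.symm k)) :
          Gamma0 N)) : SL(2, ℤ)) * α ((ν.symm.trans (σ.trans ν)) k) := by
    intro k
    have h1 : Dm * α (ν.symm k) = mapGL ℝ (e (ν.symm k) : SL(2, ℤ)) * α k * Dm := by
      have := he (ν.symm k)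
      rwa [Equiv.apply_symm_apply] at this
    have := grp_aux Dm (α (ν.symm k)) (α k) (mapGL ℝ (γ : SL(2, ℤ)))
      (mapGL ℝ (jConjSL (γ : SL(2, ℤ)))) (mapGL ℝ (t (ν.symm k) : SL(2, ℤ)))
      (mapGL ℝ (jConjSL (t (ν.symm k) : SL(2, ℤ)))) (α (σ (ν.symm k)))
      (α (ν (σ (ν.symm k)))) (mapGL ℝ (e (ν.symm k) : SL(2, ℤ)))
      (mapGL ℝ (e (σ (ν.symm k)) : SL(2, ℤ))) h1 (Dm_mapGL _) (Dm_mapGL _) (he _) (hdec _)
    rw [jConjGamma0_coe, this]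
    simp [map_mul, map_inv, mul_assoc]
  rw [periodMap_of_decomp α h10 h00 h11 f Tf hT (jConjGamma0 N γ) _ _ hdec']
  rw [← Equiv.sum_comp ν (fun k => periodMap N f (Additive.ofMul
    ((e (ν.symm k))⁻¹ * jConjGamma0 N (t (ν.symm k)) * e (σ (ν.symm k)))))]
  simp only [Equiv.symm_apply_apply, ofMul_mul, ofMul_inv, map_add, map_neg]
  rw [Finset.sum_add_distrib, Finset.sum_add_distrib, Finset.sum_neg_distrib,
    Equiv.sum_comp σ (fun i => periodMap N f (Additive.ofMul (e i)))]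
  ring

theorem periodHomPair_of_decomp
    (h10 : ∀ i, (α i) 1 0 = 0) (h00 : ∀ i, 0 < (α i) 0 0) (h11 : ∀ i, 0 < (α i) 1 1)
    (T : Module.End ℂ (CuspForm (Gamma0 N) 2))
    (hT : ∀ f, ⇑(T f) = ∑ i, (⇑f) ∣[(2 : ℤ)] α i)
    (ν : Equiv.Perm ι)
    (hJ : ∀ i, ∃ e : Gamma0 N, Dm * α i = mapGL ℝ (e : SL(2, ℤ)) * α (ν i) * Dm)
    (f g : CuspForm (Gamma0 N) 2)
    (γ : Gamma0 N) (σ : Equiv.Perm ι) (t : ι → Gamma0 N)
    (hdec : ∀ i, α i * mapGL ℝ (γ : SL(2, ℤ)) = mapGL ℝ (t i : SL(2, ℤ)) * α (σ i)) :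
    periodHomPair N (T f, T g) (Additive.ofMul γ)
      = ∑ i, periodHomPair N (f, g) (Additive.ofMul (t i)) := by
  have A := periodMap_of_decomp α h10 h00 h11 f (T f) (hT f) γ σ t hdec
  have B := periodMap_of_decomp α h10 h00 h11 g (T g) (hT g) γ σ t hdec
  have A' := periodMap_of_decomp_J α h10 h00 h11 f (T f) (hT f) ν hJ γ σ t hdec
  have B' := periodMap_of_decomp_J α h10 h00 h11 g (T g) (hT g) ν hJ γ σ t hdec
  simp only [periodMap_apply, jConjGamma0_coe] at A B A' B'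
  simp only [periodHomPair_apply]
  rw [A, B, A', B']
  simp only [Finset.sum_add_distrib, Finset.sum_sub_distrib]

end general2

variable (N)

/-- Eichler–Shimura as a linear equivalence (S21). -/
def esEquiv : (CuspForm (Gamma0 N) 2 × CuspForm (Gamma0 N) 2) ≃ₗ[ℂ]
    parabolicHoms ℂ (Gamma0 N) ℂ :=
  (LinearEquiv.ofInjective (periodHomPair N) (Fermat.Agent.S21.result N).1).trans
    (LinearEquiv.ofEq _ _ (Fermat.Agent.S21.result N).2)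

theorem esEquiv_coe (x : CuspForm (Gamma0 N) 2 × CuspForm (Gamma0 N) 2) :
    ((esEquiv N x : parabolicHoms ℂ (Gamma0 N) ℂ) : Additive (Gamma0 N) →+ ℂ)
      = periodHomPair N x := rfl

/-- the diagonal action on pairs -/
def diagEnd : Module.End ℂ (CuspForm (Gamma0 N) 2) →+*
    Module.End ℂ (CuspForm (Gamma0 N) 2 × CuspForm (Gamma0 N) 2) :=
  (LinearMap.prodMapRingHom ℂ (CuspForm (Gamma0 N) 2) (CuspForm (Gamma0 N) 2)).comp
    (RingHom.prod (RingHom.id _) (RingHom.id _))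

/-- transport of an endomorphism of cusp forms to parabolic homs -/
def rhoEnd : Module.End ℂ (CuspForm (Gamma0 N) 2) →+*
    Module.End ℂ (parabolicHoms ℂ (Gamma0 N) ℂ) :=
  ((esEquiv N).conjRingEquiv : Module.End ℂ (CuspForm (Gamma0 N) 2 × CuspForm (Gamma0 N) 2) ≃+*
    Module.End ℂ (parabolicHoms ℂ (Gamma0 N) ℂ)).toRingHom.comp (diagEnd N)

theorem rhoEnd_apply (T : Module.End ℂ (CuspForm (Gamma0 N) 2)) (f g : CuspForm (Gamma0 N) 2) :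
    rhoEnd N T (esEquiv N (f, g)) = esEquiv N (T f, T g) := by
  simp [rhoEnd, diagEnd]

/-- The Hecke algebra acting on parabolic homs. -/
def rho : heckeAlgebra N 2 ∅ →+* Module.End ℂ (parabolicHoms ℂ (Gamma0 N) ℂ) :=
  (rhoEnd N).comp (heckeAlgebra N 2 ∅).val.toRingHom

theorem rho_eq (x : heckeAlgebra N 2 ∅) : rho N x = rhoEnd N x.1 := rfl

theorem rhoEnd_apply_of_decomp {ι : Type*} [Fintype ι] (α : ι → GL (Fin 2) ℝ)
    (h10 : ∀ i, (α i) 1 0 = 0) (h00 : ∀ i, 0 < (α i) 0 0) (h11 : ∀ i, 0 < (α i) 1 1)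
    (T : Module.End ℂ (CuspForm (Gamma0 N) 2))
    (hT : ∀ f, ⇑(T f) = ∑ i, (⇑f) ∣[(2 : ℤ)] α i)
    (ν : Equiv.Perm ι)
    (hJ : ∀ i, ∃ e : Gamma0 N, Dm * α i = mapGL ℝ (e : SL(2, ℤ)) * α (ν i) * Dm)
    (ψ : parabolicHoms ℂ (Gamma0 N) ℂ)
    (γ : Gamma0 N) (σ : Equiv.Perm ι) (t : ι → Gamma0 N)
    (hdec : ∀ i, α i * mapGL ℝ (γ : SL(2, ℤ)) = mapGL ℝ (t i : SL(2, ℤ)) * α (σ i)) :
    (rhoEnd N T ψ : Additive (Gamma0 N) →+ ℂ) (Additive.ofMul γ)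
      = ∑ i, (ψ : Additive (Gamma0 N) →+ ℂ) (Additive.ofMul (t i)) := by
  obtain ⟨⟨f, g⟩, rfl⟩ := (esEquiv N).surjective ψ
  rw [rhoEnd_apply]
  simp only [esEquiv_coe]
  exact periodHomPair_of_decomp α h10 h00 h11 T hT ν hJ f g γ σ t hdec


variable {N}

theorem Dm_heckeMatrix {ℓ : ℕ} (hℓ : ℓ ≠ 0) (j j' : ℕ) (m : ℤ) (h : (j' : ℤ) + j = ℓ * m) :
    ∃ e : Gamma0 N, Dm * ModularForm.heckeMatrix ℓ j
      = mapGL ℝ (e : SL(2, ℤ)) * ModularForm.heckeMatrix ℓ j' * Dm := by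
  refine ⟨⟨⟨!![1, -m; 0, 1], by simp [Matrix.det_fin_two_of]⟩, by rw [Gamma0_mem]; simp⟩, ?_⟩
  ext a b
  fin_cases a <;> fin_cases b <;>
    simp [Dm, hℓ, Matrix.mul_apply, Fin.sum_univ_two]
  all_goals first
    | (have := congrArg (Int.cast : ℤ → ℝ) h; push_cast at this ⊢; linear_combination this)
    | (have := congrArg (Int.cast : ℤ → ℝ) h; push_cast at this ⊢; linear_combination -this)
    | ring1

theorem Dm_heckeDiagMatrix {ℓ : ℕ} (hℓ : ℓ ≠ 0) :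
    ∃ e : Gamma0 N, Dm * ModularForm.heckeDiagMatrix ℓ
      = mapGL ℝ (e : SL(2, ℤ)) * ModularForm.heckeDiagMatrix ℓ * Dm := by
  refine ⟨1, ?_⟩
  ext a b
  fin_cases a <;> fin_cases b <;>
    simp [Dm, hℓ, Matrix.mul_apply, Fin.sum_univ_two]

theorem exists_neg_val {q : ℕ} [NeZero q] (j : ZMod q) :
    ∃ m : ℤ, (((-j).val : ℕ) : ℤ) + (j.val : ℤ) = q * m := by
  have h : (q : ℤ) ∣ (((-j).val : ℕ) : ℤ) + (j.val : ℤ) := by
    rw [← ZMod.intCast_zmod_eq_zero_iff_dvd]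
    push_cast
    simp
  exact h

variable (N)

theorem exists_decomp_T {ℓ : ℕ} (hℓ : ℓ.Prime) (hℓN : ¬ ℓ ∣ N) (γ : Gamma0 N) :
    ∃ (σ : Equiv.Perm (OnePoint (ZMod ℓ))) (t : OnePoint (ZMod ℓ) → Gamma0 N),
      ∀ i, heckeRep ℓ i * mapGL ℝ (γ : SL(2, ℤ))
        = mapGL ℝ (t i : SL(2, ℤ)) * heckeRep ℓ (σ i) := by
  haveI : Fact ℓ.Prime := ⟨hℓ⟩
  have hcN : (N : ℤ) ∣ (γ : SL(2, ℤ)) 1 0 :=
    (ZMod.intCast_zmod_eq_zero_iff_dvd _ _).mp (Gamma0_mem.mp γ.2)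
  choose g' hg' hmul using fun x => heckeRep_mul hℓN (γ : SL(2, ℤ)) hcN x
  exact ⟨MulAction.toPerm (redMatrix ℓ (γ : SL(2, ℤ))),
    fun x => ⟨g' x, Gamma0_mem.mpr ((ZMod.intCast_zmod_eq_zero_iff_dvd _ _).mpr (hg' x))⟩, hmul⟩

theorem exists_decomp_U {q : ℕ} (hqN : q ∣ N) (γ : Gamma0 N) :
    ∃ (σ : Equiv.Perm (ZMod q)) (t : ZMod q → Gamma0 N),
      ∀ i, ModularForm.heckeMatrix q i.val * mapGL ℝ (γ : SL(2, ℤ))
        = mapGL ℝ (t i : SL(2, ℤ)) * ModularForm.heckeMatrix q (σ i).val := by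
  have hq0 : q ≠ 0 := by
    rintro rfl
    exact NeZero.ne N (zero_dvd_iff.mp hqN)
  haveI : NeZero q := ⟨hq0⟩
  have hcN : (N : ℤ) ∣ (γ : SL(2, ℤ)) 1 0 :=
    (ZMod.intCast_zmod_eq_zero_iff_dvd _ _).mp (Gamma0_mem.mp γ.2)
  have hc : (q : ℤ) ∣ (γ : SL(2, ℤ)) 1 0 := (Int.natCast_dvd_natCast.mpr hqN).trans hcN
  choose g' hg' hmul using fun x => heckeMatrix_mul_of_dvd (γ : SL(2, ℤ)) hc x
  refine ⟨affinePerm (γ : SL(2, ℤ)) ((ZMod.intCast_zmod_eq_zero_iff_dvd _ _).mpr hc),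
    fun x => ⟨g' x, ?_⟩, hmul⟩
  rw [Gamma0_mem, hg' x]
  push_cast
  rw [Gamma0_mem.mp γ.2, mul_zero]

theorem rhoEnd_T_apply {ℓ : ℕ} [NeZero ℓ] (hℓ : ℓ.Prime) (hℓN : ¬ ℓ ∣ N)
    (ψ : parabolicHoms ℂ (Gamma0 N) ℂ) (γ : Gamma0 N)
    (σ : Equiv.Perm (OnePoint (ZMod ℓ))) (t : OnePoint (ZMod ℓ) → Gamma0 N)
    (hdec : ∀ i, heckeRep ℓ i * mapGL ℝ (γ : SL(2, ℤ))
      = mapGL ℝ (t i : SL(2, ℤ)) * heckeRep ℓ (σ i)) :
    (rhoEnd N (heckeTLin 2 hℓ hℓN) ψ : Additive (Gamma0 N) →+ ℂ) (Additive.ofMul γ)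
      = ∑ i, (ψ : Additive (Gamma0 N) →+ ℂ) (Additive.ofMul (t i)) := by
  haveI : Fact ℓ.Prime := ⟨hℓ⟩
  have hℓ0 : ℓ ≠ 0 := hℓ.ne_zero
  have hℓpos : (0 : ℝ) < ℓ := by exact_mod_cast hℓ.pos
  refine rhoEnd_apply_of_decomp N (heckeRep ℓ) ?_ ?_ ?_ (heckeTLin 2 hℓ hℓN) ?_
    (Equiv.optionCongr (Equiv.neg (ZMod ℓ))) ?_ ψ γ σ t hdec
  · intro x
    induction x using OnePoint.rec with
    | infty => simp [heckeRep, ModularForm.val_heckeDiagMatrix hℓ0]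
    | coe j => simp [heckeRep, ModularForm.val_heckeMatrix hℓ0]
  · intro x
    induction x using OnePoint.rec with
    | infty => simpa [heckeRep, ModularForm.val_heckeDiagMatrix hℓ0] using hℓpos
    | coe j => simp [heckeRep, ModularForm.val_heckeMatrix hℓ0]
  · intro x
    induction x using OnePoint.rec with
    | infty => simp [heckeRep, ModularForm.val_heckeDiagMatrix hℓ0]
    | coe j => simpa [heckeRep, ModularForm.val_heckeMatrix hℓ0] using hℓpos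
  · intro f
    rw [CuspForm.coe_heckeTLin_apply, heckeT_eq_sum_onePoint]
  · intro x
    induction x using OnePoint.rec with
    | infty => exact Dm_heckeDiagMatrix hℓ0
    | coe j =>
      obtain ⟨m, hm⟩ := exists_neg_val j
      exact Dm_heckeMatrix hℓ0 j.val (-j).val m hm

theorem rhoEnd_U_apply {q : ℕ} [NeZero q] (hqN : q ∣ N)
    (ψ : parabolicHoms ℂ (Gamma0 N) ℂ) (γ : Gamma0 N)
    (σ : Equiv.Perm (ZMod q)) (t : ZMod q → Gamma0 N)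
    (hdec : ∀ i, ModularForm.heckeMatrix q i.val * mapGL ℝ (γ : SL(2, ℤ))
      = mapGL ℝ (t i : SL(2, ℤ)) * ModularForm.heckeMatrix q (σ i).val) :
    (rhoEnd N (heckeULin 2 hqN) ψ : Additive (Gamma0 N) →+ ℂ) (Additive.ofMul γ)
      = ∑ i, (ψ : Additive (Gamma0 N) →+ ℂ) (Additive.ofMul (t i)) := by
  have hq0 : q ≠ 0 := NeZero.ne q
  have hqpos : (0 : ℝ) < q := by exact_mod_cast Nat.pos_of_ne_zero hq0
  refine rhoEnd_apply_of_decomp N (fun x : ZMod q => ModularForm.heckeMatrix q x.val) ?_ ?_ ?_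
    (heckeULin 2 hqN) ?_ (Equiv.neg (ZMod q)) ?_ ψ γ σ t hdec
  · intro x
    simp [ModularForm.val_heckeMatrix hq0]
  · intro x
    simp [ModularForm.val_heckeMatrix hq0]
  · intro x
    simpa [ModularForm.val_heckeMatrix hq0] using hqpos
  · intro f
    rw [CuspForm.coe_heckeULin_apply, heckeU_eq_sum_zmod]
  · intro x
    obtain ⟨m, hm⟩ := exists_neg_val x
    exact Dm_heckeMatrix hq0 x.val (-x).val m hm

theorem rho_T_apply {ℓ : ℕ} [NeZero ℓ] (hℓ : ℓ.Prime) (hℓN : ¬ ℓ ∣ N) (hS : ℓ ∉ (∅ : Set ℕ))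
    (ψ : parabolicHoms ℂ (Gamma0 N) ℂ) (γ : Gamma0 N)
    (σ : Equiv.Perm (OnePoint (ZMod ℓ))) (t : OnePoint (ZMod ℓ) → Gamma0 N)
    (hdec : ∀ i, heckeRep ℓ i * mapGL ℝ (γ : SL(2, ℤ))
      = mapGL ℝ (t i : SL(2, ℤ)) * heckeRep ℓ (σ i)) :
    (rho N (heckeAlgebra.T hℓ hℓN hS) ψ : Additive (Gamma0 N) →+ ℂ) (Additive.ofMul γ)
      = ∑ i, (ψ : Additive (Gamma0 N) →+ ℂ) (Additive.ofMul (t i)) :=
  rhoEnd_T_apply N hℓ hℓN ψ γ σ t hdec

theorem rho_U_apply {q : ℕ} [NeZero q] (hq : q.Prime) (hqN : q ∣ N) (hS : q ∉ (∅ : Set ℕ))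
    (ψ : parabolicHoms ℂ (Gamma0 N) ℂ) (γ : Gamma0 N)
    (σ : Equiv.Perm (ZMod q)) (t : ZMod q → Gamma0 N)
    (hdec : ∀ i, ModularForm.heckeMatrix q i.val * mapGL ℝ (γ : SL(2, ℤ))
      = mapGL ℝ (t i : SL(2, ℤ)) * ModularForm.heckeMatrix q (σ i).val) :
    (rho N (heckeAlgebra.U hq hqN hS) ψ : Additive (Gamma0 N) →+ ℂ) (Additive.ofMul γ)
      = ∑ i, (ψ : Additive (Gamma0 N) →+ ℂ) (Additive.ofMul (t i)) :=
  rhoEnd_U_apply N hqN ψ γ σ t hdec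

theorem rhoEnd_integral {y : Module.End ℂ (CuspForm (Gamma0 N) 2)}
    (hy : y ∈ heckeAlgebra N 2 ∅) :
    ∀ ψ : parabolicHoms ℂ (Gamma0 N) ℂ,
      (∀ γ, ∃ m : ℤ, (ψ : Additive (Gamma0 N) →+ ℂ) γ = m) →
      ∀ γ, ∃ m : ℤ, (rhoEnd N y ψ : Additive (Gamma0 N) →+ ℂ) γ = m := by
  unfold heckeAlgebra at hy
  induction hy using Algebra.adjoin_induction with
  | mem y hy =>
    rcases hy with ⟨ℓ, hℓ, hℓN, -, rfl⟩ | ⟨q, hqN, hq, -, rfl⟩
    · intro ψ hψ γ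
      haveI : NeZero ℓ := ⟨hℓ.ne_zero⟩
      obtain ⟨σ, t, hdec⟩ := exists_decomp_T N hℓ hℓN (Additive.toMul γ)
      have h := rhoEnd_T_apply N hℓ hℓN ψ (Additive.toMul γ) σ t hdec
      rw [ofMul_toMul] at h
      rw [h]
      choose m hm using hψ
      exact ⟨∑ i, m (Additive.ofMul (t i)), by
        push_cast
        exact Finset.sum_congr rfl fun i _ => hm _⟩
    · intro ψ hψ γ
      haveI : NeZero q := ⟨hq.ne_zero⟩
      obtain ⟨σ, t, hdec⟩ := exists_decomp_U N hqN (Additive.toMul γ)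
      have h := rhoEnd_U_apply N hqN ψ (Additive.toMul γ) σ t hdec
      rw [ofMul_toMul] at h
      rw [h]
      choose m hm using hψ
      exact ⟨∑ i, m (Additive.ofMul (t i)), by
        push_cast
        exact Finset.sum_congr rfl fun i _ => hm _⟩
  | algebraMap r =>
    intro ψ hψ γ
    obtain ⟨m, hm⟩ := hψ γ
    refine ⟨r * m, ?_⟩
    have hr : algebraMap ℤ (Module.End ℂ (CuspForm (Gamma0 N) 2)) r
        = (r : Module.End ℂ (CuspForm (Gamma0 N) 2)) := eq_intCast _ r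
    rw [hr, map_intCast]
    simp [hm]
  | add x y _ _ ihx ihy =>
    intro ψ hψ γ
    obtain ⟨a, ha⟩ := ihx ψ hψ γ
    obtain ⟨b, hb⟩ := ihy ψ hψ γ
    refine ⟨a + b, ?_⟩
    rw [map_add]
    simp [ha, hb]
  | mul x y _ _ ihx ihy =>
    intro ψ hψ γ
    rw [map_mul]
    exact ihx _ (ihy ψ hψ) γ

theorem rho_integral (x : heckeAlgebra N 2 ∅) (ψ : parabolicHoms ℂ (Gamma0 N) ℂ)
    (hψ : ∀ γ, ∃ m : ℤ, (ψ : Additive (Gamma0 N) →+ ℂ) γ = m) :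
    ∀ γ, ∃ m : ℤ, (rho N x ψ : Additive (Gamma0 N) →+ ℂ) γ = m :=
  rhoEnd_integral N x.2 ψ hψ

end Fermat.Agent.S16Lib.HeckeHom
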