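-- S16 piece (G)(1): the Shimura class `χ : Γ₀(p) → ℤ/n`, `n = eisensteinNumerator p`.
import Fermat.Prelude.Def_ModularCurve_ModularUnit
import Fermat.Prelude.Def_ModularCurve_PeriodMap
import Mathlib.GroupTheory.SpecificGroups.Cyclic
import Mathlib.NumberTheory.ModularForms.CongruenceSubgroups
import Mathlib.FieldTheory.Finite.Basic

set_option autoImplicit false

open CongruenceSubgroup
open scoped MatrixGroups

namespace Fermat.Agent.S16Lib.Shimura

/-- The upper-left entry mod `p`, as a monoid hom `Γ₀(p) → ZMod p`. -/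
def aEntryHom (p : ℕ) : Gamma0 p →* ZMod p where
  toFun γ := (((γ : SL(2, ℤ)) : Matrix (Fin 2) (Fin 2) ℤ) 0 0 : ℤ)
  map_one' := by simp
  map_mul' γ δ := by
    have h : (((δ : SL(2, ℤ)) : Matrix (Fin 2) (Fin 2) ℤ) 1 0 : ZMod p) = 0 := Gamma0_mem.mp δ.2
    simp [Matrix.mul_apply, Fin.sum_univ_two, h]

/-- The upper-left entry mod `p` as a unit. -/
def aUnit (p : ℕ) : Gamma0 p →* (ZMod p)ˣ := (aEntryHom p).toHomUnits

theorem aUnit_coe (p : ℕ) (γ : Gamma0 p) :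
    ((aUnit p γ : (ZMod p)ˣ) : ZMod p) =
      (((γ : SL(2, ℤ)) : Matrix (Fin 2) (Fin 2) ℤ) 0 0 : ℤ) := rfl

theorem card_units_zmod (p : ℕ) [Fact p.Prime] : Nat.card (ZMod p)ˣ = p - 1 := by
  rw [Nat.card_units, Nat.card_zmod]

theorem eisensteinNumerator_dvd_card (p : ℕ) [Fact p.Prime] :
    ModularCurve.eisensteinNumerator p ∣ Nat.card (ZMod p)ˣ := by
  rw [card_units_zmod]
  exact Nat.div_dvd_of_dvd (Nat.gcd_dvd_left _ _)

/-- Discrete logarithm `(ℤ/p)ˣ → ℤ/n`. -/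
noncomputable def unitLog (p : ℕ) [Fact p.Prime] :
    Additive (ZMod p)ˣ →+ ZMod (ModularCurve.eisensteinNumerator p) :=
  ((ZMod.castHom (eisensteinNumerator_dvd_card p)
      (ZMod (ModularCurve.eisensteinNumerator p))).toAddMonoidHom).comp
    ((zmodCyclicMulEquiv (G := (ZMod p)ˣ) inferInstance).symm.toMonoidHom.toAdditive)

/-- The Shimura class. -/
noncomputable def shimuraClass (p : ℕ) [Fact p.Prime] :
    Additive (Gamma0 p) →+ ZMod (ModularCurve.eisensteinNumerator p) :=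
  (unitLog p).comp (aUnit p).toAdditive

theorem unitLog_eq_zero_of_pow_twelve (p : ℕ) [Fact p.Prime] (u : (ZMod p)ˣ) (hu : u ^ 12 = 1) :
    unitLog p (Additive.ofMul u) = 0 := by
  have hp2 : 2 ≤ p := (Fact.out : p.Prime).two_le
  set M := Nat.card (ZMod p)ˣ with hM
  have hMp : M = p - 1 := card_units_zmod p
  have : NeZero M := ⟨by omega⟩
  set e := zmodCyclicMulEquiv (G := (ZMod p)ˣ) inferInstance with he
  set x : ZMod M := Multiplicative.toAdd (e.symm u) with hx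
  have h12 : (12 : ℕ) • x = 0 := by
    have : (e.symm u) ^ 12 = 1 := by rw [← map_pow, hu, map_one]
    exact congrArg Multiplicative.toAdd this
  have hval : unitLog p (Additive.ofMul u) = ZMod.castHom (eisensteinNumerator_dvd_card p)
      (ZMod (ModularCurve.eisensteinNumerator p)) x := rfl
  rw [hval]
  have hxv : x = ((x.val : ℕ) : ZMod M) := (ZMod.natCast_zmod_val x).symm
  rw [hxv, map_natCast, ZMod.natCast_eq_zero_iff]
  have h1 : M ∣ 12 * x.val := by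
    rw [← ZMod.natCast_eq_zero_iff]
    rw [hxv] at h12
    simpa [nsmul_eq_mul] using h12
  set g := Nat.gcd (p - 1) 12 with hg
  have hgpos : 0 < g := Nat.gcd_pos_of_pos_right _ (by norm_num)
  have hn : ModularCurve.eisensteinNumerator p = (p - 1) / g := rfl
  rw [hn]
  have hcop : Nat.Coprime ((p - 1) / g) (12 / g) := Nat.coprime_div_gcd_div_gcd hgpos
  have h2 : (p - 1) / g * g = p - 1 := Nat.div_mul_cancel (Nat.gcd_dvd_left _ _)
  have h3 : 12 / g * g = 12 := Nat.div_mul_cancel (Nat.gcd_dvd_right _ _)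
  have h4 : (p - 1) / g ∣ 12 / g * x.val := by
    have h1' : p - 1 ∣ 12 * x.val := hMp ▸ h1
    have : (p - 1) / g * g ∣ (12 / g * x.val) * g := by
      rw [h2, mul_right_comm, h3]; exact h1'
    exact (Nat.mul_dvd_mul_iff_right hgpos).mp this
  exact hcop.dvd_of_dvd_mul_left h4

theorem shimuraClass_apply (p : ℕ) [Fact p.Prime] (γ : Gamma0 p) :
    shimuraClass p (Additive.ofMul γ) = unitLog p (Additive.ofMul (aUnit p γ)) := rfl

theorem shimuraClass_eq_zero_of_pow_twelve (p : ℕ) [Fact p.Prime] (γ : Gamma0 p)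
    (h : γ ^ 12 = 1) : shimuraClass p (Additive.ofMul γ) = 0 := by
  rw [shimuraClass_apply]
  apply unitLog_eq_zero_of_pow_twelve
  rw [← map_pow, h, map_one]

theorem shimuraClass_eq_zero_of_trace (p : ℕ) [Fact p.Prime] (γ : Gamma0 p)
    (h : ((γ : SL(2, ℤ)) : Matrix (Fin 2) (Fin 2) ℤ).trace ^ 2 = 4) :
    shimuraClass p (Additive.ofMul γ) = 0 := by
  rw [shimuraClass_apply]
  apply unitLog_eq_zero_of_pow_twelve
  have hc : ((((γ : SL(2, ℤ)) : Matrix (Fin 2) (Fin 2) ℤ) 1 0 : ℤ) : ZMod p) = 0 :=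
    Gamma0_mem.mp γ.2
  have hdet := (γ : SL(2, ℤ)).2
  rw [Matrix.det_fin_two] at hdet
  rw [Matrix.trace_fin_two] at h
  set a := ((γ : SL(2, ℤ)) : Matrix (Fin 2) (Fin 2) ℤ) 0 0 with ha
  set b := ((γ : SL(2, ℤ)) : Matrix (Fin 2) (Fin 2) ℤ) 0 1 with hb
  set c := ((γ : SL(2, ℤ)) : Matrix (Fin 2) (Fin 2) ℤ) 1 0 with hc'
  set d := ((γ : SL(2, ℤ)) : Matrix (Fin 2) (Fin 2) ℤ) 1 1 with hd
  have h1 : ((a : ℤ) : ZMod p) * (d : ZMod p) = 1 := by
    have := congrArg (Int.cast : ℤ → ZMod p) hdet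
    push_cast at this
    rw [hc, mul_zero, sub_zero] at this
    exact this
  have h2 : (((a : ℤ) : ZMod p) + (d : ZMod p)) ^ 2 = 4 := by
    have := congrArg (Int.cast : ℤ → ZMod p) h
    push_cast at this
    exact this
  have h3 : (((a : ℤ) : ZMod p) - (d : ZMod p)) ^ 2 = 0 := by linear_combination h2 - 4 * h1
  have h4 : ((a : ℤ) : ZMod p) = (d : ZMod p) := by
    have := pow_eq_zero_iff (two_ne_zero) |>.mp h3
    exact sub_eq_zero.mp this
  have h5 : ((a : ℤ) : ZMod p) ^ 2 = 1 := by rw [pow_two]; nth_rewrite 2 [h4]; exact h1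
  have h6 : (aUnit p γ) ^ 2 = 1 := by
    apply Units.ext
    rw [Units.val_pow_eq_pow_val, aUnit_coe]
    exact h5
  calc (aUnit p γ) ^ 12 = ((aUnit p γ) ^ 2) ^ 6 := by rw [← pow_mul]
    _ = 1 := by rw [h6, one_pow]

theorem natCast_prime_eq_one (p : ℕ) [Fact p.Prime] :
    ((p : ℕ) : ZMod (ModularCurve.eisensteinNumerator p)) = 1 := by
  have hp2 : 2 ≤ p := (Fact.out : p.Prime).two_le
  have hdvd : ModularCurve.eisensteinNumerator p ∣ p - 1 := Nat.div_dvd_of_dvd (Nat.gcd_dvd_left _ _)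
  have h0 : ((p - 1 : ℕ) : ZMod (ModularCurve.eisensteinNumerator p)) = 0 :=
    (ZMod.natCast_eq_zero_iff _ _).mpr hdvd
  have h1 : ((p : ℕ) : ZMod (ModularCurve.eisensteinNumerator p)) =
      ((p - 1 : ℕ) : ZMod (ModularCurve.eisensteinNumerator p)) + ((1 : ℕ) : ZMod _) := by
    rw [← Nat.cast_add]; congr 1; omega
  rw [h1, h0, zero_add, Nat.cast_one]

theorem exists_aUnit_eq (p : ℕ) [Fact p.Prime] (u : (ZMod p)ˣ) : ∃ γ : Gamma0 p, aUnit p γ = u := by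
  have hp : p.Prime := Fact.out
  set a : ℕ := (u : ZMod p).val with ha
  have hau : ((a : ℕ) : ZMod p) = (u : ZMod p) := ZMod.natCast_zmod_val _
  have hcop : Nat.Coprime a p := by
    rw [← ZMod.isUnit_iff_coprime, hau]; exact u.isUnit
  have hcop' : IsCoprime (a : ℤ) (p : ℤ) := Nat.isCoprime_iff_coprime.mpr hcop
  obtain ⟨x, y, hxy⟩ := hcop'
  let A : SL(2, ℤ) := ⟨!![(a : ℤ), -y; (p : ℤ), x], by rw [Matrix.det_fin_two_of]; linarith⟩
  have hA : A ∈ Gamma0 p := by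
    rw [Gamma0_mem]
    show (((p : ℤ) : ℤ) : ZMod p) = 0
    simp
  refine ⟨⟨A, hA⟩, ?_⟩
  apply Units.ext
  rw [aUnit_coe]
  show (((a : ℤ) : ℤ) : ZMod p) = _
  rw [Int.cast_natCast, hau]

theorem exists_shimuraClass_eq_one (p : ℕ) [Fact p.Prime] :
    ∃ γ : Gamma0 p, shimuraClass p (Additive.ofMul γ) = 1 := by
  obtain ⟨γ, hγ⟩ := exists_aUnit_eq p
    (zmodCyclicMulEquiv (G := (ZMod p)ˣ) inferInstance (Multiplicative.ofAdd 1))
  refine ⟨γ, ?_⟩
  rw [shimuraClass_apply, hγ]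
  show ZMod.castHom (eisensteinNumerator_dvd_card p) (ZMod (ModularCurve.eisensteinNumerator p))
    (Multiplicative.toAdd ((zmodCyclicMulEquiv (G := (ZMod p)ˣ) inferInstance).symm
      (zmodCyclicMulEquiv (G := (ZMod p)ˣ) inferInstance (Multiplicative.ofAdd 1)))) = 1
  rw [MulEquiv.symm_apply_apply, toAdd_ofAdd, map_one]

theorem sum_shimuraClass_transfer (p : ℕ) [Fact p.Prime] {ι : Type} [Fintype ι]
    (α : ι → Matrix (Fin 2) (Fin 2) ℤ) (σ : Equiv.Perm ι) (t : ι → Gamma0 p) (γ : Gamma0 p)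
    (hc : ∀ i, (p : ℤ) ∣ α i 1 0) (ha : ∀ i, IsUnit ((α i 0 0 : ℤ) : ZMod p))
    (h : ∀ i, α i * ((γ : SL(2, ℤ)) : Matrix (Fin 2) (Fin 2) ℤ) =
      ((t i : SL(2, ℤ)) : Matrix (Fin 2) (Fin 2) ℤ) * α (σ i)) :
    ∑ i, shimuraClass p (Additive.ofMul (t i)) =
      (Fintype.card ι : ZMod (ModularCurve.eisensteinNumerator p)) *
        shimuraClass p (Additive.ofMul γ) := by
  have hγc : ((((γ : SL(2, ℤ)) : Matrix (Fin 2) (Fin 2) ℤ) 1 0 : ℤ) : ZMod p) = 0 :=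
    Gamma0_mem.mp γ.2
  have key : ∀ i, aUnit p (t i) * (ha (σ i)).unit = (ha i).unit * aUnit p γ := by
    intro i
    apply Units.ext
    rw [Units.val_mul, Units.val_mul, aUnit_coe, aUnit_coe, IsUnit.unit_spec, IsUnit.unit_spec]
    have h00 := congrFun (congrFun (h i) 0) 0
    rw [Matrix.mul_apply, Matrix.mul_apply, Fin.sum_univ_two, Fin.sum_univ_two] at h00
    have := congrArg (Int.cast : ℤ → ZMod p) h00
    push_cast at this
    have hci : ((α (σ i) 1 0 : ℤ) : ZMod p) = 0 :=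
      (ZMod.intCast_zmod_eq_zero_iff_dvd _ _).mpr (hc (σ i))
    rw [hγc, hci, mul_zero, mul_zero, add_zero, add_zero] at this
    exact this.symm
  have key2 : ∀ i, shimuraClass p (Additive.ofMul (t i)) =
      unitLog p (Additive.ofMul (ha i).unit) + shimuraClass p (Additive.ofMul γ)
        - unitLog p (Additive.ofMul (ha (σ i)).unit) := by
    intro i
    have hk := congrArg (fun u => unitLog p (Additive.ofMul u)) (key i)
    simp only [ofMul_mul, map_add] at hk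
    rw [shimuraClass_apply, shimuraClass_apply, eq_sub_iff_add_eq]
    exact hk
  rw [Finset.sum_congr rfl (fun i _ => key2 i), Finset.sum_sub_distrib, Finset.sum_add_distrib,
    Equiv.sum_comp σ (fun i => unitLog p (Additive.ofMul (ha i).unit)), Finset.sum_const,
    Finset.card_univ, nsmul_eq_mul]
  ring

theorem aEntry_mul_dEntry (p : ℕ) (γ : Gamma0 p) :
    ((((γ : SL(2, ℤ)) : Matrix (Fin 2) (Fin 2) ℤ) 0 0 : ℤ) : ZMod p) *
      ((((γ : SL(2, ℤ)) : Matrix (Fin 2) (Fin 2) ℤ) 1 1 : ℤ) : ZMod p) = 1 := by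
  have hc : ((((γ : SL(2, ℤ)) : Matrix (Fin 2) (Fin 2) ℤ) 1 0 : ℤ) : ZMod p) = 0 :=
    Gamma0_mem.mp γ.2
  have hdet := (γ : SL(2, ℤ)).2
  rw [Matrix.det_fin_two] at hdet
  have := congrArg (Int.cast : ℤ → ZMod p) hdet
  push_cast at this
  rw [hc, mul_zero, sub_zero] at this
  exact this

theorem shimuraClass_eq_zero_of_trace_eq_zero (p : ℕ) [Fact p.Prime] (γ : Gamma0 p)
    (h : ((γ : SL(2, ℤ)) : Matrix (Fin 2) (Fin 2) ℤ).trace = 0) :
    shimuraClass p (Additive.ofMul γ) = 0 := by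
  rw [shimuraClass_apply]
  apply unitLog_eq_zero_of_pow_twelve
  have h1 := aEntry_mul_dEntry p γ
  rw [Matrix.trace_fin_two] at h
  have h2 := congrArg (Int.cast : ℤ → ZMod p) h
  push_cast at h2
  apply Units.ext
  rw [Units.val_pow_eq_pow_val, aUnit_coe, Units.val_one]
  have h3 : ((((γ : SL(2, ℤ)) : Matrix (Fin 2) (Fin 2) ℤ) 0 0 : ℤ) : ZMod p) ^ 2 = -1 := by
    linear_combination
      ((((γ : SL(2, ℤ)) : Matrix (Fin 2) (Fin 2) ℤ) 0 0 : ℤ) : ZMod p) * h2 - h1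
  calc ((((γ : SL(2, ℤ)) : Matrix (Fin 2) (Fin 2) ℤ) 0 0 : ℤ) : ZMod p) ^ 12
      = (((((γ : SL(2, ℤ)) : Matrix (Fin 2) (Fin 2) ℤ) 0 0 : ℤ) : ZMod p) ^ 2) ^ 6 := by
        rw [← pow_mul]
    _ = 1 := by rw [h3]; norm_num

theorem shimuraClass_eq_zero_of_trace_eq_one (p : ℕ) [Fact p.Prime] (γ : Gamma0 p)
    (h : ((γ : SL(2, ℤ)) : Matrix (Fin 2) (Fin 2) ℤ).trace = 1) :
    shimuraClass p (Additive.ofMul γ) = 0 := by
  rw [shimuraClass_apply]
  apply unitLog_eq_zero_of_pow_twelve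
  have h1 := aEntry_mul_dEntry p γ
  rw [Matrix.trace_fin_two] at h
  have h2 := congrArg (Int.cast : ℤ → ZMod p) h
  push_cast at h2
  apply Units.ext
  rw [Units.val_pow_eq_pow_val, aUnit_coe, Units.val_one]
  have h3 : ((((γ : SL(2, ℤ)) : Matrix (Fin 2) (Fin 2) ℤ) 0 0 : ℤ) : ZMod p) ^ 3 = -1 := by
    linear_combination
      (((((γ : SL(2, ℤ)) : Matrix (Fin 2) (Fin 2) ℤ) 0 0 : ℤ) : ZMod p) ^ 2 +
        ((((γ : SL(2, ℤ)) : Matrix (Fin 2) (Fin 2) ℤ) 0 0 : ℤ) : ZMod p)) * h2 -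
      (((((γ : SL(2, ℤ)) : Matrix (Fin 2) (Fin 2) ℤ) 0 0 : ℤ) : ZMod p) + 1) * h1
  calc ((((γ : SL(2, ℤ)) : Matrix (Fin 2) (Fin 2) ℤ) 0 0 : ℤ) : ZMod p) ^ 12
      = (((((γ : SL(2, ℤ)) : Matrix (Fin 2) (Fin 2) ℤ) 0 0 : ℤ) : ZMod p) ^ 3) ^ 4 := by
        rw [← pow_mul]
    _ = 1 := by rw [h3]; norm_num

end Fermat.Agent.S16Lib.Shimura
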