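-- S16 piece (G)(4): the lower bound `(k : 𝕋) ∈ I → n ∣ k`, from abstract Hecke-on-homs data
-- and an integral lift of the Shimura class.
import Fermat.Prelude.Def_CuspForm_HeckeLocal
import Fermat.Prelude.Def_CuspForm_HeckeEvalForms
import Fermat.Prelude.Def_HeckeGalois_EichlerShimura
import Fermat.Prelude.Def_ModularCurve_ModularUnit
import Fermat.Prelude.Def_ModularCurve_PeriodHomPair
import Fermat.Agent.S16Lib.Shimura

set_option autoImplicit false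

open CongruenceSubgroup ModularCurve ModularCurve.Period CuspForm
open scoped MatrixGroups

namespace Fermat.Agent.S16Lib.LowerBound

open Fermat.Agent.S16Lib.Shimura

/-- The abstract-to-concrete evaluation of Hecke operators is surjective. -/
theorem heckeEvalForms_surjective (N : ℕ) [NeZero N] (k : ℤ) :
    Function.Surjective (heckeEvalForms N k) := by
  rintro ⟨t, ht⟩
  have key : ∀ (s : Module.End ℂ (CuspForm (Gamma0 N) k)) (hs : s ∈ heckeAlgebra N k ∅),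
      ∃ x, heckeEvalForms N k x = ⟨s, hs⟩ := by
    intro s hs
    induction hs using Algebra.adjoin_induction with
    | mem s hs =>
      rcases hs with ⟨ℓ, hℓ, hℓN, hℓS, rfl⟩ | ⟨q, hqN, hq, hqS, rfl⟩
      · exact ⟨heckeGen ⟨ℓ, hℓ⟩, heckeEvalForms_heckeGen_of_not_dvd (ℓ := ⟨ℓ, hℓ⟩) hℓN⟩
      · exact ⟨heckeGen ⟨q, hq⟩, heckeEvalForms_heckeGen_of_dvd (q := ⟨q, hq⟩) hqN⟩
    | algebraMap r =>
      exact ⟨MvPolynomial.C r, by rw [heckeEvalForms_C]; rfl⟩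
    | add s₁ s₂ h₁ h₂ ih₁ ih₂ =>
      obtain ⟨x₁, hx₁⟩ := ih₁
      obtain ⟨x₂, hx₂⟩ := ih₂
      exact ⟨x₁ + x₂, by rw [map_add, hx₁, hx₂]; rfl⟩
    | mul s₁ s₂ h₁ h₂ ih₁ ih₂ =>
      obtain ⟨x₁, hx₁⟩ := ih₁
      obtain ⟨x₂, hx₂⟩ := ih₂
      exact ⟨x₁ * x₂, by rw [map_mul, hx₁, hx₂]; rfl⟩
  exact key t ht

/-- `φ` takes values in `n ℤ`. -/
def NDiv (p : ℕ) (φ : ↥(parabolicHoms ℂ (Gamma0 p) ℂ)) : Prop :=
  ∀ γ : Gamma0 p, ∃ m : ℤ, φ.1 (Additive.ofMul γ) = (eisensteinNumerator p : ℂ) * m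

theorem nDiv_zero (p : ℕ) : NDiv p 0 := fun _ => ⟨0, by simp⟩

theorem nDiv_add (p : ℕ) {φ₁ φ₂ : ↥(parabolicHoms ℂ (Gamma0 p) ℂ)} (h₁ : NDiv p φ₁)
    (h₂ : NDiv p φ₂) : NDiv p (φ₁ + φ₂) := by
  intro γ
  obtain ⟨m₁, hm₁⟩ := h₁ γ
  obtain ⟨m₂, hm₂⟩ := h₂ γ
  refine ⟨m₁ + m₂, ?_⟩
  rw [Submodule.coe_add, AddMonoidHom.add_apply, hm₁, hm₂]
  push_cast; ring

theorem nDiv_intSmul (p : ℕ) (c : ℤ) {φ : ↥(parabolicHoms ℂ (Gamma0 p) ℂ)} (h : NDiv p φ) :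
    NDiv p ((c : ℂ) • φ) := by
  intro γ
  obtain ⟨m, hm⟩ := h γ
  refine ⟨c * m, ?_⟩
  rw [Submodule.coe_smul, AddMonoidHom.smul_apply, hm, smul_eq_mul]
  push_cast; ring

theorem eisensteinNumerator_pos (p : ℕ) [Fact p.Prime] : 0 < eisensteinNumerator p := by
  have hp2 : 2 ≤ p := (Fact.out : p.Prime).two_le
  have hg : 0 < Nat.gcd (p - 1) 12 := Nat.gcd_pos_of_pos_right _ (by norm_num)
  exact Nat.div_pos (Nat.le_of_dvd (by omega) (Nat.gcd_dvd_left _ _)) hg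

theorem nDiv_rho (p : ℕ) [Fact p.Prime]
    (ρ : ↥(heckeAlgebra p 2 ∅) →+* Module.End ℂ ↥(parabolicHoms ℂ (Gamma0 p) ℂ))
    (hρint : ∀ (t : ↥(heckeAlgebra p 2 ∅)) (φ : ↥(parabolicHoms ℂ (Gamma0 p) ℂ)),
      (∀ γ : Gamma0 p, ∃ m : ℤ, φ.1 (Additive.ofMul γ) = m) →
        ∀ γ : Gamma0 p, ∃ m : ℤ, (ρ t φ).1 (Additive.ofMul γ) = m)
    (t : ↥(heckeAlgebra p 2 ∅)) {φ : ↥(parabolicHoms ℂ (Gamma0 p) ℂ)} (h : NDiv p φ) :
    NDiv p (ρ t φ) := by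
  have hn : (eisensteinNumerator p : ℂ) ≠ 0 :=
    Nat.cast_ne_zero.mpr (eisensteinNumerator_pos p).ne'
  have hint : ∀ γ : Gamma0 p, ∃ m : ℤ,
      (((eisensteinNumerator p : ℂ)⁻¹ • φ : ↥(parabolicHoms ℂ (Gamma0 p) ℂ))).1
        (Additive.ofMul γ) = m := by
    intro γ
    obtain ⟨m, hm⟩ := h γ
    refine ⟨m, ?_⟩
    rw [Submodule.coe_smul, AddMonoidHom.smul_apply, hm, smul_eq_mul, inv_mul_cancel_left₀ hn]
  intro γ
  obtain ⟨m, hm⟩ := hρint t _ hint γ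
  refine ⟨m, ?_⟩
  rw [← hm, map_smul, Submodule.coe_smul, AddMonoidHom.smul_apply, smul_eq_mul,
    mul_inv_cancel_left₀ hn]

/-- Common core of the `T_ℓ` and `U_q` cases: an integral lift of the Shimura class is an
Eisenstein eigenvector modulo `n`. -/
theorem transfer_congr (p : ℕ) [Fact p.Prime]
    (ψ : Additive (Gamma0 p) →+ ℂ)
    (hψ : ∀ γ : Gamma0 p, ∃ m : ℤ, ψ (Additive.ofMul γ) = m ∧
      (m : ZMod (eisensteinNumerator p)) = shimuraClass p (Additive.ofMul γ))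
    (γ : Gamma0 p) {ι : Type} [Fintype ι] (α : ι → Matrix (Fin 2) (Fin 2) ℤ)
    (σ : Equiv.Perm ι) (t : ι → Gamma0 p) (a : ℤ)
    (hcard : ((Fintype.card ι : ℕ) : ZMod (eisensteinNumerator p)) = (a : ZMod _))
    (hc : ∀ i, (p : ℤ) ∣ α i 1 0) (ha : ∀ i, IsUnit ((α i 0 0 : ℤ) : ZMod p))
    (h : ∀ i, α i * ((γ : SL(2, ℤ)) : Matrix (Fin 2) (Fin 2) ℤ) =
      ((t i : SL(2, ℤ)) : Matrix (Fin 2) (Fin 2) ℤ) * α (σ i)) :
    ∃ m : ℤ, ∑ i, ψ (Additive.ofMul (t i)) - (a : ℂ) * ψ (Additive.ofMul γ) =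
      (eisensteinNumerator p : ℂ) * m := by
  choose mf hmf using hψ
  have hsum := sum_shimuraClass_transfer p α σ t γ hc ha h
  have h1 : ((∑ i, mf (t i) - a * mf γ : ℤ) : ZMod (eisensteinNumerator p)) = 0 := by
    push_cast
    rw [Finset.sum_congr rfl (fun i _ => (hmf (t i)).2), hsum, (hmf γ).2, hcard]
    ring
  obtain ⟨m, hm⟩ := (ZMod.intCast_zmod_eq_zero_iff_dvd _ _).mp h1
  refine ⟨m, ?_⟩
  rw [Finset.sum_congr rfl (fun i _ => (hmf (t i)).1), (hmf γ).1]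
  have := congrArg (Int.cast : ℤ → ℂ) hm
  push_cast at this
  exact this

/-- Step A: the integral lift is an Eisenstein eigenvector modulo `n` for the generators. -/
theorem stepA (p : ℕ) [Fact p.Prime]
    (ρ : ↥(heckeAlgebra p 2 ∅) →+* Module.End ℂ ↥(parabolicHoms ℂ (Gamma0 p) ℂ))
    (hT : ∀ (ℓ : ℕ) (hℓ : ℓ.Prime) (hℓp : ¬ ℓ ∣ p) (φ : ↥(parabolicHoms ℂ (Gamma0 p) ℂ))
      (γ : Gamma0 p), ∃ (ι : Type) (_ : Fintype ι) (α : ι → Matrix (Fin 2) (Fin 2) ℤ)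
        (σ : Equiv.Perm ι) (t : ι → Gamma0 p),
        Fintype.card ι = ℓ + 1 ∧ (∀ i, (p : ℤ) ∣ α i 1 0) ∧
        (∀ i, IsUnit ((α i 0 0 : ℤ) : ZMod p)) ∧
        (∀ i, α i * ((γ : SL(2, ℤ)) : Matrix (Fin 2) (Fin 2) ℤ) =
          ((t i : SL(2, ℤ)) : Matrix (Fin 2) (Fin 2) ℤ) * α (σ i)) ∧
        (ρ (heckeAlgebra.T hℓ hℓp (Set.notMem_empty _)) φ).1 (Additive.ofMul γ) =
          ∑ i, φ.1 (Additive.ofMul (t i)))
    (hU : ∀ (q : ℕ) (hq : q.Prime) (hqp : q ∣ p) (φ : ↥(parabolicHoms ℂ (Gamma0 p) ℂ))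
      (γ : Gamma0 p), ∃ (ι : Type) (_ : Fintype ι) (α : ι → Matrix (Fin 2) (Fin 2) ℤ)
        (σ : Equiv.Perm ι) (t : ι → Gamma0 p),
        Fintype.card ι = q ∧ (∀ i, (p : ℤ) ∣ α i 1 0) ∧
        (∀ i, IsUnit ((α i 0 0 : ℤ) : ZMod p)) ∧
        (∀ i, α i * ((γ : SL(2, ℤ)) : Matrix (Fin 2) (Fin 2) ℤ) =
          ((t i : SL(2, ℤ)) : Matrix (Fin 2) (Fin 2) ℤ) * α (σ i)) ∧
        (ρ (heckeAlgebra.U hq hqp (Set.notMem_empty _)) φ).1 (Additive.ofMul γ) =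
          ∑ i, φ.1 (Additive.ofMul (t i)))
    (ψP : ↥(parabolicHoms ℂ (Gamma0 p) ℂ))
    (hψ : ∀ γ : Gamma0 p, ∃ m : ℤ, ψP.1 (Additive.ofMul γ) = m ∧
      (m : ZMod (eisensteinNumerator p)) = shimuraClass p (Additive.ofMul γ))
    (ℓ : Nat.Primes) :
    NDiv p (ρ (heckeFormsGen p 2 ℓ) ψP - ((eisensteinSystem p ℓ : ℤ) : ℂ) • ψP) := by
  have hpp : p.Prime := Fact.out
  intro γ
  by_cases hℓ : (ℓ : ℕ) ∣ p
  · obtain ⟨ι, _, α, σ, t, hcard, hc, ha, h, hval⟩ := hU ℓ ℓ.2 hℓ ψP γ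
    rw [heckeFormsGen_of_dvd hℓ, eisensteinSystem_of_dvd hℓ]
    have hℓp : (ℓ : ℕ) = p := (Nat.prime_dvd_prime_iff_eq ℓ.2 hpp).mp hℓ
    obtain ⟨m, hm⟩ := transfer_congr p ψP.1 hψ γ α σ t 1
      (by rw [hcard, hℓp, natCast_prime_eq_one, Int.cast_one]) hc ha h
    refine ⟨m, ?_⟩
    rw [Submodule.coe_sub, AddMonoidHom.sub_apply, hval, Submodule.coe_smul,
      AddMonoidHom.smul_apply, smul_eq_mul]
    exact hm
  · obtain ⟨ι, _, α, σ, t, hcard, hc, ha, h, hval⟩ := hT ℓ ℓ.2 hℓ ψP γ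
    rw [heckeFormsGen_of_not_dvd hℓ, eisensteinSystem_of_not_dvd hℓ]
    obtain ⟨m, hm⟩ := transfer_congr p ψP.1 hψ γ α σ t (1 + (ℓ : ℕ))
      (by rw [hcard]; push_cast; ring) hc ha h
    refine ⟨m, ?_⟩
    rw [Submodule.coe_sub, AddMonoidHom.sub_apply, hval, Submodule.coe_smul,
      AddMonoidHom.smul_apply, smul_eq_mul]
    exact hm

theorem lin_identity {M : Type*} [AddCommGroup M] [Module ℂ M] (A : M →ₗ[ℂ] M) (u v : M)
    (c d : ℂ) : A u - (d * c) • v = A (u - c • v) + c • (A v - d • v) := by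
  rw [map_sub, map_smul, smul_sub, smul_smul, mul_comm c d]
  abel

/-- Step B: induction over the polynomial ring. -/
theorem stepB (p : ℕ) [Fact p.Prime]
    (ρ : ↥(heckeAlgebra p 2 ∅) →+* Module.End ℂ ↥(parabolicHoms ℂ (Gamma0 p) ℂ))
    (hρint : ∀ (t : ↥(heckeAlgebra p 2 ∅)) (φ : ↥(parabolicHoms ℂ (Gamma0 p) ℂ)),
      (∀ γ : Gamma0 p, ∃ m : ℤ, φ.1 (Additive.ofMul γ) = m) →
        ∀ γ : Gamma0 p, ∃ m : ℤ, (ρ t φ).1 (Additive.ofMul γ) = m)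
    (ψP : ↥(parabolicHoms ℂ (Gamma0 p) ℂ))
    (hA : ∀ ℓ : Nat.Primes,
      NDiv p (ρ (heckeFormsGen p 2 ℓ) ψP - ((eisensteinSystem p ℓ : ℤ) : ℂ) • ψP))
    (x : HeckeAlg) :
    NDiv p (ρ (heckeEvalForms p 2 x) ψP -
      ((MvPolynomial.aeval (eisensteinSystem p) x : ℤ) : ℂ) • ψP) := by
  induction x using MvPolynomial.induction_on with
  | C c =>
    have h1 : ρ (heckeEvalForms p 2 (MvPolynomial.C c)) ψP = (c : ℂ) • ψP := by
      rw [heckeEvalForms_C, eq_intCast, map_intCast, Module.End.intCast_apply]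
      exact (Int.cast_smul_eq_zsmul ℂ c ψP).symm
    have h2 : (MvPolynomial.aeval (eisensteinSystem p) (MvPolynomial.C c) : ℤ) = c := by
      simp
    rw [h1, h2, sub_self]
    exact nDiv_zero p
  | add x y hx hy =>
    have e1 : ρ (heckeEvalForms p 2 (x + y)) ψP =
        ρ (heckeEvalForms p 2 x) ψP + ρ (heckeEvalForms p 2 y) ψP := by
      rw [RingHom.map_add, RingHom.map_add]; rfl
    have e3 : MvPolynomial.aeval (eisensteinSystem p) (x + y) =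
        MvPolynomial.aeval (eisensteinSystem p) x + MvPolynomial.aeval (eisensteinSystem p) y :=
      map_add _ _ _
    have : ρ (heckeEvalForms p 2 (x + y)) ψP -
        ((MvPolynomial.aeval (eisensteinSystem p) (x + y) : ℤ) : ℂ) • ψP =
        (ρ (heckeEvalForms p 2 x) ψP -
          ((MvPolynomial.aeval (eisensteinSystem p) x : ℤ) : ℂ) • ψP) +
        (ρ (heckeEvalForms p 2 y) ψP -
          ((MvPolynomial.aeval (eisensteinSystem p) y : ℤ) : ℂ) • ψP) := by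
      rw [e1, e3, Int.cast_add, add_smul]
      abel
    rw [this]
    exact nDiv_add p hx hy
  | mul_X x ℓ hx =>
    have hX : heckeEvalForms p 2 (MvPolynomial.X ℓ) = heckeFormsGen p 2 ℓ :=
      heckeEvalForms_heckeGen p 2 ℓ
    have e1 : heckeEvalForms p 2 (x * MvPolynomial.X ℓ) =
        heckeEvalForms p 2 x * heckeFormsGen p 2 ℓ := by
      rw [RingHom.map_mul, hX]
    have e2 : ρ (heckeEvalForms p 2 x * heckeFormsGen p 2 ℓ) ψP =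
        ρ (heckeEvalForms p 2 x) (ρ (heckeFormsGen p 2 ℓ) ψP) := by
      rw [RingHom.map_mul]; rfl
    have e3 : MvPolynomial.aeval (eisensteinSystem p) (x * MvPolynomial.X ℓ) =
        MvPolynomial.aeval (eisensteinSystem p) x * eisensteinSystem p ℓ := by
      rw [map_mul, MvPolynomial.aeval_X]
    have : ρ (heckeEvalForms p 2 (x * MvPolynomial.X ℓ)) ψP -
        ((MvPolynomial.aeval (eisensteinSystem p) (x * MvPolynomial.X ℓ) : ℤ) : ℂ) • ψP =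
        ρ (heckeEvalForms p 2 x)
          (ρ (heckeFormsGen p 2 ℓ) ψP - ((eisensteinSystem p ℓ : ℤ) : ℂ) • ψP) +
        ((eisensteinSystem p ℓ : ℤ) : ℂ) • (ρ (heckeEvalForms p 2 x) ψP -
          ((MvPolynomial.aeval (eisensteinSystem p) x : ℤ) : ℂ) • ψP) := by
      rw [e1, e2, e3, Int.cast_mul]
      exact lin_identity _ _ _ _ _
    rw [this]
    exact nDiv_add p (nDiv_rho p ρ hρint _ (hA ℓ)) (nDiv_intSmul p _ hx)

/-- **Lower bound for S16** from abstract data. -/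
theorem dvd_of_intCast_mem_map_eisensteinIdeal (p : ℕ) [Fact p.Prime]
    (hint : HasIntegralStructure p 2)
    -- (G)(2): Hecke action on parabolic homs
    (ρ : ↥(heckeAlgebra p 2 ∅) →+* Module.End ℂ ↥(parabolicHoms ℂ (Gamma0 p) ℂ))
    (hρint : ∀ (t : ↥(heckeAlgebra p 2 ∅)) (φ : ↥(parabolicHoms ℂ (Gamma0 p) ℂ)),
      (∀ γ : Gamma0 p, ∃ m : ℤ, φ.1 (Additive.ofMul γ) = m) →
        ∀ γ : Gamma0 p, ∃ m : ℤ, (ρ t φ).1 (Additive.ofMul γ) = m)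
    (hT : ∀ (ℓ : ℕ) (hℓ : ℓ.Prime) (hℓp : ¬ ℓ ∣ p) (φ : ↥(parabolicHoms ℂ (Gamma0 p) ℂ))
      (γ : Gamma0 p), ∃ (ι : Type) (_ : Fintype ι) (α : ι → Matrix (Fin 2) (Fin 2) ℤ)
        (σ : Equiv.Perm ι) (t : ι → Gamma0 p),
        Fintype.card ι = ℓ + 1 ∧ (∀ i, (p : ℤ) ∣ α i 1 0) ∧
        (∀ i, IsUnit ((α i 0 0 : ℤ) : ZMod p)) ∧
        (∀ i, α i * ((γ : SL(2, ℤ)) : Matrix (Fin 2) (Fin 2) ℤ) =
          ((t i : SL(2, ℤ)) : Matrix (Fin 2) (Fin 2) ℤ) * α (σ i)) ∧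
        (ρ (heckeAlgebra.T hℓ hℓp (Set.notMem_empty _)) φ).1 (Additive.ofMul γ) =
          ∑ i, φ.1 (Additive.ofMul (t i)))
    (hU : ∀ (q : ℕ) (hq : q.Prime) (hqp : q ∣ p) (φ : ↥(parabolicHoms ℂ (Gamma0 p) ℂ))
      (γ : Gamma0 p), ∃ (ι : Type) (_ : Fintype ι) (α : ι → Matrix (Fin 2) (Fin 2) ℤ)
        (σ : Equiv.Perm ι) (t : ι → Gamma0 p),
        Fintype.card ι = q ∧ (∀ i, (p : ℤ) ∣ α i 1 0) ∧
        (∀ i, IsUnit ((α i 0 0 : ℤ) : ZMod p)) ∧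
        (∀ i, α i * ((γ : SL(2, ℤ)) : Matrix (Fin 2) (Fin 2) ℤ) =
          ((t i : SL(2, ℤ)) : Matrix (Fin 2) (Fin 2) ℤ) * α (σ i)) ∧
        (ρ (heckeAlgebra.U hq hqp (Set.notMem_empty _)) φ).1 (Additive.ofMul γ) =
          ∑ i, φ.1 (Additive.ofMul (t i)))
    -- (G)(3): integral lift of the Shimura class
    (ψ : Additive (Gamma0 p) →+ ℂ) (hψpar : ψ ∈ parabolicHoms ℂ (Gamma0 p) ℂ)
    (hψ : ∀ γ : Gamma0 p, ∃ m : ℤ, ψ (Additive.ofMul γ) = m ∧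
      (m : ZMod (eisensteinNumerator p)) = shimuraClass p (Additive.ofMul γ))
    (k : ℤ)
    (hk : algebraMap ℤ ↥(heckeLatticeAlgebra p ∅) k ∈
      Ideal.map ((latticeRestrictHom p ∅).toRingHom.comp (heckeEvalForms p 2))
        (eisensteinIdeal p)) :
    (eisensteinNumerator p : ℤ) ∣ k := by
  have hB := stepB p ρ hρint ⟨ψ, hψpar⟩ (stepA p ρ hT hU ⟨ψ, hψpar⟩ hψ)
  -- unwind the ideal
  have hsurj : Function.Surjective
      ((latticeRestrictHom p ∅).toRingHom.comp (heckeEvalForms p 2)) :=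
    (latticeRestrictHom_surjective p ∅).comp (heckeEvalForms_surjective p 2)
  obtain ⟨x, hxI, hx⟩ := (Ideal.mem_map_iff_of_surjective _ hsurj).mp hk
  have hx0 : MvPolynomial.aeval (eisensteinSystem p) x = 0 := (mem_eigenIdeal_iff _ x).mp hxI
  have hxk : heckeEvalForms p 2 x = algebraMap ℤ ↥(heckeAlgebra p 2 ∅) k := by
    apply (latticeRestrictHom_bijective p ∅ hint).1
    rw [AlgHom.commutes]
    exact hx
  have hD := hB x
  rw [hx0, Int.cast_zero, zero_smul, sub_zero, hxk, eq_intCast, map_intCast] at hD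
  obtain ⟨γ₀, hγ₀⟩ := exists_shimuraClass_eq_one p
  obtain ⟨m, hm⟩ := hD γ₀
  obtain ⟨m₀, hm₀, hm₀'⟩ := hψ γ₀
  have h1 : k * m₀ = (eisensteinNumerator p : ℤ) * m := by
    have h2 : (((k : Module.End ℂ ↥(parabolicHoms ℂ (Gamma0 p) ℂ))
        (⟨ψ, hψpar⟩ : ↥(parabolicHoms ℂ (Gamma0 p) ℂ)) :
        ↥(parabolicHoms ℂ (Gamma0 p) ℂ)) : Additive (Gamma0 p) →+ ℂ) (Additive.ofMul γ₀) =
        (k : ℂ) * ψ (Additive.ofMul γ₀) := by
      simp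
    rw [h2, hm₀] at hm
    exact_mod_cast hm
  have h3 : ((k : ℤ) : ZMod (eisensteinNumerator p)) = 0 := by
    have := congrArg (Int.cast : ℤ → ZMod (eisensteinNumerator p)) h1
    push_cast at this
    rw [hm₀', hγ₀, mul_one, ZMod.natCast_self, zero_mul] at this
    exact this
  exact (ZMod.intCast_zmod_eq_zero_iff_dvd _ _).mp h3

end Fermat.Agent.S16Lib.LowerBound
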