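import Mathlib
import Fermat.Agent.S21

/-!
# S16, lower bound: an integral parabolic lift of a homomorphism `Γ₀(p) → ℤ/n`

Let `p` be a prime and `χ : Γ₀(p) → ℤ/n` a homomorphism vanishing on the elements of trace
`± 2`, `0` and `1`.  Then there is a parabolic homomorphism `ψ : Γ₀(p) → ℂ` with integer values
and `ψ ≡ χ mod n` (`exists_integral_lift`).

Method: a homomorphism `φ` is encoded by the cocycle `c_φ(g)(x) = φ(s(gx)⁻¹ g s(x))` on
`X = SL(2, ℤ) ⧸ Γ₀(p)`, determined by `c_φ(S)` and `c_φ(R)`, `R = ST`.  The pair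
`(c_χ(S), c_χ(R))` is lifted to integer valued functions `(u, v)` with `u ∘ S = -u`,
`v + v ∘ R + v ∘ R² = 0` and vanishing `T`-orbit sums; by the Eichler–Shimura dimension count
(`S20`, `S21`, `GenusLib.ParHom`) every such pair over `ℂ` comes from a parabolic homomorphism.
-/

set_option autoImplicit false
set_option linter.unusedSectionVars false

namespace Fermat.Agent.S16Lib.ShimuraLift

open scoped MatrixGroups
open Matrix.SpecialLinearGroup Module CongruenceSubgroup ModularCurve.Period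
open Fermat.Agent.GenusLib Fermat.Agent.GenusLib.ParHom

local notation "S" => ModularGroup.S
local notation "T" => ModularGroup.T

/-! ### Integer lifts of odd functions and of functions with vanishing `3`-orbit sums -/

section Lifts

variable {X : Type*} [LinearOrder X] {n : ℕ}

theorem exists_odd_lift (σ : X → X) (hσ : ∀ x, σ (σ x) = x) (ub : X → ZMod n)
    (hodd : ∀ x, ub (σ x) = -ub x) (hfix : ∀ x, σ x = x → ub x = 0) :
    ∃ u : X → ℤ, (∀ x, u (σ x) = -u x) ∧ ∀ x, ((u x : ℤ) : ZMod n) = ub x := by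
  classical
  refine ⟨fun x => if σ x = x then 0 else if x < σ x then ((ub x).cast : ℤ)
    else -((ub (σ x)).cast : ℤ), ?_, ?_⟩
  · intro x
    simp only [hσ]
    by_cases h : σ x = x
    · simp [h]
    · have h' : ¬ x = σ x := fun e => h e.symm
      rw [if_neg h', if_neg h]
      rcases lt_or_gt_of_ne h with hlt | hgt
      · rw [if_pos hlt, if_neg (not_lt.mpr hlt.le), neg_neg]
      · rw [if_neg (not_lt.mpr hgt.le), if_pos hgt]
  · intro x
    by_cases h : σ x = x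
    · simp [h, hfix x h]
    · simp only [if_neg h]
      by_cases hlt : x < σ x
      · rw [if_pos hlt]
        exact ZMod.intCast_zmod_cast _
      · rw [if_neg hlt]
        push_cast
        rw [hodd, neg_neg]

theorem exists_tri_lift (ρ : X → X) (hρ : ∀ x, ρ (ρ (ρ x)) = x) (vb : X → ZMod n)
    (htri : ∀ x, vb x + vb (ρ x) + vb (ρ (ρ x)) = 0) (hfix : ∀ x, ρ x = x → vb x = 0) :
    ∃ v : X → ℤ, (∀ x, v x + v (ρ x) + v (ρ (ρ x)) = 0) ∧ ∀ x, ((v x : ℤ) : ZMod n) = vb x := by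
  classical
  set r : X → X := fun x => min x (min (ρ x) (ρ (ρ x))) with hr
  have hrρ : ∀ x, r (ρ x) = r x := by
    intro x
    simp only [hr, hρ]
    rw [min_comm (ρ (ρ x)) x, ← min_assoc, min_comm (ρ x) x, min_assoc]
  set c : X → ℤ := fun x => ((vb x).cast : ℤ) with hc
  set v : X → ℤ := fun x => if ρ x = x then 0 else if x = r x then -c (ρ x) - c (ρ (ρ x))
    else c x with hv
  have hccast : ∀ x, ((c x : ℤ) : ZMod n) = vb x := fun x => ZMod.intCast_zmod_cast _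
  refine ⟨v, ?_, ?_⟩
  · intro x
    by_cases h : ρ x = x
    · have h2 : ρ (ρ x) = ρ x := by rw [h, h]
      simp [hv, h]
    · have h1 : ρ (ρ x) ≠ ρ x := by
        intro e
        apply h
        have := congrArg ρ e
        rw [hρ] at this
        rw [← e, ← this]
      have h2 : ρ (ρ x) ≠ x := by
        intro e
        apply h
        have := congrArg ρ e
        rw [hρ] at this
        exact this.symm
      have e0 : v x = if x = r x then -c (ρ x) - c (ρ (ρ x)) else c x := by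
        simp only [hv, if_neg h]
      have e1 : v (ρ x) = if ρ x = r x then -c (ρ (ρ x)) - c x else c (ρ x) := by
        simp only [hv, if_neg h1, hrρ, hρ]
      have e2 : v (ρ (ρ x)) = if ρ (ρ x) = r x then -c x - c (ρ x) else c (ρ (ρ x)) := by
        have h3 : ρ (ρ (ρ x)) ≠ ρ (ρ x) := by rw [hρ]; exact fun e => h2 e.symm
        simp only [hv, if_neg h3, hrρ, hρ]
      rw [e0, e1, e2]
      have hmem : r x = x ∨ r x = ρ x ∨ r x = ρ (ρ x) := by
        simp only [hr]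
        rcases min_choice x (min (ρ x) (ρ (ρ x))) with e | e
        · exact Or.inl e
        · rw [e]
          rcases min_choice (ρ x) (ρ (ρ x)) with e' | e'
          · exact Or.inr (Or.inl e')
          · exact Or.inr (Or.inr e')
      rcases hmem with e | e | e
      · rw [e, if_pos rfl, if_neg h, if_neg h2]
        ring
      · rw [e, if_neg (fun e' => h e'.symm), if_pos rfl, if_neg h1]
        ring
      · rw [e, if_neg (fun e' => h2 e'.symm), if_neg (fun e' => h1 e'.symm), if_pos rfl]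
        ring
  · intro x
    by_cases h : ρ x = x
    · simp [hv, h, hfix x h]
    · simp only [hv, if_neg h]
      by_cases hx : x = r x
      · rw [if_pos hx]
        push_cast
        rw [hccast, hccast]
        linear_combination -htri x
      · rw [if_neg hx]
        exact hccast x

end Lifts

/-! ### Cocycles with values in an abelian group -/

section CocA

variable {Γ : Subgroup SL(2, ℤ)} {A : Type*} [AddCommGroup A] (χ : Additive Γ →+ A)

/-- The cocycle `c_χ(g)(x) = χ(s(gx)⁻¹ g s(x))` of a homomorphism into an abelian group. -/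
noncomputable def cocA (g : SL(2, ℤ)) (x : SL(2, ℤ) ⧸ Γ) : A :=
  χ (Additive.ofMul (gam Γ g x))

theorem cocA_mul (g h : SL(2, ℤ)) (x : SL(2, ℤ) ⧸ Γ) :
    cocA χ (g * h) x = cocA χ g (h • x) + cocA χ h x := by
  simp only [cocA, gam_mul, ofMul_mul, map_add]

theorem cocA_one (x : SL(2, ℤ) ⧸ Γ) : cocA χ 1 x = 0 := by
  have h := cocA_mul χ 1 1 x
  rw [mul_one, one_smul] at h
  have h2 : cocA χ 1 x + 0 = cocA χ 1 x + cocA χ 1 x := by
    rw [add_zero]
    exact h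
  exact (add_left_cancel h2).symm

theorem cocA_inv (g : SL(2, ℤ)) (x : SL(2, ℤ) ⧸ Γ) :
    cocA χ g⁻¹ x = -cocA χ g (g⁻¹ • x) := by
  have h := cocA_mul χ g g⁻¹ x
  rw [mul_inv_cancel, cocA_one] at h
  exact eq_neg_of_add_eq_zero_right h.symm

theorem cocA_T (x : SL(2, ℤ) ⧸ Γ) :
    cocA χ T x = cocA χ Rm x - cocA χ S (T • x) := by
  have h : cocA χ T x = cocA χ (S⁻¹ * Rm) x := by rw [← T_eq]
  rw [h, cocA_mul, cocA_inv, ← mul_smul, ← T_eq]
  abel

theorem cocA_neg_one (hneg : (-1 : SL(2, ℤ)) ∈ Γ)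
    (h : χ (Additive.ofMul (⟨-1, hneg⟩ : Γ)) = 0) (x : SL(2, ℤ) ⧸ Γ) : cocA χ (-1) x = 0 := by
  have h1 : gam Γ (-1) x = ⟨-1, hneg⟩ := by
    apply Subtype.ext
    simp only [gam]
    rw [neg_one_smul_coset hneg]
    simp
  rw [cocA, h1, h]

theorem cocA_S_odd (hneg : (-1 : SL(2, ℤ)) ∈ Γ)
    (h : χ (Additive.ofMul (⟨-1, hneg⟩ : Γ)) = 0) (x : SL(2, ℤ) ⧸ Γ) :
    cocA χ S (S • x) = -cocA χ S x := by
  have h1 := cocA_mul χ S S x
  rw [S_mul_S, cocA_neg_one χ hneg h] at h1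
  exact eq_neg_of_add_eq_zero_left h1.symm

theorem cocA_Rm_tri (hneg : (-1 : SL(2, ℤ)) ∈ Γ)
    (h : χ (Additive.ofMul (⟨-1, hneg⟩ : Γ)) = 0) (x : SL(2, ℤ) ⧸ Γ) :
    cocA χ Rm x + cocA χ Rm (Rm • x) + cocA χ Rm (Rm • Rm • x) = 0 := by
  have h1 := cocA_mul χ (Rm * Rm) Rm x
  rw [Rm_cube, cocA_neg_one χ hneg h, cocA_mul] at h1
  rw [h1]
  abel

/-- The trace of `s(gx)⁻¹ g s(x)` at a fixed point `x` of `g`. -/
theorem trace_gam_of_fixed (g : SL(2, ℤ)) (x : SL(2, ℤ) ⧸ Γ) (hx : g • x = x) :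
    (((gam Γ g x : Γ) : SL(2, ℤ)) : Matrix (Fin 2) (Fin 2) ℤ).trace
      = (g : Matrix (Fin 2) (Fin 2) ℤ).trace := by
  show ((((sec Γ (g • x))⁻¹ * g * sec Γ x : SL(2, ℤ)) : Matrix (Fin 2) (Fin 2) ℤ)).trace = _
  rw [hx, trace_conj]

/-- Evaluating the cocycle at an element of `Γ` and the base coset recovers `χ`. -/
theorem cocA_base (γ : Γ) :
    cocA χ (γ : SL(2, ℤ)) ((1 : SL(2, ℤ)) : SL(2, ℤ) ⧸ Γ) = χ (Additive.ofMul γ) := by
  have hx : (γ : SL(2, ℤ)) • ((1 : SL(2, ℤ)) : SL(2, ℤ) ⧸ Γ) = ((1 : SL(2, ℤ)) : SL(2, ℤ) ⧸ Γ) := by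
    have : (γ : SL(2, ℤ)) • ((1 : SL(2, ℤ)) : SL(2, ℤ) ⧸ Γ)
        = (((1 : SL(2, ℤ)) * γ : SL(2, ℤ)) : SL(2, ℤ) ⧸ Γ) := by
      rw [one_mul]
      show (((γ : SL(2, ℤ)) * 1 : SL(2, ℤ)) : SL(2, ℤ) ⧸ Γ) = _
      rw [mul_one]
    rw [this]
    exact QuotientGroup.mk_mul_of_mem 1 γ.2
  have ht : sec Γ ((1 : SL(2, ℤ)) : SL(2, ℤ) ⧸ Γ) ∈ Γ := by
    have h := sec_spec Γ ((1 : SL(2, ℤ)) : SL(2, ℤ) ⧸ Γ)
    have h2 := QuotientGroup.eq.mp h.symm
    simpa using h2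
  have h1 : gam Γ (γ : SL(2, ℤ)) ((1 : SL(2, ℤ)) : SL(2, ℤ) ⧸ Γ)
      = (⟨_, ht⟩ : Γ)⁻¹ * γ * ⟨_, ht⟩ := by
    apply Subtype.ext
    simp only [gam, Subgroup.coe_mul, Subgroup.coe_inv]
    rw [hx]
  rw [cocA, h1, ofMul_mul, ofMul_mul, ofMul_inv, map_add, map_add, map_neg]
  abel

end CocA

/-! ### Integrality of a complex cocycle with integral values at `S` and `R` -/

section Integrality

variable {Γ : Subgroup SL(2, ℤ)} {n : ℕ}

theorem coc_int_of_gens (χ : Additive Γ →+ ZMod n) (φ : Additive Γ →+ ℂ)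
    (f : SL(2, ℤ) ⧸ Γ → ℂ)
    (hS : ∀ x, ∃ k : ℤ, coc φ f S x = (k : ℂ) ∧ ((k : ℤ) : ZMod n) = cocA χ S x)
    (hR : ∀ x, ∃ k : ℤ, coc φ f Rm x = (k : ℂ) ∧ ((k : ℤ) : ZMod n) = cocA χ Rm x)
    (g : SL(2, ℤ)) :
    ∀ x, ∃ k : ℤ, coc φ f g x = (k : ℂ) ∧ ((k : ℤ) : ZMod n) = cocA χ g x := by
  have hg : g ∈ Subgroup.closure ({S, T} : Set SL(2, ℤ)) := by
    rw [SpecialLinearGroup.SL2Z_generators]
    exact Subgroup.mem_top g
  induction hg using Subgroup.closure_induction with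
  | mem y hy =>
    rcases hy with rfl | rfl
    · exact hS
    · intro x
      obtain ⟨a, ha, ha'⟩ := hR x
      obtain ⟨b, hb, hb'⟩ := hS (T • x)
      refine ⟨a - b, ?_, ?_⟩
      · rw [coc_T, ha, hb]
        push_cast
        ring
      · rw [cocA_T, ← ha', ← hb']
        push_cast
        ring
  | one =>
    intro x
    refine ⟨0, ?_, ?_⟩
    · rw [coc_one]
      simp
    · rw [cocA_one]
      simp
  | mul y z _ _ hy hz =>
    intro x
    obtain ⟨a, ha, ha'⟩ := hy (z • x)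
    obtain ⟨b, hb, hb'⟩ := hz x
    refine ⟨a + b, ?_, ?_⟩
    · rw [coc_mul, ha, hb]
      push_cast
      ring
    · rw [cocA_mul, ← ha', ← hb']
      push_cast
      ring
  | inv y _ hy =>
    intro x
    obtain ⟨a, ha, ha'⟩ := hy (y⁻¹ • x)
    refine ⟨-a, ?_, ?_⟩
    · rw [coc_inv, ha]
      push_cast
      ring
    · rw [cocA_inv, ← ha']
      push_cast
      ring

end Integrality

/-! ### The dimension count: every pair in the kernel of `Lam` comes from a parabolic hom -/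

section Dim

attribute [local instance] ParHom.instFintypeQuot ParHom.instDecEqQuot

variable (N : ℕ) [NeZero N]

theorem finrank_parabolicHoms_Gamma0 :
    (finrank ℂ (parabolicHoms ℂ (Gamma0 N) ℂ) : ℚ) = 2 * ModularCurve.genusFormula N := by
  obtain ⟨hinj, hrange⟩ := Fermat.Agent.S21.result N
  have hfd : FiniteDimensional ℂ (CuspForm (Gamma0 N) 2) :=
    Fermat.Agent.S23Lib.Descent.finiteDimensional_cuspForm N 2
  have h1 : finrank ℂ (LinearMap.range (ModularCurve.periodHomPair N))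
      = 2 * finrank ℂ (CuspForm (Gamma0 N) 2) := by
    rw [LinearMap.finrank_range_of_inj hinj, Module.finrank_prod]
    ring
  rw [← hrange, h1]
  push_cast
  rw [Fermat.Agent.S20.result N]

theorem range_Psi_eq_ker_Lam {m : ℕ} (hm : 0 < m)
    (hT : ∀ x : SL(2, ℤ) ⧸ Gamma0 N, T ^ m • x = x) :
    LinearMap.range (Psi (Gamma0 N) (neg_one_mem_Gamma0 N))
      = LinearMap.ker (Lam (SL(2, ℤ) ⧸ Gamma0 N) m) := by
  have hneg := neg_one_mem_Gamma0 N
  have hnegX := neg_one_smul_coset (Γ := Gamma0 N) hneg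
  obtain ⟨hfin, -⟩ := finrank_parabolicHoms_le (Gamma0 N) hneg
  have h1 : 6 * finrank ℂ (LinearMap.ker (Lam (SL(2, ℤ) ⧸ Gamma0 N) m))
        + 6 * Nat.card (MulAction.orbitRel.Quotient (Subgroup.zpowers T) (SL(2, ℤ) ⧸ Gamma0 N))
        + 3 * (Finset.univ.filter fun x : SL(2, ℤ) ⧸ Gamma0 N => S • x = x).card
        + 4 * (Finset.univ.filter fun x : SL(2, ℤ) ⧸ Gamma0 N => Rm • x = x).card
      ≤ 7 * Fintype.card (SL(2, ℤ) ⧸ Gamma0 N) + 6 :=
    finrank_ker_Lam_le (X := SL(2, ℤ) ⧸ Gamma0 N) hnegX hm hT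
  have h2 := LinearMap.finrank_range_add_finrank_ker (Psi (Gamma0 N) hneg)
  rw [Module.finrank_prod, Module.finrank_fintype_fun_eq_card] at h2
  have h4 : finrank ℂ (LinearMap.ker (Psi (Gamma0 N) hneg)) ≤ 1 := by
    let ev : LinearMap.ker (Psi (Gamma0 N) hneg) →ₗ[ℂ] ℂ :=
      { toFun := fun q => q.1.2 ((1 : SL(2, ℤ)) : SL(2, ℤ) ⧸ Gamma0 N)
        map_add' := fun q q' => rfl
        map_smul' := fun c q => rfl }
    have hev : Function.Injective ev := by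
      rw [injective_iff_map_eq_zero]
      intro q hq
      have hk := ker_Psi (Gamma0 N) hneg q.1 (LinearMap.mem_ker.mp q.2)
      apply Subtype.ext
      refine Prod.ext hk.1 ?_
      funext x
      rw [hk.2 x]
      exact hq
    have := LinearMap.finrank_le_finrank_of_injective hev
    rwa [Module.finrank_self] at this
  have hdim := finrank_parabolicHoms_Gamma0 N
  have e1 : Nat.card {q : SL(2, ℤ) ⧸ Gamma0 N // S • q = q}
      = (Finset.univ.filter fun x : SL(2, ℤ) ⧸ Gamma0 N => S • x = x).card := by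
    rw [Nat.card_eq_fintype_card, Fintype.card_subtype]
  have e2 : Nat.card {q : SL(2, ℤ) ⧸ Gamma0 N // (S * T) • q = q}
      = (Finset.univ.filter fun x : SL(2, ℤ) ⧸ Gamma0 N => Rm • x = x).card := by
    rw [Nat.card_eq_fintype_card, Fintype.card_subtype]
    rfl
  have e3 : Nat.card (SL(2, ℤ) ⧸ Gamma0 N) = Fintype.card (SL(2, ℤ) ⧸ Gamma0 N) :=
    Nat.card_eq_fintype_card
  rw [← e1, ← e2, ← e3, Cosets.card_quot, Cosets.card_fixed_S, Cosets.card_fixed_ST,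
    CuspCount.card_orbits_T] at h1
  rw [← e3, Cosets.card_quot] at h2
  have h5 : 6 * finrank ℂ (parabolicHoms ℂ (Gamma0 N) ℂ) + 6 * ModularCurve.cuspCount N
      + 3 * ModularCurve.nuTwo N + 4 * ModularCurve.nuThree N
      = ModularCurve.dedekindPsi N + 12 := by
    have : (6 * finrank ℂ (parabolicHoms ℂ (Gamma0 N) ℂ) + 6 * ModularCurve.cuspCount N
        + 3 * ModularCurve.nuTwo N + 4 * ModularCurve.nuThree N : ℚ)
        = ModularCurve.dedekindPsi N + 12 := by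
      rw [hdim, ModularCurve.genusFormula]
      ring
    exact_mod_cast this
  refine Submodule.eq_of_le_of_finrank_le (range_Psi_le (Gamma0 N) hneg hT) ?_
  omega

end Dim

/-! ### Prime level: the base coset is fixed by `T` and the other cosets form one `T`-orbit -/

section Prime

variable (p : ℕ) [hp : Fact p.Prime]

theorem T_mem_Gamma0 : (T : SL(2, ℤ)) ∈ Gamma0 p := by
  rw [Gamma0_mem]
  simp [ModularGroup.T]

theorem T_smul_base :
    T • ((1 : SL(2, ℤ)) : SL(2, ℤ) ⧸ Gamma0 p) = ((1 : SL(2, ℤ)) : SL(2, ℤ) ⧸ Gamma0 p) := by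
  have : (T : SL(2, ℤ)) • ((1 : SL(2, ℤ)) : SL(2, ℤ) ⧸ Gamma0 p)
      = (((1 : SL(2, ℤ)) * T : SL(2, ℤ)) : SL(2, ℤ) ⧸ Gamma0 p) := by
    rw [one_mul]
    show (((T : SL(2, ℤ)) * 1 : SL(2, ℤ)) : SL(2, ℤ) ⧸ Gamma0 p) = _
    rw [mul_one]
  rw [this]
  exact QuotientGroup.mk_mul_of_mem 1 (T_mem_Gamma0 p)

theorem S_smul_base_ne :
    S • ((1 : SL(2, ℤ)) : SL(2, ℤ) ⧸ Gamma0 p) ≠ ((1 : SL(2, ℤ)) : SL(2, ℤ) ⧸ Gamma0 p) := by
  have : NeZero p := ⟨hp.out.ne_zero⟩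
  intro h
  have h' := congrArg (Cosets.cosetEquiv p) h
  rw [Cosets.cosetEquiv_smul, Cosets.cosetEquiv_mk, one_smul, Cosets.infty, Cosets.S_smul_mk,
    Cosets.P1.mk_eq_mk_iff] at h'
  simp at h'

theorem exists_T_pow_smul (x : SL(2, ℤ) ⧸ Gamma0 p)
    (hx : x ≠ ((1 : SL(2, ℤ)) : SL(2, ℤ) ⧸ Gamma0 p)) :
    ∃ i : ℕ, T ^ i • (S • ((1 : SL(2, ℤ)) : SL(2, ℤ) ⧸ Gamma0 p)) = x := by
  have : NeZero p := ⟨hp.out.ne_zero⟩
  obtain ⟨a, b, h, hq⟩ := Cosets.P1.exists_rep (Cosets.cosetEquiv p x)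
  have hb : b ≠ 0 := by
    intro hb0
    apply hx
    apply (Cosets.cosetEquiv p).injective
    rw [hq, Cosets.cosetEquiv_mk, one_smul, Cosets.infty, Cosets.P1.mk_eq_mk_iff, hb0]
    ring
  refine ⟨(a * b⁻¹).val, ?_⟩
  apply (Cosets.cosetEquiv p).injective
  rw [Cosets.cosetEquiv_smul, Cosets.cosetEquiv_smul, Cosets.cosetEquiv_mk, one_smul,
    Cosets.infty, Cosets.S_smul_mk, hq]
  have key := CuspCount.T_zpow_smul_mk p ((a * b⁻¹).val : ℤ) (-0) 1 (Cosets.isUni_one_zero p).S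
  rw [zpow_natCast] at key
  rw [key, Cosets.P1.mk_eq_mk_iff]
  push_cast
  rw [ZMod.natCast_zmod_val]
  field_simp
  ring

end Prime

/-! ### The integral lift -/

section Main

attribute [local instance] ParHom.instFintypeQuot ParHom.instDecEqQuot

variable (p : ℕ) [hp : Fact p.Prime]

theorem T_pow_smul_base (i : ℕ) :
    T ^ i • ((1 : SL(2, ℤ)) : SL(2, ℤ) ⧸ Gamma0 p) = ((1 : SL(2, ℤ)) : SL(2, ℤ) ⧸ Gamma0 p) := by
  induction i with
  | zero => simp
  | succ i ih => rw [pow_succ, mul_smul, T_smul_base, ih]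

/-- **Integral lift of a homomorphism `Γ₀(p) → ℤ/n`** killing the elements of trace `± 2`, `0`
and `1`: a parabolic homomorphism `ψ : Γ₀(p) → ℂ` with integer values, `ψ ≡ χ mod n`. -/
theorem exists_integral_lift (n : ℕ) (χ : Additive (Gamma0 p) →+ ZMod n)
    (h2 : ∀ γ : Gamma0 p, ((γ : SL(2, ℤ)) : Matrix (Fin 2) (Fin 2) ℤ).trace ^ 2 = 4 →
      χ (Additive.ofMul γ) = 0)
    (h0 : ∀ γ : Gamma0 p, ((γ : SL(2, ℤ)) : Matrix (Fin 2) (Fin 2) ℤ).trace = 0 →
      χ (Additive.ofMul γ) = 0)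
    (h1 : ∀ γ : Gamma0 p, ((γ : SL(2, ℤ)) : Matrix (Fin 2) (Fin 2) ℤ).trace = 1 →
      χ (Additive.ofMul γ) = 0) :
    ∃ ψ : Additive (Gamma0 p) →+ ℂ, ψ ∈ parabolicHoms ℂ (Gamma0 p) ℂ ∧
      ∀ γ : Gamma0 p, ∃ k : ℤ, ψ (Additive.ofMul γ) = (k : ℂ) ∧
        ((k : ℤ) : ZMod n) = χ (Additive.ofMul γ) := by
  classical
  have : NeZero p := ⟨hp.out.ne_zero⟩
  have hneg := neg_one_mem_Gamma0 p
  have hnegX := neg_one_smul_coset (Γ := Gamma0 p) hneg
  have hχneg : χ (Additive.ofMul (⟨-1, hneg⟩ : Gamma0 p)) = 0 := by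
    apply h2
    simp
  set x₁ : SL(2, ℤ) ⧸ Gamma0 p := ((1 : SL(2, ℤ)) : SL(2, ℤ) ⧸ Gamma0 p) with hx₁
  let _ : LinearOrder (SL(2, ℤ) ⧸ Gamma0 p) :=
    LinearOrder.lift' (Fintype.equivFin (SL(2, ℤ) ⧸ Gamma0 p))
      (Fintype.equivFin (SL(2, ℤ) ⧸ Gamma0 p)).injective
  -- integer lifts of the cocycle values at `S` and `R`
  obtain ⟨u, hu, hucast⟩ := exists_odd_lift (fun x : SL(2, ℤ) ⧸ Gamma0 p => S • x)
    (S_smul_S_smul hnegX) (fun x => cocA χ S x) (fun x => cocA_S_odd χ hneg hχneg x)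
    (fun x hx => h0 _ (by
      rw [trace_gam_of_fixed S x hx]
      simp [ModularGroup.coe_S, Matrix.trace_fin_two]))
  obtain ⟨v, hv, hvcast⟩ := exists_tri_lift (fun x : SL(2, ℤ) ⧸ Gamma0 p => Rm • x)
    (Rm_smul_cube hnegX) (fun x => cocA χ Rm x) (fun x => cocA_Rm_tri χ hneg hχneg x)
    (fun x hx => h1 _ (by
      rw [trace_gam_of_fixed Rm x hx]
      simp [Rm, ModularGroup.coe_S, ModularGroup.coe_T, Matrix.trace_fin_two]))
  have hu : ∀ x : SL(2, ℤ) ⧸ Gamma0 p, u (S • x) = -u x := hu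
  have hv : ∀ x : SL(2, ℤ) ⧸ Gamma0 p, v x + v (Rm • x) + v (Rm • Rm • x) = 0 := hv
  have hucast : ∀ x : SL(2, ℤ) ⧸ Gamma0 p, ((u x : ℤ) : ZMod n) = cocA χ S x := hucast
  have hvcast : ∀ x : SL(2, ℤ) ⧸ Gamma0 p, ((v x : ℤ) : ZMod n) = cocA χ Rm x := hvcast
  -- the correction at the base point
  set d : ℤ := v x₁ - u x₁ with hd
  have hdn : ((d : ℤ) : ZMod n) = 0 := by
    rw [hd]
    push_cast
    rw [hucast, hvcast]
    have hT := cocA_T χ x₁
    rw [T_smul_base p] at hT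
    rw [← hT]
    apply h2
    rw [trace_gam_of_fixed T x₁ (T_smul_base p)]
    simp [ModularGroup.coe_T, Matrix.trace_fin_two]
  set x₂ : SL(2, ℤ) ⧸ Gamma0 p := S • x₁ with hx₂def
  have hx₂ : x₂ ≠ x₁ := S_smul_base_ne p
  set u' : SL(2, ℤ) ⧸ Gamma0 p → ℤ :=
    fun x => u x + d * ((if x = x₁ then 1 else 0) - (if x = x₂ then 1 else 0)) with hu'
  have hu'odd : ∀ x, u' (S • x) = -u' x := by
    intro x
    have e1 : (S • x = x₁) ↔ x = x₂ := S_smul_eq_iff hnegX x₁ x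
    have e2 : (S • x = x₂) ↔ x = x₁ := by
      constructor
      · intro h
        have := congrArg (fun y => S • y) h
        simp only [hx₂def, S_smul_S_smul hnegX] at this
        exact this
      · rintro rfl
        rfl
    simp only [hu', hu, e1, e2]
    ring
  have hu'cast : ∀ x, ((u' x : ℤ) : ZMod n) = cocA χ S x := by
    intro x
    simp only [hu']
    rw [Int.cast_add, Int.cast_mul, hdn, zero_mul, add_zero, hucast]
  have hu'x₁ : u' x₁ = v x₁ := by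
    show u x₁ + d * ((if x₁ = x₁ then 1 else 0) - (if x₁ = x₂ then 1 else 0)) = v x₁
    rw [if_pos rfl, if_neg (Ne.symm hx₂), hd]
    ring
  -- the complex pair
  let uC : Vm (SL(2, ℤ) ⧸ Gamma0 p) := ⟨fun x => ((u' x : ℤ) : ℂ), fun x => by
    show ((u' (S • x) : ℤ) : ℂ) = -((u' x : ℤ) : ℂ)
    rw [hu'odd]
    push_cast
    ring⟩
  let vC : Kr (SL(2, ℤ) ⧸ Gamma0 p) := ⟨fun x => ((v x : ℤ) : ℂ), fun x => by
    show ((v x : ℤ) : ℂ) + ((v (Rm • x) : ℤ) : ℂ) + ((v (Rm • Rm • x) : ℤ) : ℂ) = 0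
    have := hv x
    exact_mod_cast this⟩
  -- a common period of `T`
  obtain ⟨m, hm, hTm⟩ : ∃ m : ℕ, 0 < m ∧ ∀ x : SL(2, ℤ) ⧸ Gamma0 p, T ^ m • x = x := by
    refine ⟨orderOf (MulAction.toPermHom SL(2, ℤ) (SL(2, ℤ) ⧸ Gamma0 p) T), orderOf_pos _,
      fun x => ?_⟩
    have h := pow_orderOf_eq_one (MulAction.toPermHom SL(2, ℤ) (SL(2, ℤ) ⧸ Gamma0 p) T)
    rw [← map_pow] at h
    have h2 := congrArg (fun e : Equiv.Perm (SL(2, ℤ) ⧸ Gamma0 p) => e x) h
    simpa using h2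
  -- sums over `X`
  have hsu : ∑ x : SL(2, ℤ) ⧸ Gamma0 p, u' x = 0 := by
    have h := Equiv.sum_comp (MulAction.toPerm (S : SL(2, ℤ))) u'
    simp only [MulAction.toPerm_apply, hu'odd, Finset.sum_neg_distrib] at h
    omega
  have hsv : ∑ x : SL(2, ℤ) ⧸ Gamma0 p, v x = 0 := by
    have hA := Equiv.sum_comp (MulAction.toPerm (Rm : SL(2, ℤ))) v
    have hB := Equiv.sum_comp (MulAction.toPerm (Rm * Rm : SL(2, ℤ))) v
    have hC : ∑ x : SL(2, ℤ) ⧸ Gamma0 p, (v x + v (Rm • x) + v (Rm • Rm • x)) = 0 :=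
      Finset.sum_eq_zero (fun x _ => hv x)
    rw [Finset.sum_add_distrib, Finset.sum_add_distrib] at hC
    simp only [MulAction.toPerm_apply, mul_smul] at hA hB
    omega
  -- the orbit sums vanish
  have hLam : Lam (SL(2, ℤ) ⧸ Gamma0 p) m (uC, vC) = 0 := by
    set L : SL(2, ℤ) ⧸ Gamma0 p → ℂ := Lam (SL(2, ℤ) ⧸ Gamma0 p) m (uC, vC) with hL
    have hL' : ∀ x, L x = ∑ i ∈ Finset.range m,
        (((v (T ^ i • x) : ℤ) : ℂ) - ((u' (T ^ i • x) : ℤ) : ℂ)) := by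
      intro x
      have h1 : L x = ∑ i ∈ Finset.range m,
          (((v (T ^ i • x) : ℤ) : ℂ) - ((u' (T ^ (i + 1) • x) : ℤ) : ℂ)) := rfl
      rw [h1, Finset.sum_sub_distrib, Finset.sum_sub_distrib,
        sum_shift hTm (fun y => ((u' y : ℤ) : ℂ)) x]
    have hLT : ∀ x, L (T • x) = L x := by
      intro x
      rw [hL', hL']
      have h := sum_shift hTm (fun y => ((v y : ℤ) : ℂ) - ((u' y : ℤ) : ℂ)) x
      rw [← h]
      refine Finset.sum_congr rfl fun i _ => ?_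
      rw [← mul_smul, ← pow_succ]
    have hLTi : ∀ (i : ℕ) x, L (T ^ i • x) = L x := by
      intro i
      induction i with
      | zero => intro x; simp
      | succ i ih =>
        intro x
        rw [pow_succ', mul_smul, hLT, ih]
    have hL1 : L x₁ = 0 := by
      rw [hL']
      refine Finset.sum_eq_zero fun i _ => ?_
      rw [hx₁, T_pow_smul_base p i, ← hx₁, hu'x₁, sub_self]
    have hsum : ∑ x, L x = 0 := by
      simp only [hL']
      rw [Finset.sum_comm]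
      refine Finset.sum_eq_zero fun i _ => ?_
      have hperm := Equiv.sum_comp (MulAction.toPerm (T ^ i : SL(2, ℤ)))
        (fun y : SL(2, ℤ) ⧸ Gamma0 p => ((v y : ℤ) : ℂ) - ((u' y : ℤ) : ℂ))
      simp only [MulAction.toPerm_apply] at hperm
      rw [hperm, Finset.sum_sub_distrib, ← Int.cast_sum, ← Int.cast_sum, hsu, hsv]
      simp
    have hLx : ∀ x, L x = if x = x₁ then 0 else L x₂ := by
      intro x
      by_cases hx : x = x₁
      · rw [if_pos hx, hx, hL1]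
      · rw [if_neg hx]
        obtain ⟨i, hi⟩ := exists_T_pow_smul p x hx
        rw [← hi]
        exact hLTi i _
    have hL2 : L x₂ = 0 := by
      have h3 : ∑ x, L x = ∑ x, (if x = x₁ then 0 else L x₂) := Finset.sum_congr rfl fun x _ => hLx x
      rw [hsum, Finset.sum_ite, Finset.sum_const_zero, zero_add, Finset.sum_const] at h3
      have hcard : (Finset.univ.filter fun x : SL(2, ℤ) ⧸ Gamma0 p => ¬ x = x₁).card ≠ 0 := by
        apply Finset.card_ne_zero_of_mem (a := x₂)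
        simp [hx₂]
      rw [nsmul_eq_mul] at h3
      rcases mul_eq_zero.mp h3.symm with h4 | h4
      · exact absurd (Nat.cast_eq_zero.mp h4) hcard
      · exact h4
    funext x
    rw [hLx x, hL2]
    simp
  -- the parabolic homomorphism
  have hmem : (uC, vC) ∈ LinearMap.range (Psi (Gamma0 p) hneg) := by
    rw [range_Psi_eq_ker_Lam p hm hTm]
    exact hLam
  obtain ⟨⟨ψ, mf⟩, hψ⟩ := hmem
  have hS : ∀ x, ∃ k : ℤ, coc ψ.1 mf S x = (k : ℂ) ∧ ((k : ℤ) : ZMod n) = cocA χ S x := by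
    intro x
    refine ⟨u' x, ?_, hu'cast x⟩
    rw [← Psi_fst (Gamma0 p) hneg (ψ, mf) x, hψ]
  have hR : ∀ x, ∃ k : ℤ, coc ψ.1 mf Rm x = (k : ℂ) ∧ ((k : ℤ) : ZMod n) = cocA χ Rm x := by
    intro x
    refine ⟨v x, ?_, hvcast x⟩
    rw [← Psi_snd (Gamma0 p) hneg (ψ, mf) x, hψ]
  refine ⟨ψ.1, ψ.2, fun γ => ?_⟩
  obtain ⟨k, hk, hk'⟩ := coc_int_of_gens χ ψ.1 mf hS hR (γ : SL(2, ℤ)) x₁
  refine ⟨k, ?_, ?_⟩
  · rw [← coc_base ψ.1 mf γ]
    exact hk
  · rw [hk', hx₁, cocA_base]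

end Main

end Fermat.Agent.S16Lib.ShimuraLift
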