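-- S16 piece (G), final statement: the lower bound `(k : 𝕋) ∈ I → n ∣ k` (this is, by
-- unfolding, the interface statement `IG p` of the S16 interface file), glueing the Hecke action on parabolic homs (`HeckeHom`), the integral lift of the Shimura
-- class (`ShimuraLift`), the integral structure (S23) and the abstract argument (`LowerBound`).
import Fermat.Agent.S16Lib.LowerBound
import Fermat.Agent.S16Lib.HeckeHom
import Fermat.Agent.S16Lib.ShimuraLift
import Fermat.Agent.S23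

set_option autoImplicit false

open CongruenceSubgroup ModularCurve ModularCurve.Period CuspForm
open scoped MatrixGroups
open Matrix.SpecialLinearGroup
open P2MW.S_ModularForm_heckeT_slash_eq_self_of_mem_Gamma0.ModularForm.HeckeSlashInvariance

namespace Fermat.Agent.S16Lib.LowerBoundFinal

open Fermat.Agent.S16Lib.Shimura

/-- Integer matrix behind `heckeMatrix ℓ j`. -/
def heckeMatZ (ℓ j : ℕ) : Matrix (Fin 2) (Fin 2) ℤ := !![1, (j : ℤ); 0, (ℓ : ℤ)]

/-- Integer matrix behind `heckeDiagMatrix ℓ`. -/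
def heckeDiagZ (ℓ : ℕ) : Matrix (Fin 2) (Fin 2) ℤ := !![(ℓ : ℤ), 0; 0, 1]

/-- Integer matrix behind `heckeRep ℓ x`. -/
def repZ (ℓ : ℕ) (x : OnePoint (ZMod ℓ)) : Matrix (Fin 2) (Fin 2) ℤ :=
  x.elim (heckeDiagZ ℓ) (fun j => heckeMatZ ℓ j.val)

theorem val_heckeMatrix_eq {ℓ : ℕ} (hℓ : ℓ ≠ 0) (j : ℕ) :
    ((ModularForm.heckeMatrix ℓ j : GL (Fin 2) ℝ) : Matrix (Fin 2) (Fin 2) ℝ) =
      (heckeMatZ ℓ j).map (Int.castRingHom ℝ) := by
  rw [ModularForm.val_heckeMatrix hℓ]
  ext a b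
  fin_cases a <;> fin_cases b <;> simp [heckeMatZ]

theorem val_heckeDiagMatrix_eq {ℓ : ℕ} (hℓ : ℓ ≠ 0) :
    ((ModularForm.heckeDiagMatrix ℓ : GL (Fin 2) ℝ) : Matrix (Fin 2) (Fin 2) ℝ) =
      (heckeDiagZ ℓ).map (Int.castRingHom ℝ) := by
  rw [ModularForm.val_heckeDiagMatrix hℓ]
  ext a b
  fin_cases a <;> fin_cases b <;> simp [heckeDiagZ]

theorem val_heckeRep_eq {ℓ : ℕ} (hℓ : ℓ ≠ 0) (x : OnePoint (ZMod ℓ)) :
    ((heckeRep ℓ x : GL (Fin 2) ℝ) : Matrix (Fin 2) (Fin 2) ℝ) =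
      (repZ ℓ x).map (Int.castRingHom ℝ) := by
  induction x using OnePoint.rec with
  | infty => exact val_heckeDiagMatrix_eq hℓ
  | coe j => exact val_heckeMatrix_eq hℓ j.val

/-- A real `GL₂` identity between integral matrices is an integer matrix identity. -/
theorem int_of_real {A B : Matrix (Fin 2) (Fin 2) ℤ} {g t : SL(2, ℤ)} {a b : GL (Fin 2) ℝ}
    (ha : (a : Matrix (Fin 2) (Fin 2) ℝ) = A.map (Int.castRingHom ℝ))
    (hb : (b : Matrix (Fin 2) (Fin 2) ℝ) = B.map (Int.castRingHom ℝ))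
    (h : a * mapGL ℝ g = mapGL ℝ t * b) :
    A * (g : Matrix (Fin 2) (Fin 2) ℤ) = (t : Matrix (Fin 2) (Fin 2) ℤ) * B := by
  have h' := congrArg (fun x : GL (Fin 2) ℝ => (x : Matrix (Fin 2) (Fin 2) ℝ)) h
  simp only [Units.val_mul] at h'
  rw [ha, hb, mapGL_coe_matrix, mapGL_coe_matrix, algebraMap_int_eq,
    Matrix.SpecialLinearGroup.map_apply_coe, Matrix.SpecialLinearGroup.map_apply_coe,
    RingHom.mapMatrix_apply, RingHom.mapMatrix_apply] at h'
  apply Matrix.map_injective (RingHom.injective_int (Int.castRingHom ℝ))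
  show (A * (g : Matrix (Fin 2) (Fin 2) ℤ)).map (Int.castRingHom ℝ) =
    ((t : Matrix (Fin 2) (Fin 2) ℤ) * B).map (Int.castRingHom ℝ)
  rw [Matrix.map_mul, Matrix.map_mul]
  exact h'

/-- **(G)**: the lower bound of S16. -/
theorem iG (p : ℕ) [Fact p.Prime] :
    ∀ k : ℤ, algebraMap ℤ ↥(heckeLatticeAlgebra p ∅) k ∈
        Ideal.map ((latticeRestrictHom p ∅).toRingHom.comp (heckeEvalForms p 2))
          (eisensteinIdeal p) →
      (eisensteinNumerator p : ℤ) ∣ k := by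
  have hpp : p.Prime := Fact.out
  obtain ⟨ψ, hψpar, hψ⟩ := ShimuraLift.exists_integral_lift p (eisensteinNumerator p)
    (shimuraClass p) (shimuraClass_eq_zero_of_trace p) (shimuraClass_eq_zero_of_trace_eq_zero p)
    (shimuraClass_eq_zero_of_trace_eq_one p)
  intro k hk
  refine LowerBound.dvd_of_intCast_mem_map_eisensteinIdeal p (Fermat.Agent.S23.result p)
    (HeckeHom.rho p) ?_ ?_ ?_ ψ hψpar hψ k hk
  · intro t φ hφ γ
    exact HeckeHom.rho_integral p t φ (fun γ' => hφ (Additive.toMul γ')) (Additive.ofMul γ)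
  · intro ℓ hℓ hℓp φ γ
    have : NeZero ℓ := ⟨hℓ.ne_zero⟩
    obtain ⟨σ, t, hdec⟩ := HeckeHom.exists_decomp_T p hℓ hℓp γ
    refine ⟨OnePoint (ZMod ℓ), inferInstance, repZ ℓ, σ, t, ?_, ?_, ?_, ?_, ?_⟩
    · show Fintype.card (Option (ZMod ℓ)) = ℓ + 1
      rw [Fintype.card_option, ZMod.card]
    · intro i
      induction i using OnePoint.rec with
      | infty => simp [repZ, heckeDiagZ]
      | coe j => simp [repZ, heckeMatZ]
    · intro i
      induction i using OnePoint.rec with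
      | infty =>
        have : ((repZ ℓ (OnePoint.infty : OnePoint (ZMod ℓ)) 0 0 : ℤ) : ZMod p) =
            ((ℓ : ℕ) : ZMod p) := by simp [repZ, heckeDiagZ]
        rw [this, ZMod.isUnit_iff_coprime]
        exact (Nat.Prime.coprime_iff_not_dvd hℓ).mpr hℓp
      | coe j =>
        have : ((repZ ℓ (j : OnePoint (ZMod ℓ)) 0 0 : ℤ) : ZMod p) = 1 := by
          simp [repZ, heckeMatZ]
        rw [this]
        exact isUnit_one
    · intro i
      exact int_of_real (val_heckeRep_eq hℓ.ne_zero i) (val_heckeRep_eq hℓ.ne_zero (σ i)) (hdec i)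
    · exact HeckeHom.rho_T_apply p hℓ hℓp (Set.notMem_empty _) φ γ σ t hdec
  · intro q hq hqp φ γ
    have : NeZero q := ⟨hq.ne_zero⟩
    obtain ⟨σ, t, hdec⟩ := HeckeHom.exists_decomp_U p hqp γ
    refine ⟨ZMod q, inferInstance, fun j => heckeMatZ q j.val, σ, t, ?_, ?_, ?_, ?_, ?_⟩
    · exact ZMod.card q
    · intro i
      simp [heckeMatZ]
    · intro i
      have : ((heckeMatZ q i.val 0 0 : ℤ) : ZMod p) = 1 := by simp [heckeMatZ]
      rw [this]
      exact isUnit_one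
    · intro i
      exact int_of_real (val_heckeMatrix_eq hq.ne_zero i.val)
        (val_heckeMatrix_eq hq.ne_zero (σ i).val) (hdec i)
    · exact HeckeHom.rho_U_apply p hq hqp (Set.notMem_empty _) φ γ σ t hdec

end Fermat.Agent.S16Lib.LowerBoundFinal
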