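import Mathlib
import Fermat.Prelude.Thm_CongruenceSubgroup_one_mem_strictPeriods_Gamma0

/-!
# S16 (C): the norm from `Γ₀(N' p)` to `Γ₀(N')` and its `q`-expansion

For a modular form `κ` on `Γ₀(N' p)` (`p` prime, `N'` prime to `p`) we produce a modular form on
`Γ₀(N')` which is a product of `m ≥ 1` conjugates of `κ`, each being `κ` itself or one of the
`κ ∣ σ T^j`, `j < p` (`σ = [[a, b], [N', p]]`), and we express its `q`-expansion as the product of
the expansions of the factors in the parameter `w = exp (2 π i z / p)`.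
-/

set_option autoImplicit false

namespace Fermat.Agent.S16Lib.Norm

open UpperHalfPlane ModularForm CongruenceSubgroup Function
open scoped MatrixGroups ModularForm

/-! ### Convergent power series in one variable -/

/-- `A` converges absolutely at `w` with sum `a`. -/
def Conv (A : PowerSeries ℂ) (w a : ℂ) : Prop :=
  HasSum (fun n : ℕ => PowerSeries.coeff n A * w ^ n) a ∧
    Summable (fun n : ℕ => ‖PowerSeries.coeff n A * w ^ n‖)

theorem conv_one (w : ℂ) : Conv 1 w 1 := by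
  have h : (fun n : ℕ => PowerSeries.coeff n (1 : PowerSeries ℂ) * w ^ n)
      = fun n : ℕ => if n = 0 then (1 : ℂ) else 0 := by
    funext n
    rw [PowerSeries.coeff_one]
    split_ifs with hn
    · rw [hn, pow_zero, mul_one]
    · rw [zero_mul]
  refine ⟨?_, ?_⟩
  · rw [h]
    exact hasSum_ite_eq 0 (1 : ℂ)
  · refine summable_of_ne_finset_zero (s := {0}) ?_
    intro n hn
    rw [Finset.mem_singleton] at hn
    rw [congrFun h n, if_neg hn, norm_zero]

theorem Conv.mul {A B : PowerSeries ℂ} {w a b : ℂ} (hA : Conv A w a) (hB : Conv B w b) :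
    Conv (A * B) w (a * b) := by
  have key : (fun n : ℕ => PowerSeries.coeff n (A * B) * w ^ n)
      = fun n : ℕ => ∑ kl ∈ Finset.HasAntidiagonal.antidiagonal n,
          (PowerSeries.coeff kl.1 A * w ^ kl.1) * (PowerSeries.coeff kl.2 B * w ^ kl.2) := by
    funext n
    rw [PowerSeries.coeff_mul, Finset.sum_mul]
    refine Finset.sum_congr rfl fun kl hkl => ?_
    rw [← Finset.HasAntidiagonal.mem_antidiagonal.mp hkl, pow_add]
    ring
  refine ⟨?_, ?_⟩
  · rw [key]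
    have h1 := tsum_mul_tsum_eq_tsum_sum_antidiagonal_of_summable_norm hA.2 hB.2
    have h2 := summable_norm_sum_mul_antidiagonal_of_summable_norm hA.2 hB.2
    have h3 : Summable fun n : ℕ => ∑ kl ∈ Finset.HasAntidiagonal.antidiagonal n,
          (PowerSeries.coeff kl.1 A * w ^ kl.1) * (PowerSeries.coeff kl.2 B * w ^ kl.2) :=
      h2.of_norm
    rw [← hA.1.tsum_eq, ← hB.1.tsum_eq, h1]
    exact h3.hasSum
  · have h2 := summable_norm_sum_mul_antidiagonal_of_summable_norm hA.2 hB.2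
    refine h2.congr fun n => ?_
    rw [congrFun key n]

theorem Conv.prod {ι : Type*} (S : Finset ι) (A : ι → PowerSeries ℂ) (w : ℂ) (a : ι → ℂ)
    (h : ∀ i ∈ S, Conv (A i) w (a i)) : Conv (∏ i ∈ S, A i) w (∏ i ∈ S, a i) := by
  classical
  induction S using Finset.induction_on with
  | empty => simpa using conv_one w
  | insert i S hi ih =>
    rw [Finset.prod_insert hi, Finset.prod_insert hi]
    exact (h i (Finset.mem_insert_self i S)).mul
      (ih fun j hj => h j (Finset.mem_insert_of_mem hj))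

/-! ### Expansions in `w = exp (2 π i z / p)` -/

local notation "𝕢" => Function.Periodic.qParam

/-- the point `z / 2` of the upper half plane -/
noncomputable def half (z : ℍ) : ℍ :=
  ⟨(z : ℂ) / 2, by
    have h := z.im_pos
    have e : ((z : ℂ) / 2).im = z.im / 2 := by
      rw [Complex.div_ofNat_im]; rfl
    rw [e]
    positivity⟩

theorem qParam_half {p : ℝ} (z : ℍ) : 𝕢 p (half z) ^ 2 = 𝕢 p z := by
  unfold Function.Periodic.qParam
  rw [← Complex.exp_nat_mul]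
  congr 1
  have : ((half z : ℍ) : ℂ) = (z : ℂ) / 2 := rfl
  rw [this]
  push_cast
  ring

/-- a power series expansion valid on the whole upper half plane converges absolutely -/
theorem conv_of_forall_hasSum {p : ℝ} (hp : 0 < p) {A : PowerSeries ℂ} {f : ℍ → ℂ}
    (h : ∀ z : ℍ, HasSum (fun n : ℕ => PowerSeries.coeff n A • 𝕢 p z ^ n) (f z)) (z : ℍ) :
    Conv A (𝕢 p z) (f z) := by
  refine ⟨by simpa only [smul_eq_mul] using h z, ?_⟩
  set w' := 𝕢 p (half z) with hw'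
  have hw : 𝕢 p z = w' ^ 2 := (qParam_half z).symm
  have hlt : ‖w'‖ < 1 := Function.Periodic.norm_qParam_lt_one hp (half z).im_pos
  have h0 : Filter.Tendsto (fun n : ℕ => ‖PowerSeries.coeff n A * w' ^ n‖) Filter.atTop (nhds 0) := by
    have := (h (half z)).summable.tendsto_atTop_zero
    simp only [smul_eq_mul] at this
    exact tendsto_zero_iff_norm_tendsto_zero.mp this
  have hev : ∀ᶠ n : ℕ in Filter.atTop, ‖PowerSeries.coeff n A * w' ^ n‖ < 1 :=
    h0.eventually (gt_mem_nhds zero_lt_one)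
  refine Summable.of_norm_bounded_eventually_nat (g := fun n : ℕ => ‖w'‖ ^ n)
    (summable_geometric_of_lt_one (norm_nonneg _) hlt) ?_
  filter_upwards [hev] with n hn
  rw [norm_norm, hw]
  have e : PowerSeries.coeff n A * (w' ^ 2) ^ n = (PowerSeries.coeff n A * w' ^ n) * w' ^ n := by
    ring
  rw [e, norm_mul, norm_pow]
  calc ‖PowerSeries.coeff n A * w' ^ n‖ * ‖w'‖ ^ n ≤ 1 * ‖w'‖ ^ n := by
        gcongr
    _ = ‖w'‖ ^ n := one_mul _

theorem qParam_one_eq {p : ℕ} (hp : 0 < p) (z : ℂ) : 𝕢 1 z = 𝕢 (p : ℝ) z ^ p := by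
  unfold Function.Periodic.qParam
  rw [← Complex.exp_nat_mul]
  congr 1
  have : (p : ℂ) ≠ 0 := Nat.cast_ne_zero.mpr hp.ne'
  push_cast
  field_simp

/-- uniqueness of the expansion in `w` of a modular form with strict period `1` -/
theorem coeff_eq_of_hasSum {Γ : Subgroup (GL (Fin 2) ℝ)} {k : ℤ} (F : ModularForm Γ k)
    (h1 : (1 : ℝ) ∈ Γ.strictPeriods) {p : ℕ} (hp : 0 < p) {c : ℕ → ℂ}
    (hc : ∀ z : ℍ, HasSum (fun n : ℕ => c n • 𝕢 (p : ℝ) z ^ n) (F z)) (n : ℕ) :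
    c n = if p ∣ n then PowerSeries.coeff (n / p) (qExpansion 1 F) else 0 := by
  have hpR : (0 : ℝ) < (p : ℝ) := Nat.cast_pos.mpr hp
  have hΓp : (p : ℝ) ∈ Γ.strictPeriods := by
    have := Γ.strictPeriods.nsmul_mem h1 p
    simpa using this
  haveI : Fact (IsCusp OnePoint.infty Γ) := ⟨Subgroup.isCusp_of_mem_strictPeriods one_pos h1⟩
  have e1 := ModularFormClass.qExpansion_coeff_unique hpR hΓp hc n
  set c' : ℕ → ℂ := fun n => if p ∣ n then PowerSeries.coeff (n / p) (qExpansion 1 F) else 0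
    with hc'
  have hc2 : ∀ z : ℍ, HasSum (fun n : ℕ => c' n • 𝕢 (p : ℝ) z ^ n) (F z) := by
    intro z
    have hs := ModularForm.hasSum_qExpansion F one_pos h1 z
    have hinj : Function.Injective (fun m : ℕ => p * m) := fun a b hab =>
      Nat.eq_of_mul_eq_mul_left hp hab
    refine (Function.Injective.hasSum_iff hinj ?_).mp ?_
    · intro x hx
      have : ¬ p ∣ x := by
        rintro ⟨m, rfl⟩
        exact hx ⟨m, rfl⟩
      simp only [hc', if_neg this, zero_smul]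
    · have : ((fun n : ℕ => c' n • 𝕢 (p : ℝ) z ^ n) ∘ fun m : ℕ => p * m)
          = fun m : ℕ => PowerSeries.coeff m (qExpansion 1 F) * 𝕢 1 z ^ m := by
        funext m
        simp only [Function.comp_apply, hc', if_pos (Dvd.intro m rfl), smul_eq_mul,
          Nat.mul_div_cancel_left m hp]
        rw [qParam_one_eq hp, ← pow_mul]
      rw [this]
      exact hs
  have e2 := ModularFormClass.qExpansion_coeff_unique hpR hΓp hc2 n
  rw [e1, ← e2]

/-! ### Cosets of `Γ₀(N' p)` in `Γ₀(N')` -/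

open Matrix.SpecialLinearGroup (mapGL)

theorem slash_eq_of_mem_Gamma0 {M : ℕ} {k : ℤ} (κ : ModularForm (Gamma0 M) k) {γ : SL(2, ℤ)}
    (hγ : γ ∈ Gamma0 M) : ⇑κ ∣[k] γ = ⇑κ :=
  SlashInvariantFormClass.slash_action_eq κ _ (Subgroup.mem_map_of_mem (mapGL ℝ) hγ)

/-- every translate of `κ` by an element of `Γ₀(N')` is `κ` or one of the `κ ∣ σ T^j` -/
theorem slash_classify {N' p : ℕ} (hp : p.Prime) (hcop : Nat.Coprime N' p) {k : ℤ}
    (κ : ModularForm (Gamma0 (N' * p)) k) (σ : SL(2, ℤ)) (hσc : σ 1 0 = (N' : ℤ))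
    (hσd : σ 1 1 = (p : ℤ)) (g : SL(2, ℤ)) (hg : g ∈ Gamma0 N') :
    (⇑κ ∣[k] g = ⇑κ) ∨ ∃ j : ℕ, j < p ∧ ⇑κ ∣[k] g = ⇑κ ∣[k] (σ * ModularGroup.T ^ j) := by
  have hN' : (N' : ℤ) ∣ g 1 0 := (ZMod.intCast_zmod_eq_zero_iff_dvd _ _).mp (Gamma0_mem.mp hg)
  have hcopZ : IsCoprime (N' : ℤ) (p : ℤ) := Nat.isCoprime_iff_coprime.mpr hcop
  by_cases hpc : (p : ℤ) ∣ g 1 0
  · left
    refine slash_eq_of_mem_Gamma0 κ (Gamma0_mem.mpr ?_)
    rw [ZMod.intCast_zmod_eq_zero_iff_dvd]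
    push_cast
    exact hcopZ.mul_dvd hN' hpc
  · right
    haveI : Fact p.Prime := ⟨hp⟩
    have hc0 : ((g 1 0 : ℤ) : ZMod p) ≠ 0 := by
      intro h0
      exact hpc ((ZMod.intCast_zmod_eq_zero_iff_dvd _ _).mp h0)
    set j : ℕ := (((g 1 1 : ℤ) : ZMod p) * ((g 1 0 : ℤ) : ZMod p)⁻¹).val with hj
    have hjlt : j < p := ZMod.val_lt _
    refine ⟨j, hjlt, ?_⟩
    set h : SL(2, ℤ) := σ * ModularGroup.T ^ j with hh
    have hT : (ModularGroup.T ^ j : SL(2, ℤ)).1 = !![1, (j : ℤ); 0, 1] := by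
      rw [← zpow_natCast, ModularGroup.coe_T_zpow]
    have h10 : h 1 0 = (N' : ℤ) := by
      rw [hh, Matrix.SpecialLinearGroup.coe_mul, Matrix.mul_apply, Fin.sum_univ_two, hT]
      simp [hσc]
    have h11 : h 1 1 = (N' : ℤ) * j + p := by
      rw [hh, Matrix.SpecialLinearGroup.coe_mul, Matrix.mul_apply, Fin.sum_univ_two, hT]
      simp [hσc, hσd]
    -- `g * h⁻¹ ∈ Γ₀(N' p)`
    have hmem : g * h⁻¹ ∈ Gamma0 (N' * p) := by
      rw [Gamma0_mem, ZMod.intCast_zmod_eq_zero_iff_dvd]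
      have e : (g * h⁻¹) 1 0 = g 1 0 * h 1 1 - g 1 1 * h 1 0 := by
        rw [Matrix.SpecialLinearGroup.coe_mul, Matrix.mul_apply, Fin.sum_univ_two,
          Matrix.SpecialLinearGroup.SL2_inv_expl]
        simp
        ring
      rw [e, h10, h11]
      push_cast
      refine hcopZ.mul_dvd ?_ ?_
      · obtain ⟨u, hu⟩ := hN'
        exact ⟨u * ((N' : ℤ) * j + p) - g 1 1, by rw [hu]; ring⟩
      · rw [← ZMod.intCast_zmod_eq_zero_iff_dvd]
        push_cast
        have hjcast : ((j : ℕ) : ZMod p) = ((g 1 1 : ℤ) : ZMod p) * ((g 1 0 : ℤ) : ZMod p)⁻¹ := by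
          rw [hj, ZMod.natCast_zmod_val]
        rw [hjcast, ZMod.natCast_self, add_zero]
        field_simp
        ring
    have hgeq : g = (g * h⁻¹) * h := by rw [inv_mul_cancel_right]
    calc ⇑κ ∣[k] g = ⇑κ ∣[k] ((g * h⁻¹) * h) := by rw [← hgeq]
      _ = (⇑κ ∣[k] (g * h⁻¹)) ∣[k] h := SlashAction.slash_mul _ _ _ _
      _ = ⇑κ ∣[k] h := by rw [slash_eq_of_mem_Gamma0 κ hmem]

/-! ### The norm -/

/-- `Γ₀(M)` as a subgroup of `GL₂(ℝ)` -/
abbrev Gp (M : ℕ) : Subgroup (GL (Fin 2) ℝ) := (Gamma0 M).map (mapGL ℝ)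


/-- **(C)** The norm of `κ` from `Γ₀(N' p)` to `Γ₀(N')`: a modular form of weight `k m` on
`Γ₀(N')` whose expansion in `w = exp (2 π i z / p)` is a product of `m ≥ 1` expansions of
translates of `κ`, each being the expansion `s₀` of `κ` or the expansion `s j` of
`κ ∣ σ T^j`. -/
theorem exists_norm_qexp {N' p : ℕ} [NeZero N'] (hp : p.Prime) (hcop : Nat.Coprime N' p) {k : ℤ}
    (κ : ModularForm (Gamma0 (N' * p)) k) (σ : SL(2, ℤ)) (hσc : σ 1 0 = (N' : ℤ))
    (hσd : σ 1 1 = (p : ℤ)) (s₀ : PowerSeries ℂ) (s : ℕ → PowerSeries ℂ)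
    (h₀ : ∀ z : ℍ, HasSum (fun n : ℕ => PowerSeries.coeff n s₀ • 𝕢 (p : ℝ) z ^ n) (κ z))
    (hs : ∀ j < p, ∀ z : ℍ, HasSum (fun n : ℕ => PowerSeries.coeff n (s j) • 𝕢 (p : ℝ) z ^ n)
      ((⇑κ ∣[k] (σ * ModularGroup.T ^ j)) z)) :
    ∃ (m : ℕ) (_ : 0 < m) (F : ModularForm (Gamma0 N') (k * m)) (t : Fin m → PowerSeries ℂ),
      (∀ i, t i = s₀ ∨ ∃ j < p, t i = s j) ∧
      ∀ n, PowerSeries.coeff n (∏ i, t i)
        = if p ∣ n then PowerSeries.coeff (n / p) (qExpansion 1 F) else 0 := by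
  classical
  haveI : NeZero (N' * p) := ⟨mul_ne_zero (NeZero.ne N') hp.ne_zero⟩
  have hpR : (0 : ℝ) < (p : ℝ) := Nat.cast_pos.mpr hp.pos
  haveI : (Gp (N' * p)).IsFiniteRelIndex (Gp N') :=
    Subgroup.isFiniteRelIndex_of_le_right (Gp (N' * p)) (L := 𝒮ℒ) (Subgroup.map_le_range _ _)
  letI : Fintype ((Gp N') ⧸ (Gp (N' * p)).subgroupOf (Gp N')) := Fintype.ofFinite _
  set F : ModularForm (Gp N') (k * Nat.card ((Gp N') ⧸ (Gp (N' * p)).subgroupOf (Gp N'))) := ModularForm.norm (Gp N') κ with hF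
  -- the expansion of each factor
  have hfac : ∀ q : (Gp N') ⧸ (Gp (N' * p)).subgroupOf (Gp N'), ∃ tq : PowerSeries ℂ,
      (tq = s₀ ∨ ∃ j < p, tq = s j) ∧
      ∀ z : ℍ, HasSum (fun n : ℕ => PowerSeries.coeff n tq • 𝕢 (p : ℝ) z ^ n)
        (SlashInvariantForm.quotientFunc κ q z) := by
    intro q
    obtain ⟨h, rfl⟩ := QuotientGroup.mk_surjective q
    have hinv : (h : GL (Fin 2) ℝ)⁻¹ ∈ (Gp N') := (Gp N').inv_mem h.2
    obtain ⟨g, hg, hgh⟩ := Subgroup.mem_map.mp hinv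
    have hq : SlashInvariantForm.quotientFunc κ (QuotientGroup.mk h : (Gp N') ⧸ (Gp (N' * p)).subgroupOf (Gp N'))
        = ⇑κ ∣[k] g := by
      have := SlashInvariantForm.quotientFunc_mk (ℋ := Gp N') κ h
      rw [← hgh] at this
      exact this
    rcases slash_classify hp hcop κ σ hσc hσd g hg with h1 | ⟨j, hj, h1⟩
    · refine ⟨s₀, Or.inl rfl, fun z => ?_⟩
      rw [hq, h1]
      exact h₀ z
    · refine ⟨s j, Or.inr ⟨j, hj, rfl⟩, fun z => ?_⟩
      rw [hq, h1]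
      exact hs j hj z
  choose t ht1 ht2 using hfac
  -- the expansion of the product
  have hprod : ∀ z : ℍ, HasSum (fun n : ℕ => PowerSeries.coeff n (∏ q, t q) • 𝕢 (p : ℝ) z ^ n)
      (F z) := by
    intro z
    have hc := Conv.prod Finset.univ t (𝕢 (p : ℝ) z)
      (fun q => SlashInvariantForm.quotientFunc κ q z)
      (fun q _ => conv_of_forall_hasSum hpR (ht2 q) z)
    have hFz : F z = ∏ q : (Gp N') ⧸ (Gp (N' * p)).subgroupOf (Gp N'),
        SlashInvariantForm.quotientFunc κ q z := by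
      rw [hF, ModularForm.coe_norm (Gp N') κ, Finset.prod_apply]
    rw [hFz]
    simpa only [smul_eq_mul] using hc.1
  have h1 : (1 : ℝ) ∈ (Gp N').strictPeriods := CongruenceSubgroup.one_mem_strictPeriods_Gamma0 N'
  have hcoef := coeff_eq_of_hasSum F h1 hp.pos hprod
  -- reindex by `Fin m`
  have hfin : Finite ((Gp N') ⧸ (Gp (N' * p)).subgroupOf (Gp N')) := inferInstance
  let e : ((Gp N') ⧸ (Gp (N' * p)).subgroupOf (Gp N')) ≃ Fin (Nat.card ((Gp N') ⧸ (Gp (N' * p)).subgroupOf (Gp N'))) := Finite.equivFin _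
  refine ⟨Nat.card ((Gp N') ⧸ (Gp (N' * p)).subgroupOf (Gp N')), Nat.card_pos, F, fun i => t (e.symm i),
    fun i => ht1 (e.symm i), fun n => ?_⟩
  have hre : ∏ i, t (e.symm i) = ∏ q, t q := Equiv.prod_comp e.symm t
  rw [hre]
  exact hcoef n

end Fermat.Agent.S16Lib.Norm
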