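import Mathlib

set_option autoImplicit false

namespace Fermat.Agent.S16Lib.Restrict

open CongruenceSubgroup UpperHalfPlane
open scoped MatrixGroups ModularForm

lemma Gamma0_le_of_dvd {N M : ℕ} (h : N ∣ M) : Gamma0 M ≤ Gamma0 N := by
  intro γ hγ
  rw [Gamma0_mem] at hγ ⊢
  obtain ⟨c, rfl⟩ := h
  have := congrArg (ZMod.castHom (Dvd.intro c rfl) (ZMod N)) hγ
  simpa using this

/-- Restriction of a modular form of level `Γ₀(N)` to `Γ₀(M)`, `N ∣ M`. -/
def restrictLevel {N M : ℕ} (h : N ∣ M) {k : ℤ} (f : ModularForm (Gamma0 N) k) :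
    ModularForm (Gamma0 M) k where
  toFun := f
  slash_action_eq' γ hγ := f.slash_action_eq' γ (Subgroup.map_mono (Gamma0_le_of_dvd h) hγ)
  holo' := f.holo'
  bdd_at_cusps' hc := f.bdd_at_cusps' (hc.mono (Subgroup.map_mono (Gamma0_le_of_dvd h)))

@[simp] lemma restrictLevel_apply {N M : ℕ} (h : N ∣ M) {k : ℤ} (f : ModularForm (Gamma0 N) k)
    (z : ℍ) : restrictLevel h f z = f z := rfl

lemma coe_restrictLevel {N M : ℕ} (h : N ∣ M) {k : ℤ} (f : ModularForm (Gamma0 N) k) :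
    (⇑(restrictLevel h f) : ℍ → ℂ) = ⇑f := rfl

end Fermat.Agent.S16Lib.Restrict
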