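import Mathlib
import Fermat.Agent.S16Lib.Norm
import Fermat.Agent.S16Lib.Restrict

/-!
# S16 (C): the norm of `κ = lam F - mu A` from `Γ₀(N' p)` to `Γ₀(N')`, in `q`-series form

`F` of level `p`, `A` of level `N'`, both of weight `2`; the input is the expansion of `F ∣ S`
in `w = exp (2 π i z / p)` (the formula `F ∣ S (z) = -(1/p) (U_p F)(z/p)`).
-/

set_option autoImplicit false

namespace Fermat.Agent.S16Lib.NormGlue

open UpperHalfPlane ModularForm CongruenceSubgroup Function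
open scoped MatrixGroups ModularForm
open Fermat.Agent.S16Lib.Norm Fermat.Agent.S16Lib.Restrict

local notation "𝕢" => Function.Periodic.qParam

/-- transport a `HasSum` along a pointwise equality of the summands -/
theorem hasSum_of_eq {f g : ℕ → ℂ} {v : ℂ} (h : HasSum f v) (hfg : ∀ n, g n = f n) :
    HasSum g v := by
  have : g = f := funext hfg
  rw [this]
  exact h

/-- reindexing a `q`-expansion as an expansion in `w = q^(1/p)` -/
theorem hasSum_vop {p : ℕ} (hp : 0 < p) {c : ℕ → ℂ} {z : ℂ} {v : ℂ}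
    (h : HasSum (fun m : ℕ => c m * 𝕢 1 z ^ m) v) :
    HasSum (fun n : ℕ => (if p ∣ n then c (n / p) else 0) * 𝕢 (p : ℝ) z ^ n) v := by
  have hinj : Function.Injective (fun m : ℕ => p * m) := fun a b hab =>
    Nat.eq_of_mul_eq_mul_left hp hab
  refine (Function.Injective.hasSum_iff hinj ?_).mp ?_
  · intro x hx
    have : ¬ p ∣ x := by
      rintro ⟨m, rfl⟩
      exact hx ⟨m, rfl⟩
    simp only [if_neg this, zero_mul]
  · have : ((fun n : ℕ => (if p ∣ n then c (n / p) else 0) * 𝕢 (p : ℝ) z ^ n) ∘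
        fun m : ℕ => p * m) = fun m : ℕ => c m * 𝕢 1 z ^ m := by
      funext m
      simp only [Function.comp_apply, if_pos (Dvd.intro m rfl), Nat.mul_div_cancel_left m hp]
      rw [qParam_one_eq hp, ← pow_mul]
    rw [this]
    exact h

/-- the `q`-expansion of a modular form with strict period `1` as an expansion in `w` -/
theorem hasSum_vop_form {Γ : Subgroup (GL (Fin 2) ℝ)} (h1 : (1 : ℝ) ∈ Γ.strictPeriods) {p : ℕ}
    (hp : 0 < p) {k : ℤ} (G : ModularForm Γ k) (z : ℍ) :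
    HasSum (fun n : ℕ => (if p ∣ n then PowerSeries.coeff (n / p) (qExpansion 1 G) else 0)
      * 𝕢 (p : ℝ) z ^ n) (G z) := by
  have : Fact (IsCusp OnePoint.infty Γ) := ⟨Subgroup.isCusp_of_mem_strictPeriods one_pos h1⟩
  have h := ModularForm.hasSum_qExpansion G one_pos h1 z
  exact hasSum_vop (c := fun m => PowerSeries.coeff m (qExpansion 1 G)) hp h

theorem exists_sigma {N' p : ℕ} (hcop : Nat.Coprime N' p) :
    ∃ σ : SL(2, ℤ), σ 1 0 = (N' : ℤ) ∧ σ 1 1 = (p : ℤ) := by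
  have h : IsCoprime (N' : ℤ) (p : ℤ) := Nat.isCoprime_iff_coprime.mpr hcop
  obtain ⟨u, v, huv⟩ := h
  refine ⟨⟨!![v, -u; (N' : ℤ), (p : ℤ)], ?_⟩, rfl, rfl⟩
  rw [Matrix.det_fin_two_of]
  linarith

theorem qParam_add_nat {p : ℕ} (hp : 0 < p) (z : ℂ) (j : ℕ) :
    𝕢 (p : ℝ) (z + j) = Complex.exp (2 * Real.pi * Complex.I * j / p) * 𝕢 (p : ℝ) z := by
  unfold Function.Periodic.qParam
  rw [← Complex.exp_add]
  congr 1
  have : (p : ℂ) ≠ 0 := Nat.cast_ne_zero.mpr hp.ne'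
  push_cast
  field_simp
  ring

theorem zeta_pow {p : ℕ} (hp : 0 < p) (j : ℕ) :
    Complex.exp (2 * Real.pi * Complex.I * j / p) ^ p = 1 := by
  rw [← Complex.exp_nat_mul]
  have : (p : ℂ) ≠ 0 := Nat.cast_ne_zero.mpr hp.ne'
  have e : (p : ℂ) * (2 * Real.pi * Complex.I * j / p) = (j : ℂ) * (2 * Real.pi * Complex.I) := by
    field_simp
  rw [e]
  exact Complex.exp_nat_mul_two_pi_mul_I j

/-! ### The translates of `F` and `A` -/

theorem coe_T_pow (j : ℕ) : (ModularGroup.T ^ j : SL(2, ℤ)).1 = !![1, (j : ℤ); 0, 1] := by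
  rw [← zpow_natCast, ModularGroup.coe_T_zpow]

theorem sigma_T_apply_one_zero (σ : SL(2, ℤ)) (j : ℕ) :
    (σ * ModularGroup.T ^ j) 1 0 = σ 1 0 := by
  rw [Matrix.SpecialLinearGroup.coe_mul, Matrix.mul_apply, Fin.sum_univ_two, coe_T_pow]
  simp

/-- slash by `T^j` is translation by `j` -/
theorem slash_T_pow_apply (φ : ℍ → ℂ) (k : ℤ) (j : ℕ) (z : ℍ) :
    (φ ∣[k] (ModularGroup.T ^ j)) z = φ (ModularGroup.T ^ j • z) := by
  rw [ModularForm.SL_slash_apply]
  have hd : denom (ModularGroup.T ^ j : SL(2, ℤ)) z = 1 := by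
    rw [ModularGroup.denom_apply, coe_T_pow]
    simp
  rw [hd, one_zpow, mul_one]

theorem coe_T_pow_smul (j : ℕ) (z : ℍ) : ((ModularGroup.T ^ j • z : ℍ) : ℂ) = (z : ℂ) + j := by
  have := ModularGroup.coe_T_zpow_smul_eq (z := z) (n := (j : ℤ))
  rw [zpow_natCast] at this
  rw [this]
  push_cast
  rfl

/-- `F ∣ σ T^j = (F ∣ S) ∣ T^j` when the bottom right entry of `σ` is `p` -/
theorem slash_sigma_T {p : ℕ} (F : ModularForm (Gamma0 p) 2) (σ : SL(2, ℤ))
    (hσd : σ 1 1 = (p : ℤ)) (j : ℕ) :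
    ⇑F ∣[(2 : ℤ)] (σ * ModularGroup.T ^ j)
      = (⇑F ∣[(2 : ℤ)] ModularGroup.S) ∣[(2 : ℤ)] (ModularGroup.T ^ j) := by
  have hmem : σ * ModularGroup.S⁻¹ ∈ Gamma0 p := by
    rw [Gamma0_mem, ZMod.intCast_zmod_eq_zero_iff_dvd]
    have e : (σ * ModularGroup.S⁻¹) 1 0 = -(p : ℤ) := by
      rw [Matrix.SpecialLinearGroup.coe_mul, Matrix.mul_apply, Fin.sum_univ_two,
        Matrix.SpecialLinearGroup.SL2_inv_expl]
      simp [ModularGroup.coe_S, hσd]
    rw [e]
    exact (dvd_refl _).neg_right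
  have hg : σ * ModularGroup.T ^ j
      = (σ * ModularGroup.S⁻¹) * (ModularGroup.S * ModularGroup.T ^ j) := by
    group
  rw [hg, SlashAction.slash_mul, slash_eq_of_mem_Gamma0 F hmem, SlashAction.slash_mul]

/-! ### The glued statement -/

/-- **(C)**, glued: the norm of `κ = lam F - mu A`, given the expansion of `F ∣ S`. -/
theorem exists_norm_series_of {N' p : ℕ} [NeZero N'] (hp : p.Prime) (hcop : Nat.Coprime N' p)
    (F : ModularForm (Gamma0 p) 2) (A : ModularForm (Gamma0 N') 2) (lam mu : ℂ)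
    (hFS : ∀ τ : ℍ, HasSum (fun n : ℕ => (-(1 / p : ℂ)) * PowerSeries.coeff (p * n) (qExpansion 1 F)
      * 𝕢 (p : ℝ) τ ^ n) ((⇑F ∣[(2 : ℤ)] ModularGroup.S) τ)) :
    ∃ (m : ℕ) (_ : 0 < m) (𝒩 : ModularForm (Gamma0 N') (2 * (m : ℤ))) (t : Fin m → PowerSeries ℂ),
      (∀ i, (∀ n, PowerSeries.coeff n (t i) = if p ∣ n then
              lam * PowerSeries.coeff (n / p) (qExpansion 1 F)
                - mu * PowerSeries.coeff (n / p) (qExpansion 1 A) else 0) ∨
            (∃ ζ : ℂ, ζ ^ p = 1 ∧ ∀ n, PowerSeries.coeff n (t i)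
              = -(lam / p) * ζ ^ n * PowerSeries.coeff (p * n) (qExpansion 1 F)
                - mu * (if p ∣ n then PowerSeries.coeff (n / p) (qExpansion 1 A) else 0))) ∧
      ∀ n, PowerSeries.coeff n (∏ i, t i)
        = if p ∣ n then PowerSeries.coeff (n / p) (qExpansion 1 𝒩) else 0 := by
  obtain ⟨σ, hσc, hσd⟩ := exists_sigma hcop
  have hpos : 0 < p := hp.pos
  have h1F := CongruenceSubgroup.one_mem_strictPeriods_Gamma0 p
  have h1A := CongruenceSubgroup.one_mem_strictPeriods_Gamma0 N'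
  set κ : ModularForm (Gamma0 (N' * p)) 2 :=
    lam • restrictLevel (Dvd.intro_left N' rfl) F - mu • restrictLevel (Dvd.intro p rfl) A with hκdef
  have hκ : ∀ z : ℍ, κ z = lam * F z - mu * A z := fun z => rfl
  set s₀ : PowerSeries ℂ := PowerSeries.mk fun n => if p ∣ n then
      lam * PowerSeries.coeff (n / p) (qExpansion 1 F)
        - mu * PowerSeries.coeff (n / p) (qExpansion 1 A) else 0 with hs₀
  set ζ : ℕ → ℂ := fun j => Complex.exp (2 * Real.pi * Complex.I * j / p) with hζ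
  set s : ℕ → PowerSeries ℂ := fun j => PowerSeries.mk fun n =>
      -(lam / p) * ζ j ^ n * PowerSeries.coeff (p * n) (qExpansion 1 F)
        - mu * (if p ∣ n then PowerSeries.coeff (n / p) (qExpansion 1 A) else 0) with hs
  -- the expansion of `κ`
  have h₀ : ∀ z : ℍ, HasSum (fun n : ℕ => PowerSeries.coeff n s₀ • 𝕢 (p : ℝ) z ^ n) (κ z) := by
    intro z
    have hF1 := hasSum_vop_form h1F hpos F z
    have hA1 := hasSum_vop_form h1A hpos A z
    have h := (hF1.mul_left lam).sub (hA1.mul_left mu)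
    rw [hκ z]
    refine hasSum_of_eq h ?_
    intro n
    rw [smul_eq_mul, hs₀, PowerSeries.coeff_mk]
    split_ifs <;> ring
  -- the expansions of the conjugates
  have hsj : ∀ j < p, ∀ z : ℍ, HasSum (fun n : ℕ => PowerSeries.coeff n (s j) • 𝕢 (p : ℝ) z ^ n)
      ((⇑κ ∣[(2 : ℤ)] (σ * ModularGroup.T ^ j)) z) := by
    intro j _ z
    have e1 : (⇑κ ∣[(2 : ℤ)] (σ * ModularGroup.T ^ j)) z
        = lam * ((⇑F ∣[(2 : ℤ)] (σ * ModularGroup.T ^ j)) z)
          - mu * ((⇑A ∣[(2 : ℤ)] (σ * ModularGroup.T ^ j)) z) := by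
      rw [ModularForm.SL_slash_apply, ModularForm.SL_slash_apply, ModularForm.SL_slash_apply, hκ]
      ring
    have e2 : ⇑A ∣[(2 : ℤ)] (σ * ModularGroup.T ^ j) = ⇑A := by
      refine slash_eq_of_mem_Gamma0 A (Gamma0_mem.mpr ?_)
      rw [sigma_T_apply_one_zero, hσc]
      simp
    have e4 : (⇑F ∣[(2 : ℤ)] (σ * ModularGroup.T ^ j)) z
        = (⇑F ∣[(2 : ℤ)] ModularGroup.S) (ModularGroup.T ^ j • z) := by
      rw [slash_sigma_T F σ hσd j, slash_T_pow_apply]
    have hFS' := hFS (ModularGroup.T ^ j • z)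
    rw [coe_T_pow_smul, qParam_add_nat hpos] at hFS'
    have hA1 := hasSum_vop_form h1A hpos A z
    have h := (hFS'.mul_left lam).sub (hA1.mul_left mu)
    rw [e1, e2, e4]
    refine hasSum_of_eq h ?_
    intro n
    rw [smul_eq_mul, hs, PowerSeries.coeff_mk]
    simp only [hζ]
    rw [mul_pow]
    ring
  obtain ⟨m, hm, 𝒩, t, ht, hcoef⟩ := exists_norm_qexp hp hcop κ σ hσc hσd s₀ s h₀ hsj
  refine ⟨m, hm, 𝒩, t, fun i => ?_, hcoef⟩
  rcases ht i with h | ⟨j, _, h⟩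
  · left
    intro n
    rw [h, hs₀, PowerSeries.coeff_mk]
  · right
    refine ⟨ζ j, zeta_pow hpos j, fun n => ?_⟩
    rw [h, hs, PowerSeries.coeff_mk]

end Fermat.Agent.S16Lib.NormGlue
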