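import Fermat.Prelude.Thm_ModularForm_sturm_bound_Gamma0
import Fermat.Prelude.Thm_CongruenceSubgroup_one_mem_strictPeriods_Gamma0
import Fermat.Agent.GenusLib.CosetCount

/-!
# S16, piece (D): triangular integral bases and the Sturm bound

If `M_k(Γ₀(N))` contains forms `m_0, …, m_J` (`J ≥` the Sturm bound) with integral
`q`-expansions `m_j = q^j + …`, then for every form `g` of that weight and every additive
subgroup `I ⊆ ℂ`: if the coefficients `a_n(g)`, `n ≤ J`, lie in `I`, then all of them do.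
-/

set_option autoImplicit false

namespace Fermat.Agent.S16Lib.SturmBasis

open ModularForm UpperHalfPlane CongruenceSubgroup PowerSeries
open scoped MatrixGroups

/-- `P` has integer coefficients, vanishes to order `d` and has leading coefficient `1`. -/
def IsMon (P : PowerSeries ℂ) (d : ℕ) : Prop :=
  ∃ u : PowerSeries ℤ, constantCoeff u = 1 ∧ P = (X ^ d * u).map (Int.castRingHom ℂ)

theorem IsMon.mul {P Q : PowerSeries ℂ} {d e : ℕ} (hP : IsMon P d) (hQ : IsMon Q e) :
    IsMon (P * Q) (d + e) := by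
  obtain ⟨u, hu, rfl⟩ := hP
  obtain ⟨v, hv, rfl⟩ := hQ
  refine ⟨u * v, by simp [hu, hv], ?_⟩
  rw [← map_mul]
  congr 1
  ring

theorem IsMon.one : IsMon 1 0 := ⟨1, by simp, by simp⟩

theorem IsMon.pow {P : PowerSeries ℂ} {d : ℕ} (hP : IsMon P d) (n : ℕ) :
    IsMon (P ^ n) (n * d) := by
  induction n with
  | zero => simpa using IsMon.one
  | succ n ih =>
    rw [pow_succ, Nat.succ_mul]
    exact ih.mul hP

theorem IsMon.coeff_int {P : PowerSeries ℂ} {d : ℕ} (hP : IsMon P d) (n : ℕ) :
    ∃ z : ℤ, coeff n P = z := by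
  obtain ⟨u, -, rfl⟩ := hP
  exact ⟨coeff n (X ^ d * u), by rw [coeff_map]; rfl⟩

theorem IsMon.coeff_lt {P : PowerSeries ℂ} {d : ℕ} (hP : IsMon P d) {i : ℕ} (hi : i < d) :
    coeff i P = 0 := by
  obtain ⟨u, -, rfl⟩ := hP
  rw [coeff_map, coeff_X_pow_mul', if_neg (by omega)]
  simp

theorem IsMon.coeff_self {P : PowerSeries ℂ} {d : ℕ} (hP : IsMon P d) : coeff d P = 1 := by
  obtain ⟨u, hu, rfl⟩ := hP
  rw [coeff_map, coeff_X_pow_mul', if_pos le_rfl, Nat.sub_self, coeff_zero_eq_constantCoeff_apply,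
    hu]
  simp

theorem isMon_of_coeff {P : PowerSeries ℂ} {d : ℕ} (hint : ∀ n, ∃ z : ℤ, coeff n P = z)
    (hlt : ∀ i < d, coeff i P = 0) (hd : coeff d P = 1) : IsMon P d := by
  choose z hz using hint
  refine ⟨PowerSeries.mk fun n => z (n + d), ?_, ?_⟩
  · have h1 : ((z d : ℤ) : ℂ) = 1 := by rw [← hz, hd]
    have h2 : z d = 1 := by exact_mod_cast h1
    rw [← coeff_zero_eq_constantCoeff_apply, coeff_mk, Nat.zero_add, h2]
  · ext n
    rw [coeff_map, coeff_X_pow_mul']
    split_ifs with h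
    · rw [coeff_mk, Nat.sub_add_cancel h, hz]
      simp
    · rw [hlt n (by omega)]
      simp

theorem qExpansion_sub_smul (N : ℕ) {k : ℤ} (g m : ModularForm (Gamma0 N) k) (c : ℂ) (n : ℕ) :
    (qExpansion 1 ((g - c • m : ModularForm (Gamma0 N) k) : ℍ → ℂ)).coeff n =
      (qExpansion 1 g).coeff n - c * (qExpansion 1 m).coeff n := by
  have h1 := one_mem_strictPeriods_Gamma0 N
  have e0 : ((g - c • m : ModularForm (Gamma0 N) k) : ℍ → ℂ) = (g : ℍ → ℂ) - c • (m : ℍ → ℂ) := by
    ext z
    simp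
  have e1 : qExpansion 1 ((g : ℍ → ℂ) - c • (m : ℍ → ℂ)) =
      qExpansion 1 g - qExpansion 1 (c • (m : ℍ → ℂ)) :=
    ModularForm.qExpansion_sub one_pos h1 g (c • m)
  have e2 : qExpansion 1 (c • (m : ℍ → ℂ)) = c • qExpansion 1 m :=
    ModularForm.qExpansion_smul one_pos h1 c m
  rw [e0, e1, e2, map_sub, coeff_smul, smul_eq_mul]

theorem coeff_mem_aux (N : ℕ) [NeZero N] {k : ℤ} (J : ℕ)
    (hJ : (k * (Gamma0 N).index).toNat / 12 ≤ J)
    (m : ℕ → ModularForm (Gamma0 N) k)
    (hm : ∀ j ≤ J, IsMon (qExpansion 1 (m j)) j)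
    (I : AddSubgroup ℂ) :
    ∀ (s t : ℕ), t + s = J + 1 → ∀ g : ModularForm (Gamma0 N) k,
      (∀ n ≤ J, (qExpansion 1 g).coeff n ∈ I) →
      (∀ n < t, (qExpansion 1 g).coeff n = 0) → ∀ n, (qExpansion 1 g).coeff n ∈ I := by
  intro s
  induction s with
  | zero =>
    intro t ht g _ hz n
    have hg : g = 0 := by
      apply ModularForm.sturm_bound_Gamma0 N
      intro i hi
      exact hz i (by omega)
    rw [hg]
    have : qExpansion 1 (⇑(0 : ModularForm (Gamma0 N) k)) = 0 := by
      rw [FunLike.coe_zero]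
      exact qExpansion_zero 1
    rw [this]
    simp
  | succ s ih =>
    intro t ht g hI hz n
    have htJ : t ≤ J := by omega
    set c := (qExpansion 1 g).coeff t with hc
    have hcI : c ∈ I := hI t htJ
    have hmt := hm t htJ
    have key : ∀ i, c * (qExpansion 1 (m t)).coeff i ∈ I := by
      intro i
      obtain ⟨z, hz'⟩ := hmt.coeff_int i
      rw [hz', mul_comm, ← zsmul_eq_mul]
      exact I.zsmul_mem hcI z
    have h' := ih (t + 1) (by omega) (g - c • m t)
      (by
        intro i hi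
        rw [qExpansion_sub_smul]
        exact I.sub_mem (hI i hi) (key i))
      (by
        intro i hi
        rw [qExpansion_sub_smul]
        rcases Nat.lt_succ_iff_lt_or_eq.mp hi with h | h
        · rw [hz i h, hmt.coeff_lt h]
          simp
        · subst h
          rw [hmt.coeff_self]
          simp [hc])
      n
    rw [qExpansion_sub_smul] at h'
    have := I.add_mem h' (key n)
    simpa using this

/-- **Triangular bases and the Sturm bound.** -/
theorem coeff_mem_of_triangular (N : ℕ) [NeZero N] {k : ℤ} (J : ℕ)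
    (hJ : (k * (Gamma0 N).index).toNat / 12 ≤ J)
    (m : ℕ → ModularForm (Gamma0 N) k)
    (hm : ∀ j ≤ J, IsMon (qExpansion 1 (m j)) j)
    (I : AddSubgroup ℂ) (g : ModularForm (Gamma0 N) k)
    (h : ∀ n ≤ J, (qExpansion 1 g).coeff n ∈ I) : ∀ n, (qExpansion 1 g).coeff n ∈ I :=
  coeff_mem_aux N J hJ m hm I (J + 1) 0 (by omega) g h (fun n hn => absurd hn (Nat.not_lt_zero n))

theorem dedekindPsi_prime' {p : ℕ} (hp : p.Prime) : ModularCurve.dedekindPsi p = p + 1 := by
  rw [ModularCurve.dedekindPsi, hp.divisors, Finset.filter_true_of_mem, Finset.sum_pair hp.one_lt.ne]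
  · rw [Nat.div_one, Nat.div_self hp.pos]
  · intro d hd
    rcases Finset.mem_insert.mp hd with h | h
    · rw [h]; exact squarefree_one
    · rw [Finset.mem_singleton.mp h]; exact hp.squarefree

theorem index_Gamma0_two : (Gamma0 2).index = 3 := by
  rw [Fermat.Agent.GenusLib.Cosets.index_Gamma0, dedekindPsi_prime' Nat.prime_two]

theorem index_Gamma0_three : (Gamma0 3).index = 4 := by
  rw [Fermat.Agent.GenusLib.Cosets.index_Gamma0, dedekindPsi_prime' Nat.prime_three]

/-- **(D), level 2.** `A = 1 + …` of weight 2 and `B = q + …` of weight 4 on `Γ₀(2)` with integral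
`q`-expansions: a form of weight `2K` whose coefficients `a_n`, `n ≤ K/2`, lie in an additive
subgroup `I` of `ℂ` has all its coefficients in `I`. -/
theorem level_two (A : ModularForm (Gamma0 2) 2) (B : ModularForm (Gamma0 2) 4)
    (hA : IsMon (qExpansion 1 A) 0) (hB : IsMon (qExpansion 1 B) 1)
    {k : ℤ} (K : ℕ) (hk : k = 2 * (K : ℤ)) (g : ModularForm (Gamma0 2) k) (I : AddSubgroup ℂ)
    (h : ∀ n ≤ K / 2, (qExpansion 1 g).coeff n ∈ I) : ∀ n, (qExpansion 1 g).coeff n ∈ I := by
  have h1 := one_mem_strictPeriods_Gamma0 2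
  refine coeff_mem_of_triangular 2 (K / 2) ?_
    (fun j => if hj : 2 * j ≤ K then
      mcast (by omega) ((A.pow (K - 2 * j)).mul (B.pow j)) else 0) ?_ I g h
  · rw [index_Gamma0_two, hk]
    omega
  · intro j hj
    have hj' : 2 * j ≤ K := by omega
    simp only [dif_pos hj']
    rw [ModularForm.qExpansion_mcast, ModularForm.qExpansion_mul one_pos h1,
      ModularForm.qExpansion_pow one_pos h1, ModularForm.qExpansion_pow one_pos h1]
    have := (hA.pow (K - 2 * j)).mul (hB.pow j)
    simpa using this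

/-- **(D), level 3.** `A = 1 + …` (weight 2), `B = q + …` (weight 4), `D = q² + …` (weight 6) on
`Γ₀(3)` with integral `q`-expansions: a form of weight `2K` whose coefficients `a_n`,
`n ≤ 2K/3`, lie in an additive subgroup `I` of `ℂ` has all its coefficients in `I`. -/
theorem level_three (A : ModularForm (Gamma0 3) 2) (B : ModularForm (Gamma0 3) 4)
    (D : ModularForm (Gamma0 3) 6)
    (hA : IsMon (qExpansion 1 A) 0) (hB : IsMon (qExpansion 1 B) 1)
    (hD : IsMon (qExpansion 1 D) 2)
    {k : ℤ} (K : ℕ) (hk : k = 2 * (K : ℤ)) (g : ModularForm (Gamma0 3) k) (I : AddSubgroup ℂ)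
    (h : ∀ n ≤ 2 * K / 3, (qExpansion 1 g).coeff n ∈ I) :
    ∀ n, (qExpansion 1 g).coeff n ∈ I := by
  have h1 := one_mem_strictPeriods_Gamma0 3
  refine coeff_mem_of_triangular 3 (2 * K / 3) ?_
    (fun j => if hj : 2 * (j % 2) + 3 * (j / 2) ≤ K then
      mcast (by omega)
        (((A.pow (K - (2 * (j % 2) + 3 * (j / 2)))).mul (B.pow (j % 2))).mul (D.pow (j / 2)))
      else 0) ?_ I g h
  · rw [index_Gamma0_three, hk]
    omega
  · intro j hj
    have hj' : 2 * (j % 2) + 3 * (j / 2) ≤ K := by omega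
    simp only [dif_pos hj']
    rw [ModularForm.qExpansion_mcast, ModularForm.qExpansion_mul one_pos h1,
      ModularForm.qExpansion_mul one_pos h1,
      ModularForm.qExpansion_pow one_pos h1, ModularForm.qExpansion_pow one_pos h1,
      ModularForm.qExpansion_pow one_pos h1]
    have := ((hA.pow (K - (2 * (j % 2) + 3 * (j / 2)))).mul (hB.pow (j % 2))).mul (hD.pow (j / 2))
    have e : (K - (2 * (j % 2) + 3 * (j / 2))) * 0 + j % 2 * 1 + j / 2 * 2 = j := by omega
    rw [e] at this
    exact this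

end Fermat.Agent.S16Lib.SturmBasis
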