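import Fermat.Agent.S16Lib.QDefs
import Fermat.Agent.S16Lib.SturmBasis

/-!
# S16, piece (D): the generators at level 2 and 3

From modular forms with `q`-expansions `ANser N`, `E4ser`, `Vop N E4ser` (and `E6ser`,
`Vop 3 E6ser` at level 3) we build `A = 1 + …`, `B = q + …` (and `D = q² + …`) with integral
`q`-expansions and deduce the integral Sturm statements `sturm_two_of`, `sturm_three_of`.
-/

set_option autoImplicit false

namespace Fermat.Agent.S16Lib.SturmBasis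

open ModularForm UpperHalfPlane CongruenceSubgroup PowerSeries
open Fermat.Agent.S16Lib
open scoped MatrixGroups

theorem isMon_map {f : PowerSeries ℤ} {d : ℕ} (hlt : ∀ i < d, coeff i f = 0)
    (hd : coeff d f = 1) : IsMon (f.map (Int.castRingHom ℂ)) d := by
  refine isMon_of_coeff (fun n => ⟨coeff n f, by rw [coeff_map]; rfl⟩) ?_ ?_
  · intro i hi
    rw [coeff_map, hlt i hi]
    simp
  · rw [coeff_map, hd]
    simp

theorem qexp_sub (N : ℕ) {k : ℤ} (f g : ModularForm (Gamma0 N) k) :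
    qExpansion 1 ((f - g : ModularForm (Gamma0 N) k) : ℍ → ℂ) =
      qExpansion 1 f - qExpansion 1 g := by
  have e0 : ((f - g : ModularForm (Gamma0 N) k) : ℍ → ℂ) = (f : ℍ → ℂ) - (g : ℍ → ℂ) := by
    ext z
    simp
  rw [e0]
  exact ModularForm.qExpansion_sub one_pos (one_mem_strictPeriods_Gamma0 N) f g

theorem qexp_smul (N : ℕ) {k : ℤ} (c : ℂ) (f : ModularForm (Gamma0 N) k) :
    qExpansion 1 ((c • f : ModularForm (Gamma0 N) k) : ℍ → ℂ) = c • qExpansion 1 f := by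
  have e0 : ((c • f : ModularForm (Gamma0 N) k) : ℍ → ℂ) = c • (f : ℍ → ℂ) := by
    ext z
    simp
  rw [e0]
  exact ModularForm.qExpansion_smul one_pos (one_mem_strictPeriods_Gamma0 N) c f

/-! ### Coefficients of the shared series -/

theorem coeff_E4ser (n : ℕ) :
    coeff n E4ser = if n = 0 then 1 else 240 * ((ArithmeticFunction.sigma 3 n : ℕ) : ℂ) := by
  rw [E4ser, map_add, coeff_smul, sigSer, coeff_mk, coeff_one]
  split_ifs <;> simp

theorem coeff_E6ser (n : ℕ) :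
    coeff n E6ser = if n = 0 then 1 else -(504 * ((ArithmeticFunction.sigma 5 n : ℕ) : ℂ)) := by
  rw [E6ser, map_sub, coeff_smul, sigSer, coeff_mk, coeff_one]
  split_ifs <;> simp

theorem coeff_Vop (N : ℕ) (s : PowerSeries ℂ) (n : ℕ) :
    coeff n (Vop N s) = if N ∣ n then coeff (n / N) s else 0 := by
  rw [Vop, coeff_mk]

/-- Integral version of `∑ σ^{(N)}(n) q^n`. -/
noncomputable def sZ (N : ℕ) : PowerSeries ℤ :=
  PowerSeries.mk fun n => if n = 0 then 0 else (sigPrime N n : ℤ)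

theorem sigPrimeSer_eq (N : ℕ) : sigPrimeSer N = (sZ N).map (Int.castRingHom ℂ) := by
  ext n
  rw [coeff_map, sigPrimeSer, sZ, coeff_mk, coeff_mk]
  split_ifs <;> simp

/-- Integral version of `(E₄(z) - E₄(Nz))/240 = q + …`. -/
noncomputable def b4Z (N : ℕ) : PowerSeries ℤ :=
  PowerSeries.mk fun n => (ArithmeticFunction.sigma 3 n : ℤ) -
    (if N ∣ n then (ArithmeticFunction.sigma 3 (n / N) : ℤ) else 0)

theorem b4_eq (N : ℕ) (hN : 2 ≤ N) :
    (1 / 240 : ℂ) • (E4ser - Vop N E4ser) = (b4Z N).map (Int.castRingHom ℂ) := by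
  ext n
  rw [coeff_smul, map_sub, coeff_Vop, coeff_E4ser, coeff_map, b4Z, coeff_mk]
  rcases Nat.eq_zero_or_pos n with rfl | hn
  · rw [if_pos (dvd_zero N), if_pos (dvd_zero N), Nat.zero_div, coeff_E4ser, if_pos rfl]
    simp
  · rw [if_neg hn.ne']
    by_cases hd : N ∣ n
    · rw [if_pos hd, if_pos hd, coeff_E4ser]
      have h2 : n / N ≠ 0 := by
        have := Nat.le_of_dvd hn hd
        exact (Nat.div_pos this (by omega)).ne'
      rw [if_neg h2]
      simp only [smul_eq_mul, eq_intCast]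
      push_cast
      ring
    · rw [if_neg hd, if_neg hd]
      simp only [smul_eq_mul, eq_intCast]
      push_cast
      ring

theorem coeff_b4Z_zero (N : ℕ) : coeff 0 (b4Z N) = 0 := by
  rw [b4Z, coeff_mk]
  simp

theorem coeff_b4Z_one (N : ℕ) (hN : 2 ≤ N) : coeff 1 (b4Z N) = 1 := by
  rw [b4Z, coeff_mk]
  have : ¬ N ∣ 1 := by
    intro h
    have := Nat.le_of_dvd one_pos h
    omega
  rw [if_neg this]
  simp

theorem aN_eq (N : ℕ) (c : ℤ) (hc : (24 / ((N : ℂ) - 1)) = (c : ℂ)) :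
    ANser N = (1 + C c * sZ N).map (Int.castRingHom ℂ) := by
  rw [ANser, sigPrimeSer_eq, hc, smul_eq_C_mul, map_add, map_mul, map_one, map_C]
  rfl

theorem isMon_aN (N : ℕ) (c : ℤ) (hc : (24 / ((N : ℂ) - 1)) = (c : ℂ)) : IsMon (ANser N) 0 := by
  rw [aN_eq N c hc]
  refine isMon_map (fun i hi => absurd hi (Nat.not_lt_zero i)) ?_
  rw [map_add, coeff_C_mul, sZ, coeff_mk, if_pos rfl, mul_zero, add_zero, coeff_one, if_pos rfl]

theorem isMon_b4 (N : ℕ) (hN : 2 ≤ N) :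
    IsMon ((1 / 240 : ℂ) • (E4ser - Vop N E4ser)) 1 := by
  rw [b4_eq N hN]
  refine isMon_map (fun i hi => ?_) (coeff_b4Z_one N hN)
  have : i = 0 := by omega
  rw [this, coeff_b4Z_zero]

/-- **(D), level 2**, from the level-2 Eisenstein forms. -/
theorem sturm_two_of (hA : ∃ A : ModularForm (Gamma0 2) 2, qExpansion 1 A = ANser 2)
    (hE : ∃ E : ModularForm (Gamma0 2) 4, qExpansion 1 E = E4ser)
    (hEV : ∃ E : ModularForm (Gamma0 2) 4, qExpansion 1 E = Vop 2 E4ser)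
    {k : ℤ} (K : ℕ) (hk : k = 2 * (K : ℤ)) (g : ModularForm (Gamma0 2) k) (I : AddSubgroup ℂ)
    (h : ∀ n ≤ K / 2, (qExpansion 1 g).coeff n ∈ I) : ∀ n, (qExpansion 1 g).coeff n ∈ I := by
  obtain ⟨A, hA⟩ := hA
  obtain ⟨E, hE⟩ := hE
  obtain ⟨EV, hEV⟩ := hEV
  refine level_two A ((1 / 240 : ℂ) • (E - EV)) ?_ ?_ K hk g I h
  · rw [hA]
    exact isMon_aN 2 24 (by norm_num)
  · rw [qexp_smul, qexp_sub, hE, hEV]
    exact isMon_b4 2 le_rfl

/-! ### Level 3: the form `D = q² + …` of weight 6 -/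

theorem twelve_dvd_pow (d : ℤ) : (12 : ℤ) ∣ d ^ 5 - d ^ 3 := by
  have h : ∀ x : ZMod 12, x ^ 5 - x ^ 3 = 0 := by decide
  have := h (d : ZMod 12)
  exact (ZMod.intCast_zmod_eq_zero_iff_dvd (d ^ 5 - d ^ 3) 12).mp (by push_cast; exact this)

theorem sigma_diff (m : ℕ) :
    ∃ c : ℤ, (ArithmeticFunction.sigma 5 m : ℤ) - (ArithmeticFunction.sigma 3 m : ℤ) = 12 * c := by
  have h : (12 : ℤ) ∣ (ArithmeticFunction.sigma 5 m : ℤ) - (ArithmeticFunction.sigma 3 m : ℤ) := by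
    rw [ArithmeticFunction.sigma_apply, ArithmeticFunction.sigma_apply]
    push_cast
    rw [← Finset.sum_sub_distrib]
    exact Finset.dvd_sum fun d _ => twelve_dvd_pow d
  obtain ⟨c, hc⟩ := h
  exact ⟨c, hc⟩

/-- `(σ₅(m) - σ₃(m))/12`. -/
noncomputable def cfun (m : ℕ) : ℤ := Classical.choose (sigma_diff m)

theorem cfun_spec (m : ℕ) :
    (ArithmeticFunction.sigma 5 m : ℤ) - (ArithmeticFunction.sigma 3 m : ℤ) = 12 * cfun m :=
  Classical.choose_spec (sigma_diff m)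

theorem sigma_one' (k : ℕ) : ArithmeticFunction.sigma k 1 = 1 := by
  rw [ArithmeticFunction.sigma_apply]
  simp

theorem sigma_two' (k : ℕ) : ArithmeticFunction.sigma k 2 = 1 + 2 ^ k := by
  rw [ArithmeticFunction.sigma_apply, Nat.Prime.divisors Nat.prime_two,
    Finset.sum_pair (by norm_num)]
  simp

theorem cfun_one : cfun 1 = 0 := by
  have := cfun_spec 1
  rw [sigma_one', sigma_one'] at this
  omega

theorem cfun_two : cfun 2 = 2 := by
  have := cfun_spec 2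
  rw [sigma_two', sigma_two'] at this
  norm_num at this
  omega

/-- Integral version of `(E₆(3z) - E₆(z))/504 = q + …`. -/
noncomputable def b6Z : PowerSeries ℤ :=
  PowerSeries.mk fun n => (ArithmeticFunction.sigma 5 n : ℤ) -
    (if 3 ∣ n then (ArithmeticFunction.sigma 5 (n / 3) : ℤ) else 0)

theorem b6_eq :
    (1 / 504 : ℂ) • (Vop 3 E6ser - E6ser) = b6Z.map (Int.castRingHom ℂ) := by
  ext n
  rw [coeff_smul, map_sub, coeff_Vop, coeff_E6ser n, coeff_map, b6Z, coeff_mk]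
  rcases Nat.eq_zero_or_pos n with rfl | hn
  · rw [if_pos (dvd_zero 3), if_pos (dvd_zero 3), Nat.zero_div, coeff_E6ser, if_pos rfl]
    simp
  · rw [if_neg hn.ne']
    by_cases hd : 3 ∣ n
    · rw [if_pos hd, if_pos hd, coeff_E6ser]
      have h2 : n / 3 ≠ 0 := by
        have := Nat.le_of_dvd hn hd
        omega
      rw [if_neg h2]
      simp only [smul_eq_mul, eq_intCast]
      push_cast
      ring
    · rw [if_neg hd, if_neg hd]
      simp only [smul_eq_mul, eq_intCast]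
      push_cast
      ring

/-- `((σ₅ - σ₃)(n) - (σ₅ - σ₃)(n/3))/12`. -/
noncomputable def cZ : PowerSeries ℤ :=
  PowerSeries.mk fun n => cfun n - (if 3 ∣ n then cfun (n / 3) else 0)

theorem b6Z_sub_b4Z : b6Z - b4Z 3 = C (12 : ℤ) * cZ := by
  ext n
  rw [map_sub, coeff_C_mul, b6Z, b4Z, cZ, coeff_mk, coeff_mk, coeff_mk]
  have h1 := cfun_spec n
  have h2 := cfun_spec (n / 3)
  split_ifs <;> linarith

/-- The integral `q`-expansion of `D`. -/
noncomputable def dZ : PowerSeries ℤ := cZ - sZ 3 * b4Z 3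

theorem sigPrime_three_one : sigPrime 3 1 = 1 := by
  decide

theorem coeff_sZ_zero (N : ℕ) : coeff 0 (sZ N) = 0 := by
  rw [sZ, coeff_mk, if_pos rfl]

theorem coeff_sZ_three_one : coeff 1 (sZ 3) = 1 := by
  rw [sZ, coeff_mk, if_neg one_ne_zero, sigPrime_three_one]
  rfl

theorem coeff_dZ_zero : coeff 0 dZ = 0 := by
  have hc : coeff 0 cZ = 0 := by
    rw [cZ, coeff_mk]
    simp
  rw [dZ, map_sub, coeff_mul, hc]
  simp [coeff_sZ_zero, coeff_b4Z_zero]

theorem coeff_dZ_one : coeff 1 dZ = 0 := by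
  have hc : coeff 1 cZ = 0 := by
    rw [cZ, coeff_mk, cfun_one]
    norm_num
  have h3 := coeff_b4Z_zero 3
  have h0 := coeff_sZ_zero 3
  rw [dZ, map_sub, coeff_mul, hc]
  simp [Finset.Nat.antidiagonal_succ, h0, h3]

theorem coeff_dZ_two : coeff 2 dZ = 1 := by
  have hc : coeff 2 cZ = 2 := by
    rw [cZ, coeff_mk, cfun_two]
    norm_num
  have h3 := coeff_b4Z_zero 3
  have h4 := coeff_b4Z_one 3 (by norm_num)
  have h0 := coeff_sZ_zero 3
  have h1 := coeff_sZ_three_one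
  rw [dZ, map_sub, coeff_mul, hc]
  simp [Finset.Nat.antidiagonal_succ, h0, h1, h3, h4]

theorem isMon_d :
    IsMon ((1 / 12 : ℂ) • ((1 / 504 : ℂ) • (Vop 3 E6ser - E6ser) -
      ANser 3 * ((1 / 240 : ℂ) • (E4ser - Vop 3 E4ser)))) 2 := by
  have e : (1 / 12 : ℂ) • ((1 / 504 : ℂ) • (Vop 3 E6ser - E6ser) -
      ANser 3 * ((1 / 240 : ℂ) • (E4ser - Vop 3 E4ser))) = dZ.map (Int.castRingHom ℂ) := by
    rw [b6_eq, b4_eq 3 (by norm_num), aN_eq 3 12 (by norm_num), ← map_mul, ← map_sub]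
    have h : b6Z - (1 + C (12 : ℤ) * sZ 3) * b4Z 3 = C (12 : ℤ) * dZ := by
      rw [dZ, mul_sub, ← b6Z_sub_b4Z]
      ring
    rw [h, map_mul, map_C, smul_eq_C_mul, ← mul_assoc, ← map_mul]
    have : (1 / 12 : ℂ) * (Int.castRingHom ℂ) 12 = 1 := by
      norm_num
    rw [this, map_one, one_mul]
  rw [e]
  refine isMon_map (fun i hi => ?_) coeff_dZ_two
  interval_cases i
  · exact coeff_dZ_zero
  · exact coeff_dZ_one

/-- **(D), level 3**, from the level-3 Eisenstein forms. -/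
theorem sturm_three_of (hA : ∃ A : ModularForm (Gamma0 3) 2, qExpansion 1 A = ANser 3)
    (hE4 : ∃ E : ModularForm (Gamma0 3) 4, qExpansion 1 E = E4ser)
    (hE4V : ∃ E : ModularForm (Gamma0 3) 4, qExpansion 1 E = Vop 3 E4ser)
    (hE6 : ∃ E : ModularForm (Gamma0 3) 6, qExpansion 1 E = E6ser)
    (hE6V : ∃ E : ModularForm (Gamma0 3) 6, qExpansion 1 E = Vop 3 E6ser)
    {k : ℤ} (K : ℕ) (hk : k = 2 * (K : ℤ)) (g : ModularForm (Gamma0 3) k) (I : AddSubgroup ℂ)
    (h : ∀ n ≤ 2 * K / 3, (qExpansion 1 g).coeff n ∈ I) :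
    ∀ n, (qExpansion 1 g).coeff n ∈ I := by
  obtain ⟨A, hA⟩ := hA
  obtain ⟨E4, hE4⟩ := hE4
  obtain ⟨E4V, hE4V⟩ := hE4V
  obtain ⟨E6, hE6⟩ := hE6
  obtain ⟨E6V, hE6V⟩ := hE6V
  have h1 := one_mem_strictPeriods_Gamma0 3
  refine level_three A ((1 / 240 : ℂ) • (E4 - E4V))
    ((1 / 12 : ℂ) • ((1 / 504 : ℂ) • (E6V - E6) -
      mcast (by norm_num) (A.mul ((1 / 240 : ℂ) • (E4 - E4V))))) ?_ ?_ ?_ K hk g I h
  · rw [hA]
    exact isMon_aN 3 12 (by norm_num)
  · rw [qexp_smul, qexp_sub, hE4, hE4V]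
    exact isMon_b4 3 (by norm_num)
  · rw [qexp_smul, qexp_sub, qexp_smul, qexp_sub, ModularForm.qExpansion_mcast,
      ModularForm.qExpansion_mul one_pos h1, qexp_smul, qexp_sub, hA, hE4, hE4V, hE6, hE6V]
    exact isMon_d

end Fermat.Agent.S16Lib.SturmBasis
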