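import Fermat.Agent.S16Lib.EisLevelQ
import Fermat.Agent.S16Lib.SturmBasisForms

/-!
# S16, piece (D): the integral Sturm statements at level 2 and 3 (hypothesis-free)

For `N' ∈ {2, 3}`, a modular form of weight `2K` on `Γ₀(N')` whose `q`-expansion coefficients
`a_n`, `n ≤ K/2` (resp. `n ≤ 2K/3`), lie in an additive subgroup `I` of `ℂ` has all its
coefficients in `I`.
-/

set_option autoImplicit false

namespace Fermat.Agent.S16Lib.SturmBasis

open ModularForm UpperHalfPlane CongruenceSubgroup PowerSeries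
open Fermat.Agent.S16Lib
open scoped MatrixGroups

/-- **(D), level 2.** -/
theorem sturm_two {k : ℤ} (K : ℕ) (hk : k = 2 * (K : ℤ)) (g : ModularForm (Gamma0 2) k)
    (I : AddSubgroup ℂ) (h : ∀ n ≤ K / 2, (qExpansion 1 g).coeff n ∈ I) :
    ∀ n, (qExpansion 1 g).coeff n ∈ I :=
  sturm_two_of (EisLevel.exists_AN 2 Nat.prime_two) (EisLevel.exists_E4 2) (EisLevel.exists_E4V 2)
    K hk g I h

/-- **(D), level 3.** -/
theorem sturm_three {k : ℤ} (K : ℕ) (hk : k = 2 * (K : ℤ)) (g : ModularForm (Gamma0 3) k)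
    (I : AddSubgroup ℂ) (h : ∀ n ≤ 2 * K / 3, (qExpansion 1 g).coeff n ∈ I) :
    ∀ n, (qExpansion 1 g).coeff n ∈ I :=
  sturm_three_of (EisLevel.exists_AN 3 Nat.prime_three) (EisLevel.exists_E4 3)
    (EisLevel.exists_E4V 3) (EisLevel.exists_E6 3) (EisLevel.exists_E6V 3) K hk g I h

end Fermat.Agent.S16Lib.SturmBasis
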