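import Fermat.Agent.S16Lib.NormCases
import Fermat.Agent.S16Lib.NormGlue
import Fermat.Agent.S16Lib.SturmFinal

/-!
# S16Lib.NormClaims — the norm cases (`p ≡ -1`) of the claims (E) for `F ∈ M₂(Γ₀(p))`

From the expansion (A2) of `F ∣ S` (hypothesis `HypFS p`), the norm (C) of `lam (F - A_{N'})`
from `Γ₀(N' p)` to `Γ₀(N')`, the Sturm statements (D) at levels `2, 3` and the arithmetic
of `NormCases`.
-/

set_option autoImplicit false

namespace Fermat.Agent.S16Lib.NormClaims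

open UpperHalfPlane CongruenceSubgroup PowerSeries
open Fermat.Agent.S16Lib.NormArith Fermat.Agent.S16Lib.NormCases
open scoped MatrixGroups ModularForm

/-- (A2): `F ∣ S (τ) = -(1/p) ∑ a_{pn}(F) w^n`, `w = exp (2 π i τ / p)`. -/
def HypFS (p : ℕ) : Prop :=
  ∀ (F : ModularForm (Gamma0 p) 2) (τ : ℍ),
    HasSum (fun n : ℕ => (-(1 / p : ℂ)) * PowerSeries.coeff (p * n) (qExpansion 1 F)
      * Function.Periodic.qParam (p : ℝ) τ ^ n) ((⇑F ∣[(2 : ℤ)] ModularGroup.S) τ)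

theorem coeff_AN_zero (N : ℕ) [NeZero N] (hN : 2 ≤ N) :
    coeff 0 (qExpansion 1 (EisLevel.AN N)) = 1 := by
  rw [EisLevel.qExpansion_AN N hN, EisLevel.coeff_ANser]
  simp

theorem coeff_AN_two {n : ℕ} (hn : 1 ≤ n) :
    coeff n (qExpansion 1 (EisLevel.AN 2)) = (24 : ℂ) * (sigPrime 2 n : ℂ) := by
  rw [EisLevel.qExpansion_AN 2 le_rfl, EisLevel.coeff_ANser, if_neg (by omega)]
  norm_num

theorem coeff_AN_three {n : ℕ} (hn : 1 ≤ n) :
    coeff n (qExpansion 1 (EisLevel.AN 3)) = (12 : ℂ) * (sigPrime 3 n : ℂ) := by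
  rw [EisLevel.qExpansion_AN 3 (by norm_num), EisLevel.coeff_ANser, if_neg (by omega)]
  norm_num

variable {p : ℕ} [Fact p.Prime]

/-- **C2b, norm case**: `p % 8 = 7`, `M = 8`. -/
theorem n2b (hFS : HypFS p) (hp8 : p % 8 = 7) (F : ModularForm (Gamma0 p) 2) (d : ℕ)
    (hd : d.Coprime 2) (h0 : (qExpansion 1 F).coeff 0 = 1)
    (hF : ∀ k, 1 ≤ k → ∃ m : ℤ, (d : ℂ) * (qExpansion 1 F).coeff k = ((8 : ℕ) : ℂ) * (m : ℂ)) :
    False := by
  have hp : p.Prime := Fact.out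
  have hcop : Nat.Coprime 3 p := (Nat.coprime_primes Nat.prime_three hp).mpr (by omega)
  obtain ⟨m, hm, 𝒩, t, ht, hprod⟩ :=
    NormGlue.exists_norm_series_of hp hcop F (EisLevel.AN 3) (1 / 4 : ℂ) (1 / 4 : ℂ) (hFS F)
  exact norm_case_two hp hp8 (qExpansion 1 F) (qExpansion 1 (EisLevel.AN 3))
    (coeff_AN_zero 3 (by norm_num)) (fun n hn => coeff_AN_three hn) d hd h0 hF m (2 * m / 3)
    (by omega) (qExpansion 1 𝒩) t ht hprod
    (fun h => SturmBasis.sturm_three m rfl 𝒩 (rR 2) h)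

/-- **C3b, norm case**: `p % 9 = 8`, `M = 9`. -/
theorem n3b (hFS : HypFS p) (hp9 : p % 9 = 8) (F : ModularForm (Gamma0 p) 2) (d : ℕ)
    (hd : d.Coprime 3) (h0 : (qExpansion 1 F).coeff 0 = 1)
    (hF : ∀ k, 1 ≤ k → ∃ m : ℤ, (d : ℂ) * (qExpansion 1 F).coeff k = ((9 : ℕ) : ℂ) * (m : ℂ)) :
    False := by
  have hp : p.Prime := Fact.out
  have hcop : Nat.Coprime 2 p := (Nat.coprime_primes Nat.prime_two hp).mpr (by omega)
  obtain ⟨m, hm, 𝒩, t, ht, hprod⟩ :=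
    NormGlue.exists_norm_series_of hp hcop F (EisLevel.AN 2) (1 / 3 : ℂ) (1 / 3 : ℂ) (hFS F)
  exact norm_case_three hp hp9 (qExpansion 1 F) (qExpansion 1 (EisLevel.AN 2))
    (coeff_AN_zero 2 le_rfl) (fun n hn => coeff_AN_two hn) d hd h0 hF m (m / 2)
    (by omega) (qExpansion 1 𝒩) t ht hprod
    (fun h => SturmBasis.sturm_two m rfl 𝒩 (rR 3) h)

/-- **C5, norm case**: `r ≥ 5` prime, `r ∣ p + 1`, `M = r`. -/
theorem n5 (hFS : HypFS p) {r : ℕ} (hr : r.Prime) (hr5 : 5 ≤ r) (hpr : r ∣ p + 1)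
    (F : ModularForm (Gamma0 p) 2) (d : ℕ) (hd : d.Coprime r)
    (h0 : (qExpansion 1 F).coeff 0 = 1)
    (hF : ∀ k, 1 ≤ k → ∃ m : ℤ, (d : ℂ) * (qExpansion 1 F).coeff k = (r : ℂ) * (m : ℂ)) :
    False := by
  have hp : p.Prime := Fact.out
  have hp2 : 2 ≠ p := by
    rintro rfl
    have := Nat.le_of_dvd (by norm_num) hpr
    omega
  have hcop : Nat.Coprime 2 p := (Nat.coprime_primes Nat.prime_two hp).mpr hp2
  obtain ⟨m, hm, 𝒩, t, ht, hprod⟩ :=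
    NormGlue.exists_norm_series_of hp hcop F (EisLevel.AN 2) (1 : ℂ) (1 : ℂ) (hFS F)
  exact norm_case_big hr hr5 hp hpr (qExpansion 1 F) (qExpansion 1 (EisLevel.AN 2))
    (coeff_AN_zero 2 le_rfl) (fun n hn => coeff_AN_two hn) d hd h0 hF m (m / 2)
    (by omega) (qExpansion 1 𝒩) t ht hprod
    (fun h => SturmBasis.sturm_two m rfl 𝒩 (rR r) h)

end Fermat.Agent.S16Lib.NormClaims
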