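import Mathlib
import Fermat.Agent.S20
import Fermat.Agent.S23Lib.Descent
import Fermat.Agent.GenusLib.CosetCount

/-!
# S16: the levels `2`, `3`, `5` — there are no cusp forms of weight `2`
-/

set_option autoImplicit false

namespace Fermat.Agent.S16Lib.Small

open ModularCurve

theorem dedekindPsi_prime' {q : ℕ} (hq : q.Prime) : dedekindPsi q = q + 1 := by
  have h := Fermat.Agent.GenusLib.Cosets.dedekindPsi_prime_pow (p := q) (k := 1) hq one_pos
  simpa using h

theorem genusFormula_two : genusFormula 2 = 0 := by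
  have h2 : nuTwo 2 = 1 := by rw [nuTwo, Nat.card_eq_fintype_card]; decide
  have h3 : nuThree 2 = 0 := by rw [nuThree, Nat.card_eq_fintype_card]; decide
  have hc : cuspCount 2 = 2 := by decide
  rw [genusFormula, h2, h3, hc, dedekindPsi_prime' Nat.prime_two]; norm_num

theorem genusFormula_three : genusFormula 3 = 0 := by
  have h2 : nuTwo 3 = 0 := by rw [nuTwo, Nat.card_eq_fintype_card]; decide
  have h3 : nuThree 3 = 1 := by rw [nuThree, Nat.card_eq_fintype_card]; decide
  have hc : cuspCount 3 = 2 := by decide
  rw [genusFormula, h2, h3, hc, dedekindPsi_prime' Nat.prime_three]; norm_num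

theorem genusFormula_five : genusFormula 5 = 0 := by
  have h2 : nuTwo 5 = 2 := by rw [nuTwo, Nat.card_eq_fintype_card]; decide
  have h3 : nuThree 5 = 0 := by rw [nuThree, Nat.card_eq_fintype_card]; decide
  have hc : cuspCount 5 = 2 := by decide
  rw [genusFormula, h2, h3, hc, dedekindPsi_prime' Nat.prime_five]; norm_num

/-- genus `0` ⟹ no cusp forms of weight `2` -/
theorem cusp_eq_zero (N : ℕ) [NeZero N] (h : genusFormula N = 0)
    (f : CuspForm (CongruenceSubgroup.Gamma0 N) 2) : f = 0 := by
  haveI : FiniteDimensional ℂ (CuspForm (CongruenceSubgroup.Gamma0 N) 2) :=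
    Fermat.Agent.S23Lib.Descent.finiteDimensional_cuspForm N 2
  have h1 : Module.finrank ℂ (CuspForm (CongruenceSubgroup.Gamma0 N) 2) = 0 := by
    have h2 := Fermat.Agent.S20.result N
    rw [h] at h2
    exact_mod_cast h2
  haveI : Subsingleton (CuspForm (CongruenceSubgroup.Gamma0 N) 2) := Module.finrank_zero_iff.mp h1
  exact Subsingleton.elim f 0

end Fermat.Agent.S16Lib.Small
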