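import Mathlib
import Fermat.Statements.S16
import Fermat.Agent.S49Lib.QExp
import Fermat.Agent.S16Lib.Iface
import Fermat.Agent.S16Lib.SigmaRec
import Fermat.Agent.S16Lib.Small

/-!
# S16: the upper bound `IE` from the Eisenstein series `A_p` and the five congruence claims
-/

set_option autoImplicit false
set_option linter.unusedSectionVars false
open ModularCurve CuspForm

namespace Fermat.Agent.S16Lib.Reduce

open Fermat.Agent.S16Lib.Iface Fermat.Agent.S16Lib

variable (p : ℕ) [Fact p.Prime]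

theorem coeff_ANser_zero (N : ℕ) : (ANser N).coeff 0 = 1 := by
  simp [ANser, sigPrimeSer, PowerSeries.coeff_mk]

theorem coeff_ANser (N : ℕ) {k : ℕ} (hk : 1 ≤ k) :
    (ANser N).coeff k = 24 / ((N : ℂ) - 1) * (sigPrime N k : ℂ) := by
  have hk0 : k ≠ 0 := by omega
  simp [ANser, sigPrimeSer, PowerSeries.coeff_mk, PowerSeries.coeff_one, hk0]

/-- a cusp form congruent to the Eisenstein series modulo `r ^ a` contradicts the claim
`Claim p r M` as soon as `M r^v ∣ 24 r^a`, where `p - 1 = r^v d` with `d` prime to `r` -/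
theorem apply_claim (r M d v e a : ℕ) (hd : Nat.Coprime d r) (hpd : p - 1 = r ^ v * d)
    (hM : M * r ^ v * e = 24 * r ^ a) (hC : Claim p r M) (hA : IEis p)
    (f : CuspForm (CongruenceSubgroup.Gamma0 p) 2)
    (hcong : ∀ k : ℕ, 1 ≤ k → ∃ m : ℤ,
      ModularFormClass.qCoeff f k = (sigPrime p k : ℂ) + ((r ^ a : ℕ) : ℂ) * (m : ℂ)) : False := by
  obtain ⟨A, hAq⟩ := hA
  have hp := (Fact.out : p.Prime)
  have hp2 := hp.two_le
  obtain ⟨c, hc⟩ : ∃ c : ℂ, c = 24 / ((p : ℂ) - 1) := ⟨_, rfl⟩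
  let F : ModularForm (CongruenceSubgroup.Gamma0 p) 2 := A - CuspForm.toModularFormₗ (c • f)
  have hF : (⇑F : UpperHalfPlane → ℂ) = ⇑A - ⇑(c • f) := rfl
  have hq : UpperHalfPlane.qExpansion 1 F
      = ANser p - c • UpperHalfPlane.qExpansion 1 f := by
    rw [hF, ModularFormClass.qExpansion_sub one_pos
      (CongruenceSubgroup.one_mem_strictPeriods_Gamma0 p) A (c • f), hAq]
    congr 1
    exact ModularFormClass.qExpansion_smul one_pos
      (CongruenceSubgroup.one_mem_strictPeriods_Gamma0 p) c f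
  have hpC : (p : ℂ) - 1 = (r : ℂ) ^ v * (d : ℂ) := by
    have h1 : ((p - 1 : ℕ) : ℂ) = (p : ℂ) - 1 := by
      rw [Nat.cast_sub (by omega), Nat.cast_one]
    rw [← h1, hpd]
    push_cast
    ring
  have hp1C : (p : ℂ) - 1 ≠ 0 := by
    have h1 : ((p - 1 : ℕ) : ℂ) = (p : ℂ) - 1 := by
      rw [Nat.cast_sub (by omega), Nat.cast_one]
    rw [← h1]
    exact Nat.cast_ne_zero.mpr (by omega)
  have hrv : (r : ℂ) ^ v ≠ 0 := fun h0 => hp1C (by rw [hpC, h0, zero_mul])
  have hdC : (d : ℂ) ≠ 0 := fun h0 => hp1C (by rw [hpC, h0, mul_zero])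
  have hMC : (M : ℂ) * (r : ℂ) ^ v * (e : ℂ) = 24 * (r : ℂ) ^ a := by exact_mod_cast hM
  have hdc : (d : ℂ) * c = 24 / (r : ℂ) ^ v := by
    rw [hc, hpC]
    field_simp
  have hMe : 24 * (r : ℂ) ^ a / (r : ℂ) ^ v = (M : ℂ) * (e : ℂ) := by
    rw [← hMC]
    field_simp
  refine hC F d hd ?_ ?_
  · have h0 : (UpperHalfPlane.qExpansion 1 f).coeff 0 = 0 :=
      Fermat.Agent.S49Lib.qCoeff_cusp_zero f
    rw [hq, map_sub, PowerSeries.coeff_smul, h0, coeff_ANser_zero, smul_zero, sub_zero]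
  · intro k hk
    obtain ⟨m, hm⟩ := hcong k hk
    have hm' : (UpperHalfPlane.qExpansion 1 f).coeff k
        = (sigPrime p k : ℂ) + ((r ^ a : ℕ) : ℂ) * (m : ℂ) := hm
    refine ⟨-((e : ℤ) * m), ?_⟩
    rw [hq, map_sub, PowerSeries.coeff_smul, hm', coeff_ANser p hk, ← hc, smul_eq_mul]
    calc (d : ℂ) * (c * (sigPrime p k : ℂ) - c * ((sigPrime p k : ℂ) + ((r ^ a : ℕ) : ℂ) * (m : ℂ)))
        = -(((d : ℂ) * c) * ((r : ℂ) ^ a * (m : ℂ))) := by push_cast; ring
      _ = -((24 * (r : ℂ) ^ a / (r : ℂ) ^ v) * (m : ℂ)) := by rw [hdc]; ring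
      _ = -((M : ℂ) * (e : ℂ) * (m : ℂ)) := by rw [hMe]
      _ = (M : ℂ) * ((-((e : ℤ) * m) : ℤ) : ℂ) := by push_cast; ring

theorem exists_e (r μ v w a K : ℕ) (h : μ + v ≤ w + a) (hK : r ^ w * K = 24) :
    ∃ e : ℕ, r ^ μ * r ^ v * e = 24 * r ^ a := by
  obtain ⟨c, hc⟩ := Nat.exists_eq_add_of_le h
  refine ⟨K * r ^ c, ?_⟩
  calc r ^ μ * r ^ v * (K * r ^ c) = K * r ^ (μ + v + c) := by ring
    _ = K * r ^ (w + a) := by rw [hc]
    _ = (r ^ w * K) * r ^ a := by ring
    _ = 24 * r ^ a := by rw [hK]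

theorem factorization_twelve_two : (12 : ℕ).factorization 2 = 2 := by
  have h1 := (Nat.prime_two.pow_dvd_iff_le_factorization (n := 12) (k := 2) (by norm_num)).mp
    (by norm_num)
  have h2 := mt (Nat.prime_two.pow_dvd_iff_le_factorization (n := 12) (k := 3) (by norm_num)).mpr
    (by norm_num)
  omega

theorem factorization_twelve_three : (12 : ℕ).factorization 3 = 1 := by
  have h1 := (Nat.prime_three.pow_dvd_iff_le_factorization (n := 12) (k := 1) (by norm_num)).mp
    (by norm_num)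
  have h2 := mt (Nat.prime_three.pow_dvd_iff_le_factorization (n := 12) (k := 2) (by norm_num)).mpr
    (by norm_num)
  omega

theorem factorization_twelve_of_five_le {r : ℕ} (hr : r.Prime) (h5 : 5 ≤ r) :
    (12 : ℕ).factorization r = 0 := by
  apply Nat.factorization_eq_zero_of_not_dvd
  intro hd
  have hle : r ≤ 12 := Nat.le_of_dvd (by norm_num) hd
  interval_cases r <;> first | omega | exact absurd hr (by norm_num)

/-- **the upper bound from the five claims** (`p ≥ 5`) -/
theorem iE_of_claims (hp5 : 5 ≤ p) (hA : IEis p)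
    (h5 : ∀ r : ℕ, r.Prime → 5 ≤ r → Claim p r r)
    (h3a : p % 3 = 1 → Claim p 3 3) (h3b : p % 3 = 2 → Claim p 3 9)
    (h2a : p % 4 = 1 → Claim p 2 4) (h2b : p % 4 = 3 → Claim p 2 8) : IE p := by
  intro r a hr f hcong
  by_contra hnd
  have hp := (Fact.out : p.Prime)
  have hp1 : p - 1 ≠ 0 := by omega
  obtain ⟨v, hv⟩ : ∃ v, v = (p - 1).factorization r := ⟨_, rfl⟩
  obtain ⟨d, hd⟩ : ∃ d, d = (p - 1) / r ^ v := ⟨_, rfl⟩
  have hpd : p - 1 = r ^ v * d := by
    rw [hd, hv]
    exact (Nat.ordProj_mul_ordCompl_eq_self (p - 1) r).symm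
  have hcop : Nat.Coprime d r := by
    rw [hd, hv]
    exact (Nat.coprime_ordCompl hr hp1).symm
  have hg0 : Nat.gcd (p - 1) 12 ≠ 0 := Nat.gcd_ne_zero_right (by norm_num)
  have hn0 : eisensteinNumerator p ≠ 0 := by
    unfold eisensteinNumerator
    exact (Nat.div_pos (Nat.le_of_dvd (by omega) (Nat.gcd_dvd_left _ _))
      (Nat.pos_of_ne_zero hg0)).ne'
  have hvn : (eisensteinNumerator p).factorization r = v - min v ((12 : ℕ).factorization r) := by
    unfold eisensteinNumerator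
    rw [Nat.factorization_div (Nat.gcd_dvd_left _ _), Finsupp.tsub_apply,
      Nat.factorization_gcd hp1 (by norm_num), Finsupp.inf_apply, hv]
  have hlt : v + 1 ≤ a + min v ((12 : ℕ).factorization r) := by
    rw [hr.pow_dvd_iff_le_factorization hn0, hvn] at hnd
    omega
  have hodd : p % 2 = 1 := by
    rcases hp.eq_two_or_odd with h | h
    · omega
    · exact h
  have hp3 : p % 3 ≠ 0 := by
    intro h
    have h3 : 3 ∣ p := Nat.dvd_of_mod_eq_zero h
    have := (Nat.prime_dvd_prime_iff_eq Nat.prime_three hp).mp h3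
    omega
  have hrcases : r = 2 ∨ r = 3 ∨ 5 ≤ r := by
    have h2 := hr.two_le
    by_contra hcon
    have h4 : r = 4 := by omega
    rw [h4] at hr
    exact absurd hr (by norm_num)
  rcases hrcases with h2 | h3 | hr5
  · -- r = 2
    subst h2
    rw [factorization_twelve_two] at hlt
    rcases (show p % 4 = 1 ∨ p % 4 = 3 by omega) with h4 | h4
    · have hv2 : 2 ≤ v := by
        rw [hv]
        refine (Nat.prime_two.pow_dvd_iff_le_factorization hp1).mp ?_
        rw [show (2 : ℕ) ^ 2 = 4 by norm_num]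
        omega
      obtain ⟨e, he⟩ := exists_e 2 2 v 3 a 3 (by omega) (by norm_num)
      have he' : 4 * 2 ^ v * e = 24 * 2 ^ a := by rw [← he]; norm_num
      exact apply_claim p 2 4 d v e a hcop hpd he' (h2a h4) hA f hcong
    · have hv1 : v = 1 := by
        have h1 : 1 ≤ v := by
          rw [hv]
          refine (Nat.prime_two.pow_dvd_iff_le_factorization hp1).mp ?_
          rw [pow_one]
          omega
        have h2 : ¬ 2 ≤ v := by
          rw [hv]
          refine mt (Nat.prime_two.pow_dvd_iff_le_factorization hp1).mpr ?_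
          rw [show (2 : ℕ) ^ 2 = 4 by norm_num]
          omega
        omega
      obtain ⟨e, he⟩ := exists_e 2 3 v 3 a 3 (by omega) (by norm_num)
      have he' : 8 * 2 ^ v * e = 24 * 2 ^ a := by rw [← he]; norm_num
      exact apply_claim p 2 8 d v e a hcop hpd he' (h2b h4) hA f hcong
  · -- r = 3
    subst h3
    rw [factorization_twelve_three] at hlt
    rcases (show p % 3 = 1 ∨ p % 3 = 2 by omega) with h3 | h3
    · have hv1 : 1 ≤ v := by
        rw [hv]
        refine (Nat.prime_three.pow_dvd_iff_le_factorization hp1).mp ?_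
        rw [pow_one]
        omega
      obtain ⟨e, he⟩ := exists_e 3 1 v 1 a 8 (by omega) (by norm_num)
      have he' : 3 * 3 ^ v * e = 24 * 3 ^ a := by rw [← he]; norm_num
      exact apply_claim p 3 3 d v e a hcop hpd he' (h3a h3) hA f hcong
    · have hv0 : v = 0 := by
        rw [hv]
        exact Nat.factorization_eq_zero_of_not_dvd (by omega)
      obtain ⟨e, he⟩ := exists_e 3 2 v 1 a 8 (by omega) (by norm_num)
      have he' : 9 * 3 ^ v * e = 24 * 3 ^ a := by rw [← he]; norm_num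
      exact apply_claim p 3 9 d v e a hcop hpd he' (h3b h3) hA f hcong
  · -- r ≥ 5
    rw [factorization_twelve_of_five_le hr hr5] at hlt
    obtain ⟨e, he⟩ := exists_e r 1 v 0 a 24 (by omega) (by norm_num)
    have he' : r * r ^ v * e = 24 * r ^ a := by rw [← he, pow_one]
    exact apply_claim p r r d v e a hcop hpd he' (h5 r hr hr5) hA f hcong

/-- the upper bound when there are no cusp forms -/
theorem iE_of_genus_zero (h : ModularCurve.genusFormula p = 0) : IE p := by
  intro r a hr f hcong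
  have hf : f = 0 := Small.cusp_eq_zero p h f
  obtain ⟨m, hm⟩ := hcong 1 le_rfl
  have h0 : ModularFormClass.qCoeff (⇑(0 : CuspForm (CongruenceSubgroup.Gamma0 p) 2)) 1 = 0 := by
    have h1 := Fermat.Agent.S49Lib.qCoeff_smul (0 : ℂ)
      (0 : CuspForm (CongruenceSubgroup.Gamma0 p) 2) 1
    rwa [zero_smul, zero_mul] at h1
  rw [hf, h0, SigmaRec.sigPrime_one p Fact.out] at hm
  have hz : (0 : ℤ) = ((1 : ℕ) : ℤ) + ((r ^ a : ℕ) : ℤ) * m := by exact_mod_cast hm
  have hdvd : ((r ^ a : ℕ) : ℤ) ∣ ((1 : ℕ) : ℤ) := ⟨-m, by linarith⟩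
  exact (Int.natCast_dvd_natCast.mp hdvd).trans (one_dvd _)

/-- **the upper bound**: from the Eisenstein series and the five claims for `p ≥ 7` -/
theorem iE (hA : 7 ≤ p → IEis p)
    (h5 : 7 ≤ p → ∀ r : ℕ, r.Prime → 5 ≤ r → Claim p r r)
    (h3a : 7 ≤ p → p % 3 = 1 → Claim p 3 3) (h3b : 7 ≤ p → p % 3 = 2 → Claim p 3 9)
    (h2a : 7 ≤ p → p % 4 = 1 → Claim p 2 4) (h2b : 7 ≤ p → p % 4 = 3 → Claim p 2 8) : IE p := by
  have hp := (Fact.out : p.Prime)
  rcases Nat.lt_or_ge p 7 with h | h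
  · have hcases : p = 2 ∨ p = 3 ∨ p = 5 := by
      have h2 := hp.two_le
      by_contra hcon
      have h46 : p = 4 ∨ p = 6 := by omega
      rcases h46 with h4 | h6
      · rw [h4] at hp; exact absurd hp (by norm_num)
      · rw [h6] at hp; exact absurd hp (by norm_num)
    apply iE_of_genus_zero
    rcases hcases with h2 | h3 | h5'
    · rw [h2]; exact Small.genusFormula_two
    · rw [h3]; exact Small.genusFormula_three
    · rw [h5']; exact Small.genusFormula_five
  · exact iE_of_claims p (by omega) (hA h) (h5 h) (h3a h) (h3b h) (h2a h) (h2b h)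

end Fermat.Agent.S16Lib.Reduce
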