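import Fermat.Agent.S16Lib.TraceQ

/-!
# S16 (A): the downstream half of the `W`-step

Given a form `Ft` of level `Γ₀(p)` and weight `2` with `Ft(z) = c · (F ∣ S)(p z)`, `c ≠ 0`,
the vanishing of the level one trace of `Ft` gives the expansion of `F ∣ S`:
`F ∣ S (τ) = -(1/p) ∑ a_{pn} e(n τ / p)`, and then `a_{p² n} = a_n`.
-/

set_option autoImplicit false
set_option linter.unusedSectionVars false

namespace Fermat.Agent.S16Lib.TraceDown

open UpperHalfPlane ModularForm ModularGroup CongruenceSubgroup Function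
open scoped MatrixGroups ModularForm Manifold
open Fermat.Agent.S16Lib.Trace

variable {p : ℕ} [Fact p.Prime]

/-- transport a `HasSum` along a pointwise equality of the summands -/
theorem hasSum_congr_fun {f g : ℕ → ℂ} {v : ℂ} (h : HasSum f v) (hfg : ∀ n, g n = f n) :
    HasSum g v := by
  have : g = f := funext hfg
  rw [this]
  exact h

/-- the point `z / p` -/
noncomputable def divp (p : ℕ) [Fact p.Prime] (z : ℍ) : ℍ :=
  ⟨(z : ℂ) / p, by
    have hp : (0 : ℝ) < p := Nat.cast_pos.mpr (Fact.out : p.Prime).pos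
    have : ((z : ℂ) / (p : ℂ)).im = z.im / p := by
      rw [show ((p : ℂ)) = ((p : ℝ) : ℂ) by norm_cast, Complex.div_ofReal_im]
      rfl
    rw [this]
    exact div_pos z.im_pos hp⟩

theorem coe_divp (z : ℍ) : ((divp p z : ℍ) : ℂ) = (z : ℂ) / p := rfl

theorem qParam_divp (z : ℍ) : Periodic.qParam (1 : ℝ) (divp p z) = Periodic.qParam (p : ℝ) z := by
  rw [coe_divp]
  simp only [Periodic.qParam]
  congr 1
  push_cast
  ring

theorem S_slash (f : ℍ → ℂ) (z : ℍ) :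
    (f ∣[(2 : ℤ)] S) z = f (S • z) * (z : ℂ) ^ (-(2 : ℤ)) := by
  rw [SL_slash_apply, ModularGroup.denom_S]

theorem coe_S_smul (z : ℍ) : ((S • z : ℍ) : ℂ) = (-(z : ℂ))⁻¹ := by
  rw [modular_S_smul]

section
variable (F Ft : ModularForm (Gamma0 p) 2) (c : ℂ)
  (hFt : ∀ z w : ℍ, (w : ℂ) = (p : ℂ) * (z : ℂ) → Ft z = c * (⇑F ∣[(2 : ℤ)] S) w)

include hFt in
/-- `Ft ∣ S (v) = (c / p²) F(v / p)` -/
theorem Ft_slash_S (v : ℍ) :
    (⇑Ft ∣[(2 : ℤ)] S) v = c / (p : ℂ) ^ 2 * F (divp p v) := by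
  have hp0 : (p : ℂ) ≠ 0 := Nat.cast_ne_zero.mpr (Fact.out : p.Prime).ne_zero
  have hv0 : (v : ℂ) ≠ 0 := ne_zero v
  set w : ℍ := S • divp p v with hw
  have hwc : (w : ℂ) = (p : ℂ) * ((S • v : ℍ) : ℂ) := by
    rw [hw, coe_S_smul, coe_S_smul, coe_divp]
    field_simp
  have hSw : S • w = divp p v := by
    ext
    rw [coe_S_smul, hw, coe_S_smul]
    simp
  rw [S_slash, hFt (S • v) w hwc, S_slash, hSw, hwc, coe_S_smul]
  simp only [zpow_neg, zpow_ofNat]
  field_simp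

include hFt in
/-- the vanishing of the trace of `Ft` -/
theorem Ft_eq_neg_sum (u : ℍ) :
    Ft u = -(c / (p : ℂ) ^ 2) * ∑ j ∈ Finset.range p, F (divp p ((j : ℝ) +ᵥ u)) := by
  have h0 : traceFun Ft u = 0 := by
    rw [traceFun_two]
    rfl
  have h3 : traceFun Ft u = Ft u + ∑ j ∈ Finset.range p, psi Ft 0 ((j : ℝ) +ᵥ u) := by
    unfold traceFun
    rw [Pi.add_apply, Finset.sum_apply, ← sum_zmod_val (fun j => psi Ft 0 ((j : ℝ) +ᵥ u))]
    congr 1
    exact Finset.sum_congr rfl (fun x _ => psi_apply Ft x u)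
  rw [h3] at h0
  have h4 : ∀ j ∈ Finset.range p,
      psi Ft 0 ((j : ℝ) +ᵥ u) = c / (p : ℂ) ^ 2 * F (divp p ((j : ℝ) +ᵥ u)) := by
    intro j _
    rw [psi_zero]
    exact Ft_slash_S F Ft c hFt _
  rw [Finset.sum_congr rfl h4, ← Finset.mul_sum] at h0
  linear_combination h0

end

/-- the roots of unity filter on expansions in `e(τ / p)` -/
theorem hasSum_filter (a : ℕ → ℂ) (φ : ℍ → ℂ)
    (hφ : ∀ τ : ℍ, HasSum (fun m : ℕ => a m • Periodic.qParam (p : ℝ) τ ^ m) (φ τ)) (τ : ℍ) :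
    HasSum (fun n : ℕ => ((p : ℂ) * a (p * n)) • Periodic.qParam (1 : ℝ) τ ^ n)
      (∑ j ∈ Finset.range p, φ ((j : ℝ) +ᵥ τ)) := by
  have hpp : 0 < p := (Fact.out : p.Prime).pos
  have h1 : ∀ j : ℕ, HasSum (fun m : ℕ => a m •
      (Periodic.qParam (p : ℝ) τ ^ m * Complex.exp (2 * Real.pi * Complex.I / p) ^ (j * m)))
      (φ ((j : ℝ) +ᵥ τ)) := by
    intro j
    have := hφ ((j : ℝ) +ᵥ τ)
    rw [qParam_vadd] at this
    simp_rw [mul_pow, ← pow_mul] at this
    exact this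
  have h2 := hasSum_sum (fun j (_ : j ∈ Finset.range p) => h1 j)
  have h3 : ∀ m, ∑ j ∈ Finset.range p, a m •
      (Periodic.qParam (p : ℝ) τ ^ m * Complex.exp (2 * Real.pi * Complex.I / p) ^ (j * m)) =
      if p ∣ m then ((p : ℂ) * a m) • Periodic.qParam (p : ℝ) τ ^ m
      else 0 := by
    intro m
    simp_rw [smul_eq_mul, ← mul_assoc]
    rw [← Finset.mul_sum, sum_root]
    split_ifs <;> ring
  simp_rw [h3] at h2
  have hinj : Function.Injective (fun n : ℕ => p * n) :=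
    fun a b h => Nat.eq_of_mul_eq_mul_left hpp h
  have h4 := (hinj.hasSum_iff (f := fun m => if p ∣ m then
      ((p : ℂ) * a m) • Periodic.qParam (p : ℝ) τ ^ m else 0) (by
    intro m hm
    simp only [Set.mem_range, not_exists] at hm
    rw [if_neg]; rintro ⟨c, rfl⟩; exact hm c rfl)).mpr h2
  convert h4 using 1
  funext n
  simp only [Function.comp, dvd_mul_right, if_true]
  rw [qParam_pow]

section
variable (F Ft : ModularForm (Gamma0 p) 2) (c : ℂ)
  (hFt : ∀ z w : ℍ, (w : ℂ) = (p : ℂ) * (z : ℂ) → Ft z = c * (⇑F ∣[(2 : ℤ)] S) w)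

include hFt in
/-- the `q`-expansion of `Ft` is `-(c/p) U_p F` -/
theorem hasSum_Ft (u : ℍ) :
    HasSum (fun n : ℕ => (-(c / (p : ℂ)) * (qExpansion 1 F).coeff (p * n))
      * Periodic.qParam (1 : ℝ) u ^ n) (Ft u) := by
  have hp0 : (p : ℂ) ≠ 0 := Nat.cast_ne_zero.mpr (Fact.out : p.Prime).ne_zero
  have hφ : ∀ τ : ℍ, HasSum (fun m : ℕ => (qExpansion 1 F).coeff m • Periodic.qParam (p : ℝ) τ ^ m)
      ((fun v : ℍ => F (divp p v)) τ) := by
    intro τ
    have := hasSum_F F (divp p τ)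
    rw [qParam_divp] at this
    exact this
  have h := hasSum_filter (fun m => (qExpansion 1 F).coeff m) (fun v : ℍ => F (divp p v)) hφ u
  have h' := h.mul_left (-(c / (p : ℂ) ^ 2))
  rw [Ft_eq_neg_sum F Ft c hFt u]
  refine hasSum_congr_fun h' ?_
  intro n
  simp only [smul_eq_mul]
  field_simp

include hFt in
/-- **(A2)**: `F ∣ S (τ) = -(1/p) ∑ a_{pn} e(n τ / p)` -/
theorem hasSum_slash_S_of (hc : c ≠ 0) (τ : ℍ) :
    HasSum (fun n : ℕ => (-(1 / p : ℂ)) * (qExpansion 1 F).coeff (p * n)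
      * Periodic.qParam (p : ℝ) τ ^ n) ((⇑F ∣[(2 : ℤ)] S) τ) := by
  have hp0 : (p : ℂ) ≠ 0 := Nat.cast_ne_zero.mpr (Fact.out : p.Prime).ne_zero
  have h := hasSum_Ft F Ft c hFt (divp p τ)
  rw [qParam_divp] at h
  have hτ : (τ : ℂ) = (p : ℂ) * ((divp p τ : ℍ) : ℂ) := by
    rw [coe_divp]
    field_simp
  have e : (⇑F ∣[(2 : ℤ)] S) τ = c⁻¹ * Ft (divp p τ) := by
    rw [hFt (divp p τ) τ hτ]
    field_simp
  rw [e]
  refine hasSum_congr_fun (h.mul_left c⁻¹) ?_
  intro n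
  field_simp

end

/-- a bare function `ℍ → ℂ`, bundled (to apply lemmas stated for `FunLike` types) -/
structure FnWrap where
  /-- the function -/
  toFun : ℍ → ℂ

instance : FunLike FnWrap ℍ ℂ where
  coe := FnWrap.toFun
  coe_injective := fun a b h => by
    cases a
    cases b
    congr

/-- uniqueness of the `q`-expansion for a bare function -/
theorem coeff_unique {h : ℝ} (f : ℍ → ℂ) {c : ℕ → ℂ} (hh : 0 < h)
    (hfanalytic : AnalyticAt ℂ (cuspFunction h f) 0)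
    (hf : ∀ τ : ℍ, HasSum (fun m => c m • Periodic.qParam h τ ^ m) (f τ)) (m : ℕ) :
    c m = (qExpansion h f).coeff m :=
  UpperHalfPlane.qExpansion_coeff_unique (⟨f⟩ : FnWrap) hh hfanalytic hf m

section
variable (F Ft : ModularForm (Gamma0 p) 2) (c : ℂ)
  (hFt : ∀ z w : ℍ, (w : ℂ) = (p : ℂ) * (z : ℂ) → Ft z = c * (⇑F ∣[(2 : ℤ)] S) w)

include hFt in
/-- **(A1)**, coefficientwise -/
theorem coeff_slash_S_of (hc : c ≠ 0) (n : ℕ) :
    (qExpansion (p : ℝ) (⇑F ∣[(2 : ℤ)] S)).coeff n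
      = -(1 / p : ℂ) * (qExpansion 1 F).coeff (p * n) := by
  have hpR : (0 : ℝ) < p := Nat.cast_pos.mpr (Fact.out : p.Prime).pos
  have hf : ∀ τ : ℍ, HasSum (fun m : ℕ => (-(1 / p : ℂ) * (qExpansion 1 F).coeff (p * m))
      • Periodic.qParam (p : ℝ) τ ^ m) (psi F 0 τ) := by
    intro τ
    rw [psi_zero]
    simpa only [smul_eq_mul] using hasSum_slash_S_of F Ft c hFt hc τ
  have := coeff_unique (psi F 0) hpR (psi_analytic F) hf n
  rw [← psi_zero, ← this]

include hFt in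
/-- **(A3)**, coefficientwise: `U_p U_p F = F` -/
theorem coeff_U_U_of (hc : c ≠ 0) (n : ℕ) :
    (qExpansion 1 F).coeff (p * (p * n)) = (qExpansion 1 F).coeff n := by
  have hp0 : (p : ℂ) ≠ 0 := Nat.cast_ne_zero.mpr (Fact.out : p.Prime).ne_zero
  have h1 := coeff_add_eq_zero F n
  rw [psi_zero, coeff_slash_S_of F Ft c hFt hc (p * n)] at h1
  have h2 : (qExpansion 1 F).coeff n - (qExpansion 1 F).coeff (p * (p * n)) = 0 := by
    rw [← h1]
    field_simp
    ring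
  linear_combination -h2

end

end Fermat.Agent.S16Lib.TraceDown
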