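import Fermat.Agent.S16Lib.TraceFt
import Fermat.Agent.S16Lib.TraceDown
import Fermat.Agent.S16Lib.ClaimsTRA1
import Fermat.Agent.S16Lib.NormClaims
import Fermat.Agent.S16Lib.Reduce
import Fermat.Agent.S16Lib.Assembly
import Fermat.Agent.S16Lib.LowerBoundFinal

/-!
# S16Lib.Wire — final wiring of the pieces of S16

`(A1)`, `(A2)` from the form `Ft` (the `W_p`-transform), the five claims by case distinction
between the trace cases and the norm cases, the upper bound `IE`, the lower bound `IG`, and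
the final statement.
-/

set_option autoImplicit false

namespace Fermat.Agent.S16Lib.Wire

open UpperHalfPlane CongruenceSubgroup PowerSeries
open scoped MatrixGroups ModularForm

variable (p : ℕ) [Fact p.Prime]

/-- (A2) -/
theorem hypFS : NormClaims.HypFS p := fun F τ => by
  obtain ⟨Ft, c, hc, hFt⟩ := TraceFt.exists_Ft F
  exact TraceDown.hasSum_slash_S_of F Ft c hFt hc τ

/-- (A1) -/
theorem hypA1 : ClaimsTRA1.HypA1 p := fun F => by
  obtain ⟨Ft, c, hc, hFt⟩ := TraceFt.exists_Ft F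
  ext n
  rw [TraceDown.coeff_slash_S_of F Ft c hFt hc n]
  simp [Uop]

/-- **C5** -/
theorem claim5 (hp7 : 7 ≤ p) (r : ℕ) (hr : r.Prime) (hr5 : 5 ≤ r) : Iface.Claim p r r := by
  intro F d hd h0 hF
  by_cases hpr : p % r = r - 1
  · have hdvd : r ∣ p + 1 := by
      apply Nat.dvd_of_mod_eq_zero
      rw [Nat.add_mod, hpr, Nat.mod_eq_of_lt (show 1 < r by omega),
        show r - 1 + 1 = r by omega, Nat.mod_self]
    exact NormClaims.n5 (hypFS p) hr hr5 hdvd F d hd h0 hF
  · exact ClaimsTRA1.c5 (hypA1 p) hr hr5 hpr (fun _ => by omega) F d hd h0 hF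

/-- **C3a** -/
theorem claim3a (h : p % 3 = 1) : Iface.Claim p 3 3 := fun F d hd h0 hF =>
  ClaimsTRA1.c3a (hypA1 p) h F d hd h0 hF

/-- **C3b** -/
theorem claim3b (h : p % 3 = 2) : Iface.Claim p 3 9 := by
  intro F d hd h0 hF
  have h9 : p % 9 = 2 ∨ p % 9 = 5 ∨ p % 9 = 8 := by omega
  rcases h9 with h9 | h9 | h9
  · exact ClaimsTRA1.c3b (hypA1 p) (Or.inl h9) F d hd h0 hF
  · exact ClaimsTRA1.c3b (hypA1 p) (Or.inr h9) F d hd h0 hF
  · exact NormClaims.n3b (hypFS p) h9 F d hd h0 hF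

/-- **C2a** -/
theorem claim2a (h : p % 4 = 1) : Iface.Claim p 2 4 := fun F d hd h0 hF =>
  ClaimsTRA1.c2a (hypA1 p) h F d hd h0 hF

/-- **C2b** -/
theorem claim2b (h : p % 4 = 3) : Iface.Claim p 2 8 := by
  intro F d hd h0 hF
  have h8 : p % 8 = 3 ∨ p % 8 = 7 := by omega
  rcases h8 with h8 | h8
  · exact ClaimsTRA1.c2b (hypA1 p) h8 F d hd h0 hF
  · exact NormClaims.n2b (hypFS p) h8 F d hd h0 hF

/-- the upper bound -/
theorem iE : Iface.IE p :=
  Reduce.iE p (fun _ => EisLevel.exists_AN p Fact.out)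
    (fun h7 r hr hr5 => claim5 p h7 r hr hr5)
    (fun _ h => claim3a p h) (fun _ h => claim3b p h)
    (fun _ h => claim2a p h) (fun _ h => claim2b p h)

/-- the index of the Eisenstein ideal -/
theorem main : Nat.card (Iface.TT p ⧸ Iface.JJ p) = ModularCurve.eisensteinNumerator p :=
  Assembly.result_of p (LowerBoundFinal.iG p) (iE p)

end Fermat.Agent.S16Lib.Wire
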