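import Mathlib

/-!
# S16 arithmetic, part 0: congruences modulo `r` in a subring `O ⊆ ℂ`, leading-term calculus
for power series (helper file, pure `PowerSeries ℂ` number theory).
-/

set_option autoImplicit false

namespace Fermat.Agent.S16Lib.Arith

open PowerSeries

/-- `x ∈ r • O`. -/
def InR (O : Subring ℂ) (r : ℕ) (x : ℂ) : Prop := ∃ y ∈ O, x = (r : ℂ) * y

variable {O : Subring ℂ} {r : ℕ}

theorem InR.zero : InR O r 0 := ⟨0, O.zero_mem, by simp⟩

theorem InR.add {x y : ℂ} (hx : InR O r x) (hy : InR O r y) : InR O r (x + y) := by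
  obtain ⟨a, ha, rfl⟩ := hx
  obtain ⟨b, hb, rfl⟩ := hy
  exact ⟨a + b, O.add_mem ha hb, by ring⟩

theorem InR.neg {x : ℂ} (hx : InR O r x) : InR O r (-x) := by
  obtain ⟨a, ha, rfl⟩ := hx
  exact ⟨-a, O.neg_mem ha, by ring⟩

theorem InR.sub {x y : ℂ} (hx : InR O r x) (hy : InR O r y) : InR O r (x - y) := by
  obtain ⟨a, ha, rfl⟩ := hx
  obtain ⟨b, hb, rfl⟩ := hy
  exact ⟨a - b, O.sub_mem ha hb, by ring⟩

theorem InR.mul_left {a x : ℂ} (ha : a ∈ O) (hx : InR O r x) : InR O r (a * x) := by
  obtain ⟨b, hb, rfl⟩ := hx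
  exact ⟨a * b, O.mul_mem ha hb, by ring⟩

theorem InR.mul_right {a x : ℂ} (hx : InR O r x) (ha : a ∈ O) : InR O r (x * a) := by
  obtain ⟨b, hb, rfl⟩ := hx
  exact ⟨b * a, O.mul_mem hb ha, by ring⟩

theorem InR.mem {x : ℂ} (hx : InR O r x) : x ∈ O := by
  obtain ⟨b, hb, rfl⟩ := hx
  exact O.mul_mem (natCast_mem O r) hb

theorem InR.of_mul {y : ℂ} (hy : y ∈ O) : InR O r ((r : ℂ) * y) := ⟨y, hy, rfl⟩

theorem InR.sum {ι : Type*} (s : Finset ι) (f : ι → ℂ) (h : ∀ i ∈ s, InR O r (f i)) :
    InR O r (∑ i ∈ s, f i) := by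
  classical
  induction s using Finset.induction_on with
  | empty => simpa using InR.zero
  | insert a s ha ih =>
    rw [Finset.sum_insert ha]
    exact (h a (Finset.mem_insert_self a s)).add
      (ih fun i hi => h i (Finset.mem_insert_of_mem hi))

theorem InR.congr {x y : ℂ} (hx : InR O r x) (h : y = x) : InR O r y := h ▸ hx

/-- cancel an integer factor prime to `r`. -/
theorem InR.cancel {N : ℤ} (hN : IsCoprime N (r : ℤ)) {x : ℂ} (hx : x ∈ O)
    (h : InR O r ((N : ℂ) * x)) : InR O r x := by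
  obtain ⟨a, b, hab⟩ := hN
  obtain ⟨y, hy, hy'⟩ := h
  have hab' : (a : ℂ) * N + b * r = 1 := by exact_mod_cast congrArg (Int.cast : ℤ → ℂ) hab
  refine ⟨a * y + b * x, O.add_mem (O.mul_mem (intCast_mem O a) hy)
    (O.mul_mem (intCast_mem O b) hx), ?_⟩
  linear_combination (-x) * hab' + (a : ℂ) * hy'

/-- `r` is not a unit in `O`, so integers prime to `r` are not in `r • O`. -/
theorem not_inR_int (hr : ∀ x ∈ O, (r : ℂ) * x ≠ 1) {N : ℤ} (hN : IsCoprime N (r : ℤ)) :
    ¬ InR O r (N : ℂ) := by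
  intro h
  have h1 : InR O r ((N : ℂ) * 1) := by simpa using h
  obtain ⟨y, hy, hy'⟩ := InR.cancel hN O.one_mem h1
  exact hr y hy hy'.symm

/-- `Q` has coefficients in `O`, vanishes mod `r` below degree `d`, and its `d`-th coefficient
is `≡ c` mod `r`. -/
structure LeadMod (O : Subring ℂ) (r : ℕ) (d : ℕ) (c : ℂ) (Q : PowerSeries ℂ) : Prop where
  mem : ∀ k, coeff k Q ∈ O
  low : ∀ k, k < d → InR O r (coeff k Q)
  lead : InR O r (coeff d Q - c)

theorem LeadMod.one : LeadMod O r 0 1 (1 : PowerSeries ℂ) where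
  mem k := by
    rw [coeff_one]
    split_ifs
    · exact O.one_mem
    · exact O.zero_mem
  low k hk := absurd hk (Nat.not_lt_zero k)
  lead := by simpa using InR.zero

theorem LeadMod.mul {d d' : ℕ} {c c' : ℂ} {A B : PowerSeries ℂ} (hc : c ∈ O)
    (hA : LeadMod O r d c A) (hB : LeadMod O r d' c' B) :
    LeadMod O r (d + d') (c * c') (A * B) where
  mem k := by
    rw [coeff_mul]
    exact O.sum_mem fun x _ => O.mul_mem (hA.mem _) (hB.mem _)
  low k hk := by
    rw [coeff_mul]
    refine InR.sum _ _ fun x hx => ?_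
    have hx' : x.1 + x.2 = k := Finset.HasAntidiagonal.mem_antidiagonal.mp hx
    by_cases h1 : x.1 < d
    · exact (hA.low _ h1).mul_right (hB.mem _)
    · have h2 : x.2 < d' := by omega
      exact (hB.low _ h2).mul_left (hA.mem _)
  lead := by
    rw [coeff_mul]
    have hmem : (d, d') ∈ Finset.HasAntidiagonal.antidiagonal (d + d') := Finset.HasAntidiagonal.mem_antidiagonal.mpr rfl
    rw [← Finset.add_sum_erase _ _ hmem]
    have h1 : InR O r (coeff d A * coeff d' B - c * c') := by
      have e : coeff d A * coeff d' B - c * c' =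
          (coeff d A - c) * coeff d' B + c * (coeff d' B - c') := by ring
      rw [e]
      exact (hA.lead.mul_right (hB.mem _)).add (hB.lead.mul_left hc)
    have h2 : InR O r (∑ x ∈ (Finset.HasAntidiagonal.antidiagonal (d + d')).erase (d, d'),
        coeff x.1 A * coeff x.2 B) := by
      refine InR.sum _ _ fun x hx => ?_
      obtain ⟨hne, hx⟩ := Finset.mem_erase.mp hx
      have hx' : x.1 + x.2 = d + d' := Finset.HasAntidiagonal.mem_antidiagonal.mp hx
      by_cases h1 : x.1 < d
      · exact (hA.low _ h1).mul_right (hB.mem _)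
      · have h2 : x.2 < d' := by
          by_contra h2
          apply hne
          ext <;> simp <;> omega
        exact (hB.low _ h2).mul_left (hA.mem _)
    have e : coeff d A * coeff d' B + ∑ x ∈ (Finset.HasAntidiagonal.antidiagonal (d + d')).erase (d, d'),
        coeff x.1 A * coeff x.2 B - c * c' =
        (coeff d A * coeff d' B - c * c') + ∑ x ∈ (Finset.HasAntidiagonal.antidiagonal (d + d')).erase (d, d'),
        coeff x.1 A * coeff x.2 B := by ring
    rw [e]
    exact h1.add h2

theorem LeadMod.prod {ι : Type*} (s : Finset ι) (Q : ι → PowerSeries ℂ) {d : ℕ} {c : ℂ}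
    (hc : c ∈ O) (h : ∀ i ∈ s, LeadMod O r d c (Q i)) :
    LeadMod O r (s.card * d) (c ^ s.card) (∏ i ∈ s, Q i) := by
  classical
  induction s using Finset.induction_on with
  | empty => simpa using (LeadMod.one : LeadMod O r 0 1 (1 : PowerSeries ℂ))
  | insert a s ha ih =>
    rw [Finset.prod_insert ha, Finset.card_insert_of_notMem ha]
    have h1 := (h a (Finset.mem_insert_self a s)).mul hc
      (ih fun i hi => h i (Finset.mem_insert_of_mem hi))
    have e1 : d + s.card * d = (s.card + 1) * d := by ring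
    have e2 : c * c ^ s.card = c ^ (s.card + 1) := by ring
    rw [e1, e2] at h1
    exact h1

/-- **Norm principle.** If `nq = ∑_{j ≤ J} c_j m_j` with `m_j = q^j + …` having coefficients in
`O`, `J ≤ p`, and the `p`-dilated coefficients of `nq` are those of a product of `p + 1` series
each `≡ c0 w^p + …` mod `r`, then `c0 ^ (p+1) ∈ r • O`. -/
theorem norm_principle {p J : ℕ} (hp : 0 < p) (hJ : J ≤ p) (nq : PowerSeries ℂ)
    (hD : ∃ (m : ℕ → PowerSeries ℂ) (c : ℕ → ℂ),
      (∀ j, j ≤ J → (∀ i, coeff i (m j) ∈ O) ∧ coeff j (m j) = 1 ∧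
        ∀ i, i < j → coeff i (m j) = 0) ∧
      nq = ∑ j ∈ Finset.range (J + 1), C (c j) * m j)
    {c0 : ℂ} (hc0 : c0 ∈ O)
    (Q : Fin (p + 1) → PowerSeries ℂ) (hQ : ∀ i, LeadMod O r p c0 (Q i))
    (hN : ∀ k, coeff k nq = coeff (p * k) (∏ i, Q i)) :
    InR O r (c0 ^ (p + 1)) := by
  obtain ⟨m, c, hm, hnq⟩ := hD
  have hL := LeadMod.prod (O := O) (r := r) Finset.univ Q hc0 (fun i _ => hQ i)
  rw [Finset.card_univ, Fintype.card_fin] at hL
  have hcoeff : ∀ k, coeff k nq = ∑ j ∈ Finset.range (J + 1), c j * coeff k (m j) := by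
    intro k
    rw [hnq, map_sum]
    exact Finset.sum_congr rfl fun j _ => coeff_C_mul _ _ _
  -- low coefficients of nq are ≡ 0
  have hlow : ∀ k, k ≤ p → InR O r (coeff k nq) := by
    intro k hk
    rw [hN k]
    exact hL.low _ (by nlinarith)
  -- triangular induction
  have hc : ∀ j, j ≤ J → InR O r (c j) := by
    intro j
    induction j using Nat.strong_induction_on with
    | _ j ih =>
      intro hj
      have h1 := hcoeff j
      have hmem : j ∈ Finset.range (J + 1) := Finset.mem_range.mpr (by omega)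
      rw [← Finset.add_sum_erase _ _ hmem, (hm j hj).2.1, mul_one] at h1
      have h2 : InR O r (∑ i ∈ (Finset.range (J + 1)).erase j, c i * coeff j (m i)) := by
        refine InR.sum _ _ fun i hi => ?_
        obtain ⟨hne, hi⟩ := Finset.mem_erase.mp hi
        have hiJ : i ≤ J := by have := Finset.mem_range.mp hi; omega
        rcases lt_or_gt_of_ne hne with hlt | hgt
        · exact (ih i hlt hiJ).mul_right ((hm i hiJ).1 j)
        · rw [(hm i hiJ).2.2 j hgt, mul_zero]
          exact InR.zero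
      have e : c j = coeff j nq - ∑ i ∈ (Finset.range (J + 1)).erase j, c i * coeff j (m i) := by
        rw [h1]; ring
      rw [e]
      exact (hlow j (le_trans hj hJ)).sub h2
  have htop : InR O r (coeff (p + 1) nq) := by
    rw [hcoeff]
    refine InR.sum _ _ fun i hi => ?_
    have hiJ : i ≤ J := by have := Finset.mem_range.mp hi; omega
    exact (hc i hiJ).mul_right ((hm i hiJ).1 _)
  have hlead := hL.lead
  have e : (p + 1) * p = p * (p + 1) := by ring
  rw [e, ← hN (p + 1)] at hlead
  have e2 : c0 ^ (p + 1) = coeff (p + 1) nq - (coeff (p + 1) nq - c0 ^ (p + 1)) := by ring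
  rw [e2]
  exact htop.sub hlead

end Fermat.Agent.S16Lib.Arith
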