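import Fermat.Agent.S16Lib.ArithTwo

/-!
# S16 arithmetic, part 3: the TR4 cases of the claims C5, C3a, C3b, C2a, C2b for
`r`-integral rational coefficients (`RInt r`), in the shape of the S16 interface.
-/

set_option autoImplicit false

namespace Fermat.Agent.S16Lib.Arith

open PowerSeries

/-- The subring `ℤ_(r) ⊆ ℂ` of `r`-integral rationals. -/
def RIntRing (r : ℕ) (hr : r.Prime) : Subring ℂ where
  carrier := {x | RInt r x}
  mul_mem' := by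
    rintro x y ⟨a, b, hb, hrb, hx⟩ ⟨a', b', hb', hrb', hy⟩
    refine ⟨a * a', b * b', Nat.mul_ne_zero hb hb', ?_, ?_⟩
    · intro hd
      rcases (Nat.Prime.dvd_mul hr).mp hd with h | h
      · exact hrb h
      · exact hrb' h
    · push_cast
      linear_combination (b' : ℂ) * y * hx + (a : ℂ) * hy
  one_mem' := ⟨1, 1, one_ne_zero, hr.not_dvd_one, by simp⟩
  add_mem' := by
    rintro x y ⟨a, b, hb, hrb, hx⟩ ⟨a', b', hb', hrb', hy⟩
    refine ⟨a * b' + a' * b, b * b', Nat.mul_ne_zero hb hb', ?_, ?_⟩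
    · intro hd
      rcases (Nat.Prime.dvd_mul hr).mp hd with h | h
      · exact hrb h
      · exact hrb' h
    · push_cast
      linear_combination (b' : ℂ) * hx + (b : ℂ) * hy
  zero_mem' := ⟨0, 1, one_ne_zero, hr.not_dvd_one, by simp⟩
  neg_mem' := by
    rintro x ⟨a, b, hb, hrb, hx⟩
    exact ⟨-a, b, hb, hrb, by push_cast; linear_combination -hx⟩

theorem mem_RIntRing {r : ℕ} (hr : r.Prime) (x : ℂ) : x ∈ RIntRing r hr ↔ RInt r x := Iff.rfl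

theorem RIntRing_nonunit {r : ℕ} (hr : r.Prime) : ∀ x ∈ RIntRing r hr, (r : ℂ) * x ≠ 1 := by
  rintro x ⟨a, b, hb, hrb, hx⟩ h1
  apply hrb
  have h2 : ((b : ℤ) : ℂ) = (((r : ℤ) * a : ℤ) : ℂ) := by
    push_cast
    linear_combination (-(b : ℂ)) * h1 + (r : ℂ) * hx
  have h3 : (b : ℤ) = (r : ℤ) * a := by exact_mod_cast h2
  exact Int.natCast_dvd_natCast.mp ⟨a, h3⟩

/-- The hypotheses (A)+(B) on `f = qexp F` in series form (lead's `(I-TR)(a),(b)`; `trg` is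
`(b)` applied to `G = U_p F`). -/
structure TRHyp (p : ℕ) (f : PowerSeries ℂ) : Prop where
  UU : Uop p (Uop p f) = f
  trf : (p : ℂ) • f ^ 2 + Uop p ((Uop p f) ^ 2) = (((p : ℂ) + 1) * (coeff 0 f) ^ 2) • E4ser
  trg : (p : ℂ) • (Uop p f) ^ 2 + Uop p ((Uop p (Uop p f)) ^ 2) =
    (((p : ℂ) + 1) * (coeff 0 (Uop p f)) ^ 2) • E4ser

theorem TRHyp.data {p : ℕ} {f : PowerSeries ℂ} (T : TRHyp p f) (h0 : coeff 0 f = 1) :
    TRData p f (Uop p f) :=
  TRData.of_series f h0 T.UU T.trf T.trg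

theorem isCoprime_of_prime_not_dvd {r : ℕ} (hr : r.Prime) {N : ℤ} (h : ¬ (r : ℤ) ∣ N) :
    IsCoprime N (r : ℤ) :=
  (Int.isCoprime_iff_gcd_eq_one.mpr (by
    have hp : Prime (r : ℤ) := Nat.prime_iff_prime_int.mp hr
    rw [Int.gcd_comm]
    exact Int.isCoprime_iff_gcd_eq_one.mp ((Prime.coprime_iff_not_dvd hp).mpr h)))

/-- **C5, TR4 case**: `r ≥ 5` prime, `p ≢ -1 mod r` (and `p ≠ 5` if `r = 5`). -/
theorem c5_core {p r : ℕ} (hp : p.Prime) (hr : r.Prime) (hr5 : 5 ≤ r) (hpr : p % r ≠ r - 1)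
    (hp5 : r = 5 → p ≠ 5) {f g : PowerSeries ℂ} (T : TRData p f g)
    (hf : ∀ n, 1 ≤ n → ∃ x, RInt r x ∧ coeff n f = (r : ℂ) * x) : False := by
  have hr0 : (r : ℂ) ≠ 0 := Nat.cast_ne_zero.mpr hr.ne_zero
  obtain ⟨φ, γ, hNF, -⟩ := exists_NF (O := RIntRing r hr) hp.pos hr0 T hf
  have hnu := RIntRing_nonunit hr
  -- `r ∤ p + 1`
  have hp1 : ¬ (r : ℤ) ∣ (p : ℤ) + 1 := by
    intro hd
    have hd' : r ∣ p + 1 := by exact_mod_cast hd
    apply hpr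
    have h1 : (p + 1) % r = 0 := Nat.mod_eq_zero_of_dvd hd'
    have h2 := Nat.mod_add_div p r
    have h3 := Nat.mod_lt p hr.pos
    rcases Nat.lt_or_ge (p % r + 1) r with hlt | hge
    · have : (p + 1) % r = p % r + 1 := by
        rw [Nat.add_mod, Nat.mod_eq_of_lt (by omega : 1 < r)]
        exact Nat.mod_eq_of_lt hlt
      omega
    · omega
  have hrp : Prime (r : ℤ) := Nat.prime_iff_prime_int.mp hr
  rcases Nat.lt_or_ge r 7 with hlt | hge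
  · -- r = 5
    have hr5' : r = 5 := by
      interval_cases r
      · rfl
      · exact absurd hr (by decide)
    subst hr5'
    have hp5' : p ≠ 5 := hp5 rfl
    refine nf_linear hnu hp hNF 24 (by norm_num) ?_ ?_
    · apply isCoprime_of_prime_not_dvd hr
      intro hd
      rcases hrp.dvd_mul.mp hd with h | h
      · norm_num at h
      · exact hp1 h
    · apply isCoprime_of_prime_not_dvd hr
      intro hd
      rcases hrp.dvd_mul.mp hd with h | h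
      · norm_num at h
      · have h' := hrp.dvd_of_dvd_pow h
        have h'' : 5 ∣ p := by exact_mod_cast h'
        exact hp5' ((Nat.prime_dvd_prime_iff_eq (by norm_num) hp).mp h'').symm
  · -- r ≥ 7
    refine nf_first_order hnu hNF ?_
    apply isCoprime_of_prime_not_dvd hr
    intro hd
    rcases hrp.dvd_mul.mp hd with h | h
    · have h' : r ∣ 240 := by exact_mod_cast h
      have hle : r ≤ 240 := Nat.le_of_dvd (by norm_num) h'
      have : r ∣ 2 ^ 4 * 3 * 5 := by simpa using h'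
      rcases (Nat.Prime.dvd_mul hr).mp this with h1 | h1
      · rcases (Nat.Prime.dvd_mul hr).mp h1 with h2 | h2
        · have := (Nat.prime_dvd_prime_iff_eq hr Nat.prime_two).mp (hr.dvd_of_dvd_pow h2)
          omega
        · have := (Nat.prime_dvd_prime_iff_eq hr Nat.prime_three).mp h2
          omega
      · have := (Nat.prime_dvd_prime_iff_eq hr Nat.prime_five).mp h1
        omega
    · exact hp1 h

/-- **C3a**: `p ≡ 1 mod 3`. -/
theorem c3a_core {p : ℕ} (hp : p.Prime) (hp3 : p % 3 = 1) {f g : PowerSeries ℂ} (T : TRData p f g)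
    (hf : ∀ n, 1 ≤ n → ∃ x, RInt 3 x ∧ coeff n f = ((3 : ℕ) : ℂ) * x) : False := by
  have hr : (3 : ℕ).Prime := Nat.prime_three
  obtain ⟨φ, γ, hNF, -⟩ := exists_NF (O := RIntRing 3 hr) hp.pos (by norm_num) T hf
  have hnu := RIntRing_nonunit hr
  have hrp : Prime ((3 : ℕ) : ℤ) := Nat.prime_iff_prime_int.mp hr
  refine nf_linear hnu hp hNF 40 (by norm_num) ?_ ?_
  · apply isCoprime_of_prime_not_dvd hr
    intro hd
    have : (3 : ℤ) ∣ 2 * ((p : ℤ) + 1) := by simpa using hd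
    omega
  · apply isCoprime_of_prime_not_dvd hr
    intro hd
    rcases hrp.dvd_mul.mp hd with h | h
    · norm_num at h
    · have h' := hrp.dvd_of_dvd_pow h
      have h'' : (3 : ℤ) ∣ (p : ℤ) := by simpa using h'
      omega

/-- **C3b, TR4 case**: `p ≡ 2, 5 mod 9`. -/
theorem c3b_core {p : ℕ} (hp : p.Prime) (hp9 : p % 9 = 2 ∨ p % 9 = 5) {f g : PowerSeries ℂ}
    (T : TRData p f g)
    (hf : ∀ n, 1 ≤ n → ∃ x, RInt 3 x ∧ coeff n f = ((9 : ℕ) : ℂ) * x) : False := by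
  have hr : (3 : ℕ).Prime := Nat.prime_three
  obtain ⟨φ, γ, hNF, -⟩ := exists_NF (O := RIntRing 3 hr) (M := ((9 : ℕ) : ℂ)) hp.pos
    (by norm_num) T hf
  have hnu := RIntRing_nonunit hr
  have hrp : Prime ((3 : ℕ) : ℤ) := Nat.prime_iff_prime_int.mp hr
  have hNF' : NF (RIntRing 3 hr) p 9 φ γ := by
    have e : ((9 : ℕ) : ℂ) = 9 := by norm_num
    rwa [e] at hNF
  refine nf_nine hnu hNF' (((p : ℤ) + 1) / 3) ?_ ?_
  · omega
  · apply isCoprime_of_prime_not_dvd hr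
    intro hd
    have : (3 : ℤ) ∣ 80 * (((p : ℤ) + 1) / 3) := by simpa using hd
    omega

/-- **C2b, TR4 case** and the second round of C2a: `F ≡ 1 mod 8`, `p ≢ 7 mod 8`, `p` odd. -/
theorem c2_eight_core {p : ℕ} (hp : p.Prime) (hp8 : p % 4 = 1 ∨ p % 8 = 3) {f g : PowerSeries ℂ}
    (T : TRData p f g)
    (hf : ∀ n, 1 ≤ n → ∃ x, RInt 2 x ∧ coeff n f = ((8 : ℕ) : ℂ) * x) : False := by
  have hr : (2 : ℕ).Prime := Nat.prime_two
  obtain ⟨φ, γ, hNF, -⟩ := exists_NF (O := RIntRing 2 hr) (M := ((8 : ℕ) : ℂ)) hp.pos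
    (by norm_num) T hf
  have hnu := RIntRing_nonunit hr
  have hrp : Prime ((2 : ℕ) : ℤ) := Nat.prime_iff_prime_int.mp hr
  have hNF' : NF (RIntRing 2 hr) p 8 φ γ := by
    have e : ((8 : ℕ) : ℂ) = 8 := by norm_num
    rwa [e] at hNF
  have hp2 : ¬ 2 ∣ p := by omega
  have hcop : IsCoprime ((15 : ℤ) * (p : ℤ) ^ 3) ((2 : ℕ) : ℤ) := by
    apply isCoprime_of_prime_not_dvd hr
    intro hd
    rcases hrp.dvd_mul.mp hd with h | h
    · norm_num at h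
    · have h' := hrp.dvd_of_dvd_pow h
      have h'' : (2 : ℤ) ∣ (p : ℤ) := by simpa using h'
      omega
  rcases hp8 with h4 | h8
  · refine nf_eight hnu hp hp2 hNF' (((p : ℤ) + 1) / 2) (Or.inl (by omega)) ?_ hcop
    apply isCoprime_of_prime_not_dvd hr
    intro hd
    have : (2 : ℤ) ∣ ((p : ℤ) + 1) / 2 := by simpa using hd
    omega
  · refine nf_eight hnu hp hp2 hNF' (((p : ℤ) + 1) / 4) (Or.inr (by omega)) ?_ hcop
    apply isCoprime_of_prime_not_dvd hr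
    intro hd
    have : (2 : ℤ) ∣ ((p : ℤ) + 1) / 4 := by simpa using hd
    omega

/-- **C2b, TR4 case**: `p ≡ 3 mod 8`. -/
theorem c2b_core {p : ℕ} (hp : p.Prime) (hp8 : p % 8 = 3) {f g : PowerSeries ℂ}
    (T : TRData p f g)
    (hf : ∀ n, 1 ≤ n → ∃ x, RInt 2 x ∧ coeff n f = ((8 : ℕ) : ℂ) * x) : False :=
  c2_eight_core hp (Or.inr hp8) T hf

/-- **C2a**: `p ≡ 1 mod 4` (two rounds `4 → 8`). -/
theorem c2a_core {p : ℕ} (hp : p.Prime) (hp4 : p % 4 = 1) {f g : PowerSeries ℂ}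
    (T : TRData p f g)
    (hf : ∀ n, 1 ≤ n → ∃ x, RInt 2 x ∧ coeff n f = ((4 : ℕ) : ℂ) * x) : False := by
  have hr : (2 : ℕ).Prime := Nat.prime_two
  obtain ⟨φ, γ, hNF, hfφ⟩ := exists_NF (O := RIntRing 2 hr) (M := ((4 : ℕ) : ℂ)) hp.pos
    (by norm_num) T hf
  have hNF' : NF (RIntRing 2 hr) p 4 φ γ := by
    have e : ((4 : ℕ) : ℂ) = 4 := by norm_num
    rwa [e] at hNF
  have hp2 : ¬ 2 ∣ p := by omega
  have hu2 : IsCoprime (((p : ℤ) + 1) / 2) ((2 : ℕ) : ℤ) := by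
    apply isCoprime_of_prime_not_dvd hr
    intro hd
    have : (2 : ℤ) ∣ ((p : ℤ) + 1) / 2 := by simpa using hd
    omega
  refine c2_eight_core hp (Or.inl hp4) T fun n hn => ?_
  obtain ⟨y, hy, hy'⟩ := nf_four_step hp2 hNF' (((p : ℤ) + 1) / 2) (by omega) hu2 n hn
  refine ⟨y, hy, ?_⟩
  rw [hfφ n hn, hy']
  push_cast
  ring


/-! ### Series-shape wrappers (hypotheses `TRHyp`, coefficients in `RInt r`) -/

theorem c5_tr {p r : ℕ} (hp : p.Prime) (hr : r.Prime) (hr5 : 5 ≤ r) (hpr : p % r ≠ r - 1)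
    (hp5 : r = 5 → p ≠ 5) (f : PowerSeries ℂ) (T : TRHyp p f) (h0 : coeff 0 f = 1)
    (hf : ∀ n, 1 ≤ n → ∃ x, RInt r x ∧ coeff n f = (r : ℂ) * x) : False :=
  c5_core hp hr hr5 hpr hp5 (T.data h0) hf

theorem c3a_tr {p : ℕ} (hp : p.Prime) (hp3 : p % 3 = 1) (f : PowerSeries ℂ) (T : TRHyp p f)
    (h0 : coeff 0 f = 1)
    (hf : ∀ n, 1 ≤ n → ∃ x, RInt 3 x ∧ coeff n f = ((3 : ℕ) : ℂ) * x) : False :=
  c3a_core hp hp3 (T.data h0) hf

theorem c3b_tr {p : ℕ} (hp : p.Prime) (hp9 : p % 9 = 2 ∨ p % 9 = 5) (f : PowerSeries ℂ)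
    (T : TRHyp p f) (h0 : coeff 0 f = 1)
    (hf : ∀ n, 1 ≤ n → ∃ x, RInt 3 x ∧ coeff n f = ((9 : ℕ) : ℂ) * x) : False :=
  c3b_core hp hp9 (T.data h0) hf

theorem c2b_tr {p : ℕ} (hp : p.Prime) (hp8 : p % 8 = 3) (f : PowerSeries ℂ)
    (T : TRHyp p f) (h0 : coeff 0 f = 1)
    (hf : ∀ n, 1 ≤ n → ∃ x, RInt 2 x ∧ coeff n f = ((8 : ℕ) : ℂ) * x) : False :=
  c2b_core hp hp8 (T.data h0) hf

theorem c2a_tr {p : ℕ} (hp : p.Prime) (hp4 : p % 4 = 1) (f : PowerSeries ℂ)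
    (T : TRHyp p f) (h0 : coeff 0 f = 1)
    (hf : ∀ n, 1 ≤ n → ∃ x, RInt 2 x ∧ coeff n f = ((4 : ℕ) : ℂ) * x) : False :=
  c2a_core hp hp4 (T.data h0) hf

/-! ### Final coefficientwise shape: `d • f ≡ d mod M` with `d` prime to `r` -/

/-- coefficientwise (A)+(B) with the `n = 0` case included (`if n = 0 then 1 else 240 σ₃(n)`). -/
theorem TRData.of_if {p : ℕ} {f g : PowerSeries ℂ} (f0 : coeff 0 f = 1)
    (gU : ∀ n, coeff n g = coeff (p * n) f) (fU : ∀ n, coeff n f = coeff (p * n) g)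
    (trf : ∀ n, (p : ℂ) * coeff n (f ^ 2) + coeff (p * n) (g ^ 2) =
      ((p : ℂ) + 1) * (if n = 0 then 1 else 240 * ((ArithmeticFunction.sigma 3 n : ℕ) : ℂ)))
    (trg : ∀ n, (p : ℂ) * coeff n (g ^ 2) + coeff (p * n) (f ^ 2) =
      ((p : ℂ) + 1) * (if n = 0 then 1 else 240 * ((ArithmeticFunction.sigma 3 n : ℕ) : ℂ))) :
    TRData p f g where
  f0 := f0
  gU := gU
  fU := fU
  trf n hn := by rw [trf n, if_neg (by omega)]
  trg n hn := by rw [trg n, if_neg (by omega)]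

theorem rint_of_coprime {r d : ℕ} (hr : r.Prime) (hd : d.Coprime r) {M c : ℂ} {m : ℤ}
    (h : (d : ℂ) * c = M * (m : ℂ)) : ∃ x, RInt r x ∧ c = M * x := by
  have hrd : ¬ r ∣ d := (hr.coprime_iff_not_dvd).mp hd.symm
  have hd0 : d ≠ 0 := by
    rintro rfl
    exact hrd (dvd_zero r)
  have hdC : (d : ℂ) ≠ 0 := Nat.cast_ne_zero.mpr hd0
  refine ⟨(m : ℂ) / (d : ℂ), ⟨m, d, hd0, hrd, by field_simp⟩, ?_⟩
  field_simp
  linear_combination h

/-- **C5, TR4 case** (final shape): `r ≥ 5` prime, `p % r ≠ r - 1`, (`p ≠ 5` if `r = 5`). -/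
theorem c5_tr4 {p r : ℕ} (hp : p.Prime) (hr : r.Prime) (hr5 : 5 ≤ r) (hpr : p % r ≠ r - 1)
    (hp5 : r = 5 → p ≠ 5) {f g : PowerSeries ℂ} (T : TRData p f g) (d : ℕ) (hd : d.Coprime r)
    (hF : ∀ k, 1 ≤ k → ∃ m : ℤ, (d : ℂ) * coeff k f = (r : ℂ) * (m : ℂ)) : False :=
  c5_core hp hr hr5 hpr hp5 T fun n hn => by
    obtain ⟨m, hm⟩ := hF n hn
    exact rint_of_coprime hr hd hm

/-- **C3a** (final shape): `p % 3 = 1`, `M = 3`. -/
theorem c3a_tr4 {p : ℕ} (hp : p.Prime) (hp3 : p % 3 = 1) {f g : PowerSeries ℂ}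
    (T : TRData p f g) (d : ℕ) (hd : d.Coprime 3)
    (hF : ∀ k, 1 ≤ k → ∃ m : ℤ, (d : ℂ) * coeff k f = ((3 : ℕ) : ℂ) * (m : ℂ)) : False :=
  c3a_core hp hp3 T fun n hn => by
    obtain ⟨m, hm⟩ := hF n hn
    exact rint_of_coprime Nat.prime_three hd hm

/-- **C3b, TR4 case** (final shape): `p % 9 ∈ {2, 5}`, `M = 9`. -/
theorem c3b_tr4 {p : ℕ} (hp : p.Prime) (hp9 : p % 9 = 2 ∨ p % 9 = 5) {f g : PowerSeries ℂ}
    (T : TRData p f g) (d : ℕ) (hd : d.Coprime 3)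
    (hF : ∀ k, 1 ≤ k → ∃ m : ℤ, (d : ℂ) * coeff k f = ((9 : ℕ) : ℂ) * (m : ℂ)) : False :=
  c3b_core hp hp9 T fun n hn => by
    obtain ⟨m, hm⟩ := hF n hn
    exact rint_of_coprime Nat.prime_three hd hm

/-- **C2a** (final shape): `p % 4 = 1`, `M = 4`. -/
theorem c2a_tr4 {p : ℕ} (hp : p.Prime) (hp4 : p % 4 = 1) {f g : PowerSeries ℂ}
    (T : TRData p f g) (d : ℕ) (hd : d.Coprime 2)
    (hF : ∀ k, 1 ≤ k → ∃ m : ℤ, (d : ℂ) * coeff k f = ((4 : ℕ) : ℂ) * (m : ℂ)) : False :=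
  c2a_core hp hp4 T fun n hn => by
    obtain ⟨m, hm⟩ := hF n hn
    exact rint_of_coprime Nat.prime_two hd hm

/-- **C2b, TR4 case** (final shape): `p % 8 = 3`, `M = 8`. -/
theorem c2b_tr4 {p : ℕ} (hp : p.Prime) (hp8 : p % 8 = 3) {f g : PowerSeries ℂ}
    (T : TRData p f g) (d : ℕ) (hd : d.Coprime 2)
    (hF : ∀ k, 1 ≤ k → ∃ m : ℤ, (d : ℂ) * coeff k f = ((8 : ℕ) : ℂ) * (m : ℂ)) : False :=
  c2b_core hp hp8 T fun n hn => by
    obtain ⟨m, hm⟩ := hF n hn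
    exact rint_of_coprime Nat.prime_two hd hm

end Fermat.Agent.S16Lib.Arith
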