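import Fermat.Agent.S16Lib.QDefs
import Fermat.Agent.S16Lib.ArithBase

/-!
# S16 arithmetic, part 1: the "TR4" cases (`p ≢ -1`) of the claims C5, C3a, C3b, C2a, C2b
as pure power-series number theory.
-/

set_option autoImplicit false

namespace Fermat.Agent.S16Lib.Arith

open PowerSeries

variable {O : Subring ℂ} {r : ℕ}

/-- (A)+(B) in coefficient form, for `f = qexp F`, `g = qexp (U_p F)`. -/
structure TRData (p : ℕ) (f g : PowerSeries ℂ) : Prop where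
  f0 : coeff 0 f = 1
  gU : ∀ n, coeff n g = coeff (p * n) f
  fU : ∀ n, coeff n f = coeff (p * n) g
  trf : ∀ n, 1 ≤ n → (p : ℂ) * coeff n (f ^ 2) + coeff (p * n) (g ^ 2) =
    ((p : ℂ) + 1) * (240 * ((ArithmeticFunction.sigma 3 n : ℕ) : ℂ))
  trg : ∀ n, 1 ≤ n → (p : ℂ) * coeff n (g ^ 2) + coeff (p * n) (f ^ 2) =
    ((p : ℂ) + 1) * (240 * ((ArithmeticFunction.sigma 3 n : ℕ) : ℂ))

theorem TRData.symm {p : ℕ} {f g : PowerSeries ℂ} (T : TRData p f g) : TRData p g f where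
  f0 := by rw [T.gU 0, mul_zero, T.f0]
  gU := T.fU
  fU := T.gU
  trf := T.trg
  trg := T.trf

theorem coeff_E4ser (n : ℕ) (hn : 1 ≤ n) :
    coeff n E4ser = 240 * ((ArithmeticFunction.sigma 3 n : ℕ) : ℂ) := by
  have hn0 : n ≠ 0 := by omega
  simp [E4ser, sigSer, coeff_one, hn0]

/-- The series form of (A)+(B) (lead's `(I-TR)` shape) gives `TRData`. -/
theorem TRData.of_series {p : ℕ} (f : PowerSeries ℂ) (h0 : coeff 0 f = 1)
    (hUU : Uop p (Uop p f) = f)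
    (hTRf : (p : ℂ) • f ^ 2 + Uop p ((Uop p f) ^ 2) =
      (((p : ℂ) + 1) * (coeff 0 f) ^ 2) • E4ser)
    (hTRg : (p : ℂ) • (Uop p f) ^ 2 + Uop p ((Uop p (Uop p f)) ^ 2) =
      (((p : ℂ) + 1) * (coeff 0 (Uop p f)) ^ 2) • E4ser) :
    TRData p f (Uop p f) where
  f0 := h0
  gU n := by simp [Uop]
  fU n := by
    conv_lhs => rw [← hUU]
    simp [Uop]
  trf n hn := by
    have h := congrArg (coeff n) hTRf
    rw [map_add, coeff_smul, coeff_smul, coeff_E4ser n hn, h0] at h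
    simp only [Uop, coeff_mk, smul_eq_mul] at h ⊢
    rw [h]; ring
  trg n hn := by
    have h := congrArg (coeff n) hTRg
    rw [hUU, map_add, coeff_smul, coeff_smul, coeff_E4ser n hn] at h
    have h00 : coeff 0 (Uop p f) = 1 := by simp [Uop, h0]
    rw [h00] at h
    simp only [Uop, coeff_mk, smul_eq_mul] at h ⊢
    rw [h]; ring

theorem coeff_mul_mem {A B : PowerSeries ℂ} (hA : ∀ k, coeff k A ∈ O) (hB : ∀ k, coeff k B ∈ O)
    (k : ℕ) : coeff k (A * B) ∈ O := by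
  rw [coeff_mul]
  exact O.sum_mem fun x _ => O.mul_mem (hA _) (hB _)

theorem coeff_sq_mem {A : PowerSeries ℂ} (hA : ∀ k, coeff k A ∈ O) (k : ℕ) :
    coeff k (A ^ 2) ∈ O := by
  rw [sq]; exact coeff_mul_mem hA hA k

/-- Normal form `f = 1 + M φ`, `g = 1 + M γ` with the key identity. -/
structure NF (O : Subring ℂ) (p : ℕ) (M : ℂ) (φ γ : PowerSeries ℂ) : Prop where
  φO : ∀ n, coeff n φ ∈ O
  γO : ∀ n, coeff n γ ∈ O
  φγ : ∀ n, coeff (p * n) γ = coeff n φ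
  γφ : ∀ n, coeff (p * n) φ = coeff n γ
  keyφ : ∀ n, 1 ≤ n → 2 * M * ((p : ℂ) + 1) * coeff n φ +
    M ^ 2 * ((p : ℂ) * coeff n (φ ^ 2) + coeff (p * n) (γ ^ 2)) =
    240 * ((p : ℂ) + 1) * ((ArithmeticFunction.sigma 3 n : ℕ) : ℂ)
  keyγ : ∀ n, 1 ≤ n → 2 * M * ((p : ℂ) + 1) * coeff n γ +
    M ^ 2 * ((p : ℂ) * coeff n (γ ^ 2) + coeff (p * n) (φ ^ 2)) =
    240 * ((p : ℂ) + 1) * ((ArithmeticFunction.sigma 3 n : ℕ) : ℂ)

theorem NF.symm {p : ℕ} {M : ℂ} {φ γ : PowerSeries ℂ} (h : NF O p M φ γ) : NF O p M γ φ :=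
  ⟨h.γO, h.φO, h.γφ, h.φγ, h.keyγ, h.keyφ⟩

theorem sq_one_add (M : ℂ) (φ : PowerSeries ℂ) :
    (1 + C M * φ) ^ 2 = 1 + C (2 * M) * φ + C (M ^ 2) * φ ^ 2 := by
  simp only [map_mul, map_pow, map_ofNat]
  ring

theorem exists_NF {p : ℕ} (hp : 0 < p) {M : ℂ} (hM : M ≠ 0) {f g : PowerSeries ℂ}
    (T : TRData p f g) (hf : ∀ n, 1 ≤ n → ∃ x ∈ O, coeff n f = M * x) :
    ∃ φ γ, NF O p M φ γ ∧ ∀ n, 1 ≤ n → coeff n f = M * coeff n φ := by
  set φ : PowerSeries ℂ := PowerSeries.mk fun n => if n = 0 then 0 else coeff n f / M with hφ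
  set γ : PowerSeries ℂ := PowerSeries.mk fun n => if n = 0 then 0 else coeff n g / M with hγ
  have hg0 : coeff 0 g = 1 := by rw [T.gU 0, mul_zero, T.f0]
  have hfφ : f = 1 + C M * φ := by
    ext n
    rw [map_add, coeff_C_mul, coeff_one, hφ, coeff_mk]
    by_cases hn : n = 0
    · subst hn; simp [T.f0]
    · simp only [hn, if_false]; field_simp; ring
  have hgγ : g = 1 + C M * γ := by
    ext n
    rw [map_add, coeff_C_mul, coeff_one, hγ, coeff_mk]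
    by_cases hn : n = 0
    · subst hn; simp [hg0]
    · simp only [hn, if_false]; field_simp; ring
  have hφO : ∀ n, coeff n φ ∈ O := by
    intro n
    rw [hφ, coeff_mk]
    by_cases hn : n = 0
    · simp only [hn, if_true]; exact O.zero_mem
    · simp only [hn, if_false]
      obtain ⟨x, hx, hx'⟩ := hf n (by omega)
      rw [hx', mul_div_cancel_left₀ _ hM]
      exact hx
  have hγO : ∀ n, coeff n γ ∈ O := by
    intro n
    rw [hγ, coeff_mk]
    by_cases hn : n = 0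
    · simp only [hn, if_true]; exact O.zero_mem
    · simp only [hn, if_false]
      have hpn : 1 ≤ p * n := Nat.one_le_iff_ne_zero.mpr (Nat.mul_ne_zero (by omega) hn)
      obtain ⟨x, hx, hx'⟩ := hf (p * n) hpn
      rw [T.gU n, hx', mul_div_cancel_left₀ _ hM]
      exact hx
  have hφγ : ∀ n, coeff (p * n) γ = coeff n φ := by
    intro n
    rw [hφ, hγ, coeff_mk, coeff_mk]
    by_cases hn : n = 0
    · simp [hn]
    · have hpn : p * n ≠ 0 := Nat.mul_ne_zero (by omega) hn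
      simp only [hn, hpn, if_false]
      rw [T.fU n]
  have hγφ : ∀ n, coeff (p * n) φ = coeff n γ := by
    intro n
    rw [hφ, hγ, coeff_mk, coeff_mk]
    by_cases hn : n = 0
    · simp [hn]
    · have hpn : p * n ≠ 0 := Nat.mul_ne_zero (by omega) hn
      simp only [hn, hpn, if_false]
      rw [T.gU n]
  have hkey : ∀ (φ γ : PowerSeries ℂ) (f g : PowerSeries ℂ), f = 1 + C M * φ → g = 1 + C M * γ →
      (∀ n, coeff (p * n) γ = coeff n φ) →
      (∀ n, 1 ≤ n → (p : ℂ) * coeff n (f ^ 2) + coeff (p * n) (g ^ 2) =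
        ((p : ℂ) + 1) * (240 * ((ArithmeticFunction.sigma 3 n : ℕ) : ℂ))) →
      ∀ n, 1 ≤ n → 2 * M * ((p : ℂ) + 1) * coeff n φ +
        M ^ 2 * ((p : ℂ) * coeff n (φ ^ 2) + coeff (p * n) (γ ^ 2)) =
        240 * ((p : ℂ) + 1) * ((ArithmeticFunction.sigma 3 n : ℕ) : ℂ) := by
    intro φ γ f g hf hg hφγ htr n hn
    have h := htr n hn
    have hn0 : n ≠ 0 := by omega
    have hpn : p * n ≠ 0 := Nat.mul_ne_zero (by omega) hn0
    rw [hf, hg, sq_one_add, sq_one_add] at h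
    simp only [map_add, coeff_C_mul, coeff_one, hn0, hpn, if_false, hφγ n] at h
    linear_combination h
  refine ⟨φ, γ, ⟨hφO, hγO, hφγ, hγφ, hkey φ γ f g hfφ hgγ hφγ T.trf,
    hkey γ φ g f hgγ hfφ hγφ T.trg⟩, ?_⟩
  intro n hn
  have hn0 : n ≠ 0 := by omega
  rw [hφ, coeff_mk]
  simp only [hn0, if_false]
  field_simp

theorem sigma_three_one : ((ArithmeticFunction.sigma 3 1 : ℕ) : ℂ) = 1 := by
  simp

theorem sigma_three_prime {p : ℕ} (hp : p.Prime) :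
    ((ArithmeticFunction.sigma 3 p : ℕ) : ℂ) = 1 + (p : ℂ) ^ 3 := by
  rw [ArithmeticFunction.sigma_apply, hp.divisors, Finset.sum_pair hp.one_lt.ne]
  push_cast; ring

/-- first-order contradiction (`r ≥ 7`, `M = r`). -/
theorem nf_first_order (hr : ∀ x ∈ O, (r : ℂ) * x ≠ 1) {p : ℕ} {φ γ : PowerSeries ℂ}
    (h : NF O p (r : ℂ) φ γ) (hcop : IsCoprime (240 * ((p : ℤ) + 1)) (r : ℤ)) : False := by
  apply not_inR_int hr hcop
  have hk := h.keyφ 1 le_rfl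
  rw [sigma_three_one] at hk
  refine ⟨2 * ((p : ℂ) + 1) * coeff 1 φ +
    (r : ℂ) * ((p : ℂ) * coeff 1 (φ ^ 2) + coeff (p * 1) (γ ^ 2)), ?_, ?_⟩
  · refine O.add_mem (O.mul_mem (O.mul_mem (ofNat_mem O 2) (O.add_mem (natCast_mem O p) O.one_mem))
      (h.φO 1)) (O.mul_mem (natCast_mem O r) (O.add_mem (O.mul_mem (natCast_mem O p)
      (coeff_sq_mem h.φO 1)) (coeff_sq_mem h.γO _)))
  · push_cast
    linear_combination -hk

/-- `φ₁ ≡ c σ₃(1)`, `γ_p ≡ c σ₃(p)` mod `r` is contradictory when `c p³` is prime to `r`. -/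
theorem nf_sigma_contra (hr : ∀ x ∈ O, (r : ℂ) * x ≠ 1) {p : ℕ} (hp : p.Prime) {M : ℂ}
    {φ γ : PowerSeries ℂ} (h : NF O p M φ γ) (c : ℤ)
    (hφ : InR O r (coeff 1 φ - (c : ℂ) * ((ArithmeticFunction.sigma 3 1 : ℕ) : ℂ)))
    (hγ : InR O r (coeff p γ - (c : ℂ) * ((ArithmeticFunction.sigma 3 p : ℕ) : ℂ)))
    (hcop : IsCoprime (c * (p : ℤ) ^ 3) (r : ℤ)) : False := by
  apply not_inR_int hr hcop
  have e : coeff p γ = coeff 1 φ := by
    have := h.φγ 1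
    rwa [mul_one] at this
  rw [e, sigma_three_prime hp] at hγ
  rw [sigma_three_one] at hφ
  have := hφ.sub hγ
  refine this.congr ?_
  push_cast; ring

/-- linear case: `M = r`, `r * c = 120`, `2(p+1)` prime to `r` (`r = 5`: `c = 24`; `r = 3`:
`c = 40`). -/
theorem nf_linear (hr : ∀ x ∈ O, (r : ℂ) * x ≠ 1) {p : ℕ} (hp : p.Prime) {φ γ : PowerSeries ℂ}
    (h : NF O p (r : ℂ) φ γ) (c : ℤ) (hc : (r : ℤ) * c = 120)
    (hcop1 : IsCoprime (2 * ((p : ℤ) + 1)) (r : ℤ))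
    (hcop2 : IsCoprime (c * (p : ℤ) ^ 3) (r : ℤ)) : False := by
  have hr0 : (r : ℂ) ≠ 0 := by
    intro h0
    have : ((r : ℤ) : ℂ) * (c : ℂ) = 120 := by exact_mod_cast congrArg (Int.cast : ℤ → ℂ) hc
    rw [Int.cast_natCast, h0, zero_mul] at this
    norm_num at this
  have hcC : (r : ℂ) * (c : ℂ) = 120 := by
    have : ((r : ℤ) : ℂ) * (c : ℂ) = 120 := by exact_mod_cast congrArg (Int.cast : ℤ → ℂ) hc
    rwa [Int.cast_natCast] at this
  have step : ∀ (φ γ : PowerSeries ℂ), NF O p (r : ℂ) φ γ → ∀ n, 1 ≤ n →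
      InR O r (coeff n φ - (c : ℂ) * ((ArithmeticFunction.sigma 3 n : ℕ) : ℂ)) := by
    intro φ γ h n hn
    have hk := h.keyφ n hn
    have hmem : coeff n φ - (c : ℂ) * ((ArithmeticFunction.sigma 3 n : ℕ) : ℂ) ∈ O :=
      O.sub_mem (h.φO n) (O.mul_mem (intCast_mem O c) (natCast_mem O _))
    apply InR.cancel hcop1 hmem
    refine ⟨-((p : ℂ) * coeff n (φ ^ 2) + coeff (p * n) (γ ^ 2)),
      O.neg_mem (O.add_mem (O.mul_mem (natCast_mem O p) (coeff_sq_mem h.φO n))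
        (coeff_sq_mem h.γO _)), ?_⟩
    apply mul_left_cancel₀ hr0
    push_cast
    linear_combination hk - 2 * ((p : ℂ) + 1) * ((ArithmeticFunction.sigma 3 n : ℕ) : ℂ) * hcC
  exact nf_sigma_contra hr hp h c (step φ γ h 1 le_rfl) (step γ φ h.symm p hp.one_lt.le) hcop2

/-- `M = 9`, `r = 3`, `p + 1 = 3u`, `3 ∤ u`. -/
theorem nf_nine (hr : ∀ x ∈ O, ((3 : ℕ) : ℂ) * x ≠ 1) {p : ℕ} {φ γ : PowerSeries ℂ}
    (h : NF O p 9 φ γ) (u : ℤ) (hu : (p : ℤ) + 1 = 3 * u) (hu3 : IsCoprime (80 * u) ((3 : ℕ) : ℤ)) :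
    False := by
  apply not_inR_int hr hu3
  have hk := h.keyφ 1 le_rfl
  rw [sigma_three_one] at hk
  have huC : (p : ℂ) + 1 = 3 * (u : ℂ) := by exact_mod_cast congrArg (Int.cast : ℤ → ℂ) hu
  refine ⟨2 * (u : ℂ) * coeff 1 φ + 3 * ((p : ℂ) * coeff 1 (φ ^ 2) + coeff (p * 1) (γ ^ 2)),
    ?_, ?_⟩
  · refine O.add_mem (O.mul_mem (O.mul_mem (ofNat_mem O 2) (intCast_mem O u)) (h.φO 1))
      (O.mul_mem (ofNat_mem O 3) (O.add_mem (O.mul_mem (natCast_mem O p)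
      (coeff_sq_mem h.φO 1)) (coeff_sq_mem h.γO _)))
  · push_cast
    rw [huC] at hk
    linear_combination (-1 / 9 : ℂ) * hk

end Fermat.Agent.S16Lib.Arith
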