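import Fermat.Agent.S16Lib.ArithTR

/-!
# S16 arithmetic, part 2: the `r = 2` TR4 cases (Frobenius mod 2).
-/

set_option autoImplicit false

namespace Fermat.Agent.S16Lib.Arith

open PowerSeries

variable {O : Subring ℂ}

theorem coeff_sq_eq (h : PowerSeries ℂ) (m : ℕ) :
    coeff m (h ^ 2) = (if 2 ∣ m then (coeff (m / 2) h) ^ 2 else 0) +
      2 * ∑ x ∈ (Finset.HasAntidiagonal.antidiagonal m).filter (fun x => x.1 < x.2),
        coeff x.1 h * coeff x.2 h := by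
  classical
  rw [sq, coeff_mul]
  set s := Finset.HasAntidiagonal.antidiagonal m with hs
  set F : ℕ × ℕ → ℂ := fun x => coeff x.1 h * coeff x.2 h with hF
  have h1 := Finset.sum_filter_add_sum_filter_not s (fun x => x.1 < x.2) F
  have h2 := Finset.sum_filter_add_sum_filter_not (s.filter (fun x => ¬ x.1 < x.2))
    (fun x => x.2 < x.1) F
  have h3 : ∑ x ∈ (s.filter (fun x => ¬ x.1 < x.2)).filter (fun x => x.2 < x.1), F x =
      ∑ x ∈ s.filter (fun x => x.1 < x.2), F x := by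
    refine Finset.sum_nbij' Prod.swap Prod.swap ?_ ?_ ?_ ?_ ?_
    · intro x hx
      simp only [Finset.mem_filter, hs, Finset.HasAntidiagonal.mem_antidiagonal] at hx
      simp only [Finset.mem_filter, hs, Finset.HasAntidiagonal.mem_antidiagonal, Prod.fst_swap,
        Prod.snd_swap]
      omega
    · intro x hx
      simp only [Finset.mem_filter, hs, Finset.HasAntidiagonal.mem_antidiagonal] at hx
      simp only [Finset.mem_filter, hs, Finset.HasAntidiagonal.mem_antidiagonal, Prod.fst_swap,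
        Prod.snd_swap]
      omega
    · intro x _; exact Prod.swap_swap x
    · intro x _; exact Prod.swap_swap x
    · intro x _
      simp only [hF, Prod.fst_swap, Prod.snd_swap]
      ring
  have h4 : ∑ x ∈ (s.filter (fun x => ¬ x.1 < x.2)).filter (fun x => ¬ x.2 < x.1), F x =
      if 2 ∣ m then (coeff (m / 2) h) ^ 2 else 0 := by
    split_ifs with hm
    · have hset : (s.filter (fun x => ¬ x.1 < x.2)).filter (fun x => ¬ x.2 < x.1) =
          {(m / 2, m / 2)} := by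
        ext x
        simp only [Finset.mem_filter, hs, Finset.HasAntidiagonal.mem_antidiagonal,
          Finset.mem_singleton]
        constructor
        · rintro ⟨⟨h1, h2⟩, h3⟩
          ext
          · show x.1 = m / 2
            omega
          · show x.2 = m / 2
            omega
        · rintro rfl
          obtain ⟨k, rfl⟩ := hm
          refine ⟨⟨?_, ?_⟩, ?_⟩
          · show 2 * k / 2 + 2 * k / 2 = 2 * k
            omega
          · show ¬ 2 * k / 2 < 2 * k / 2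
            omega
          · show ¬ 2 * k / 2 < 2 * k / 2
            omega
      rw [hset, Finset.sum_singleton]
      simp only [hF]
      ring
    · have hset : (s.filter (fun x => ¬ x.1 < x.2)).filter (fun x => ¬ x.2 < x.1) = ∅ := by
        ext x
        simp only [Finset.mem_filter, hs, Finset.HasAntidiagonal.mem_antidiagonal,
          Finset.notMem_empty, iff_false]
        rintro ⟨⟨h1, h2⟩, h3⟩
        exact hm ⟨x.1, by omega⟩
      rw [hset, Finset.sum_empty]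
  rw [← h1, ← h2, h3, h4]
  ring

/-- Frobenius mod 2. -/
theorem frob {h : PowerSeries ℂ} (hO : ∀ k, coeff k h ∈ O) (m : ℕ) :
    InR O 2 (coeff m (h ^ 2) - (if 2 ∣ m then (coeff (m / 2) h) ^ 2 else 0)) := by
  classical
  refine ⟨∑ x ∈ (Finset.HasAntidiagonal.antidiagonal m).filter (fun x => x.1 < x.2),
    coeff x.1 h * coeff x.2 h, O.sum_mem fun x _ => O.mul_mem (hO _) (hO _), ?_⟩
  rw [coeff_sq_eq h m]
  push_cast
  ring

/-- `(γ²)_{pn} ≡ (φ²)_n` mod 2 for odd `p`. -/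
theorem frob_diff {p : ℕ} (hp2 : ¬ 2 ∣ p) {M : ℂ} {φ γ : PowerSeries ℂ} (h : NF O p M φ γ)
    (n : ℕ) : InR O 2 (coeff (p * n) (γ ^ 2) - coeff n (φ ^ 2)) := by
  have h1 := frob h.γO (p * n)
  have h2 := frob h.φO n
  have key : (if 2 ∣ p * n then (coeff (p * n / 2) γ) ^ 2 else 0) =
      (if 2 ∣ n then (coeff (n / 2) φ) ^ 2 else 0) := by
    by_cases hn : 2 ∣ n
    · have hpn : 2 ∣ p * n := Dvd.dvd.mul_left hn p
      rw [if_pos hn, if_pos hpn]
      obtain ⟨k, rfl⟩ := hn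
      have e1 : p * (2 * k) / 2 = p * k := by
        rw [show p * (2 * k) = 2 * (p * k) by ring]
        exact Nat.mul_div_cancel_left _ (by norm_num)
      have e2 : 2 * k / 2 = k := Nat.mul_div_cancel_left _ (by norm_num)
      rw [e1, e2, h.φγ k]
    · have hpn : ¬ 2 ∣ p * n := by
        intro hd
        rcases (Nat.Prime.dvd_mul Nat.prime_two).mp hd with h' | h'
        · exact hp2 h'
        · exact hn h'
      rw [if_neg hn, if_neg hpn]
  rw [key] at h1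
  exact (h1.sub h2).congr (by ring)

/-- `M = 8`: `φ_n ≡ 15 σ₃(n)` mod 2, when `p + 1 = 2u` or `4u` with `u` odd. -/
theorem nf_eight_step {p : ℕ} (hp2 : ¬ 2 ∣ p) {φ γ : PowerSeries ℂ} (h : NF O p 8 φ γ) (u : ℤ)
    (hu : (p : ℤ) + 1 = 2 * u ∨ (p : ℤ) + 1 = 4 * u) (hu2 : IsCoprime u ((2 : ℕ) : ℤ))
    (n : ℕ) (hn : 1 ≤ n) :
    InR O 2 (coeff n φ - ((15 : ℤ) : ℂ) * ((ArithmeticFunction.sigma 3 n : ℕ) : ℂ)) := by
  have hk := h.keyφ n hn
  have hmem : coeff n φ - ((15 : ℤ) : ℂ) * ((ArithmeticFunction.sigma 3 n : ℕ) : ℂ) ∈ O :=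
    O.sub_mem (h.φO n) (O.mul_mem (intCast_mem O 15) (natCast_mem O _))
  apply InR.cancel hu2 hmem
  rcases hu with hu | hu
  · have huC : (p : ℂ) + 1 = 2 * (u : ℂ) := by exact_mod_cast congrArg (Int.cast : ℤ → ℂ) hu
    refine ⟨-((p : ℂ) * coeff n (φ ^ 2) + coeff (p * n) (γ ^ 2)),
      O.neg_mem (O.add_mem (O.mul_mem (natCast_mem O p) (coeff_sq_mem h.φO n))
        (coeff_sq_mem h.γO _)), ?_⟩
    rw [huC] at hk
    push_cast
    linear_combination (1 / 32 : ℂ) * hk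
  · have huC : (p : ℂ) + 1 = 4 * (u : ℂ) := by exact_mod_cast congrArg (Int.cast : ℤ → ℂ) hu
    obtain ⟨y, hy, hy'⟩ := frob_diff hp2 h n
    refine ⟨-(2 * (u : ℂ) * coeff n (φ ^ 2) + y),
      O.neg_mem (O.add_mem (O.mul_mem (O.mul_mem (ofNat_mem O 2) (intCast_mem O u))
        (coeff_sq_mem h.φO n)) hy), ?_⟩
    rw [huC] at hk
    push_cast at hy' ⊢
    linear_combination (1 / 64 : ℂ) * hk - hy' - coeff n (φ ^ 2) * huC

/-- `M = 8`, `p ≢ 7 mod 8` (i.e. `p + 1 = 2u` or `4u`, `u` odd): contradiction. -/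
theorem nf_eight (hr : ∀ x ∈ O, ((2 : ℕ) : ℂ) * x ≠ 1) {p : ℕ} (hp : p.Prime) (hp2 : ¬ 2 ∣ p)
    {φ γ : PowerSeries ℂ} (h : NF O p 8 φ γ) (u : ℤ)
    (hu : (p : ℤ) + 1 = 2 * u ∨ (p : ℤ) + 1 = 4 * u) (hu2 : IsCoprime u ((2 : ℕ) : ℤ))
    (hcop : IsCoprime ((15 : ℤ) * (p : ℤ) ^ 3) ((2 : ℕ) : ℤ)) : False :=
  nf_sigma_contra hr hp h 15 (nf_eight_step hp2 h u hu hu2 1 le_rfl)
    (nf_eight_step hp2 h.symm u hu hu2 p hp.one_lt.le) hcop

/-- `M = 4`, `p + 1 = 2u`, `u` odd: `φ_n ≡ 0` mod 2. -/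
theorem nf_four_step {p : ℕ} (hp2 : ¬ 2 ∣ p) {φ γ : PowerSeries ℂ} (h : NF O p 4 φ γ) (u : ℤ)
    (hu : (p : ℤ) + 1 = 2 * u) (hu2 : IsCoprime u ((2 : ℕ) : ℤ)) (n : ℕ) (hn : 1 ≤ n) :
    InR O 2 (coeff n φ) := by
  have hk := h.keyφ n hn
  apply InR.cancel hu2 (h.φO n)
  have huC : (p : ℂ) + 1 = 2 * (u : ℂ) := by exact_mod_cast congrArg (Int.cast : ℤ → ℂ) hu
  obtain ⟨y, hy, hy'⟩ := frob_diff hp2 h n
  refine ⟨15 * (u : ℂ) * ((ArithmeticFunction.sigma 3 n : ℕ) : ℂ) - (u : ℂ) * coeff n (φ ^ 2) - y,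
    O.sub_mem (O.sub_mem (O.mul_mem (O.mul_mem (ofNat_mem O 15) (intCast_mem O u))
      (natCast_mem O _)) (O.mul_mem (intCast_mem O u) (coeff_sq_mem h.φO n))) hy, ?_⟩
  rw [huC] at hk
  push_cast at hy' ⊢
  linear_combination (1 / 16 : ℂ) * hk - hy' - coeff n (φ ^ 2) * huC

end Fermat.Agent.S16Lib.Arith
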