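import Fermat.Agent.S16Lib.ArithClaims
import Fermat.Prelude.Def_ModularForm_HeckeOperatorForms
import Fermat.Prelude.Thm_ModularFormClass_qCoeff_heckeU
import Fermat.Prelude.Thm_CongruenceSubgroup_one_mem_strictPeriods_Gamma0

/-!
# S16Lib.ClaimsTR — the five TR4 cases of the claims (E) for modular forms `F ∈ M₂(Γ₀(p))`,
from the trace identities (A3) `U_p U_p f = f` and (B) `p f² + U_p((U_p f)²) = (p+1) a₀² E₄`
(taken as hypotheses `HypUU p`, `HypTR p`; they are helper4's `Trace.U_U`, `Trace.tr4`).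
-/

set_option autoImplicit false

namespace Fermat.Agent.S16Lib.ClaimsTR

open UpperHalfPlane CongruenceSubgroup PowerSeries
open scoped MatrixGroups

/-- (A3): `U_p U_p f = f` for every `F ∈ M₂(Γ₀(p))`, `f = qExpansion 1 F`. -/
def HypUU (p : ℕ) : Prop :=
  ∀ F : ModularForm (Gamma0 p) 2, Uop p (Uop p (qExpansion 1 F)) = qExpansion 1 F

/-- (B): `p f² + U_p((U_p f)²) = (p+1) a₀(f)² E₄` for every `F ∈ M₂(Γ₀(p))`. -/
def HypTR (p : ℕ) : Prop :=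
  ∀ F : ModularForm (Gamma0 p) 2,
    (p : ℂ) • (qExpansion 1 F) ^ 2 + Uop p ((Uop p (qExpansion 1 F)) ^ 2) =
      (((p : ℂ) + 1) * ((qExpansion 1 F).coeff 0) ^ 2) • qExpansion 1 ModularForm.E₄

theorem qExpansion_E₄ : qExpansion 1 ModularForm.E₄ = E4ser := by
  ext n
  rw [EisensteinSeries.E_qExpansion_coeff (by norm_num : 3 ≤ 4) ⟨2, rfl⟩ n]
  by_cases hn : n = 0
  · subst hn
    simp [E4ser, sigSer]
  · rw [if_neg hn]
    simp only [E4ser, sigSer, map_add, coeff_one, if_neg hn, zero_add, coeff_smul, coeff_mk,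
      smul_eq_mul]
    norm_num [show bernoulli 4 = -1 / 30 by decide +kernel]

/-- `U_p F` as a modular form, with `q`-expansion `Uop p (qExpansion 1 F)`. -/
theorem exists_U {p : ℕ} [Fact p.Prime] (F : ModularForm (Gamma0 p) 2) :
    ∃ G : ModularForm (Gamma0 p) 2, qExpansion 1 G = Uop p (qExpansion 1 F) := by
  have : NeZero p := ⟨(Fact.out : p.Prime).ne_zero⟩
  refine ⟨ModularForm.heckeULin 2 (dvd_refl p) F, ?_⟩
  ext n
  have h := ModularFormClass.qCoeff_heckeU (k := 2) F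
    (CongruenceSubgroup.one_mem_strictPeriods_Gamma0 p) (p := p) (Fact.out : p.Prime).ne_zero n
  simp only [ModularFormClass.qCoeff, ModularForm.coeffHeckeU] at h
  rw [ModularForm.coe_heckeULin_apply, h]
  simp [Uop, mul_comm]

/-- (A3)+(B) give the coefficientwise data `TRData` for `f = qExpansion 1 F`. -/
theorem trData {p : ℕ} [Fact p.Prime] (hUU : HypUU p) (hTR : HypTR p)
    (F : ModularForm (Gamma0 p) 2) (h0 : (qExpansion 1 F).coeff 0 = 1) :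
    Arith.TRData p (qExpansion 1 F) (Uop p (qExpansion 1 F)) := by
  obtain ⟨G, hG⟩ := exists_U F
  have h1 := hTR F
  have h2 := hTR G
  rw [hG] at h2
  rw [qExpansion_E₄] at h1 h2
  exact Arith.TRData.of_series _ h0 (hUU F) h1 h2

variable {p : ℕ} [Fact p.Prime]

/-- **C5, TR4 case**: `r ≥ 5` prime, `p % r ≠ r - 1` (and `p ≠ 5` if `r = 5`). -/
theorem c5 (hUU : HypUU p) (hTR : HypTR p) {r : ℕ} (hr : r.Prime) (hr5 : 5 ≤ r)
    (hpr : p % r ≠ r - 1) (hp5 : r = 5 → p ≠ 5) (F : ModularForm (Gamma0 p) 2) (d : ℕ)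
    (hd : d.Coprime r) (h0 : (qExpansion 1 F).coeff 0 = 1)
    (hF : ∀ k, 1 ≤ k → ∃ m : ℤ, (d : ℂ) * (qExpansion 1 F).coeff k = (r : ℂ) * (m : ℂ)) :
    False :=
  Arith.c5_tr4 Fact.out hr hr5 hpr hp5 (trData hUU hTR F h0) d hd hF

/-- **C3a**: `p % 3 = 1`, `M = 3`. -/
theorem c3a (hUU : HypUU p) (hTR : HypTR p) (hp3 : p % 3 = 1) (F : ModularForm (Gamma0 p) 2)
    (d : ℕ) (hd : d.Coprime 3) (h0 : (qExpansion 1 F).coeff 0 = 1)
    (hF : ∀ k, 1 ≤ k → ∃ m : ℤ, (d : ℂ) * (qExpansion 1 F).coeff k = ((3 : ℕ) : ℂ) * (m : ℂ)) :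
    False :=
  Arith.c3a_tr4 Fact.out hp3 (trData hUU hTR F h0) d hd hF

/-- **C3b, TR4 case**: `p % 9 ∈ {2, 5}`, `M = 9`. -/
theorem c3b (hUU : HypUU p) (hTR : HypTR p) (hp9 : p % 9 = 2 ∨ p % 9 = 5)
    (F : ModularForm (Gamma0 p) 2) (d : ℕ) (hd : d.Coprime 3)
    (h0 : (qExpansion 1 F).coeff 0 = 1)
    (hF : ∀ k, 1 ≤ k → ∃ m : ℤ, (d : ℂ) * (qExpansion 1 F).coeff k = ((9 : ℕ) : ℂ) * (m : ℂ)) :
    False :=
  Arith.c3b_tr4 Fact.out hp9 (trData hUU hTR F h0) d hd hF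

/-- **C2a**: `p % 4 = 1`, `M = 4`. -/
theorem c2a (hUU : HypUU p) (hTR : HypTR p) (hp4 : p % 4 = 1) (F : ModularForm (Gamma0 p) 2)
    (d : ℕ) (hd : d.Coprime 2) (h0 : (qExpansion 1 F).coeff 0 = 1)
    (hF : ∀ k, 1 ≤ k → ∃ m : ℤ, (d : ℂ) * (qExpansion 1 F).coeff k = ((4 : ℕ) : ℂ) * (m : ℂ)) :
    False :=
  Arith.c2a_tr4 Fact.out hp4 (trData hUU hTR F h0) d hd hF

/-- **C2b, TR4 case**: `p % 8 = 3`, `M = 8`. -/
theorem c2b (hUU : HypUU p) (hTR : HypTR p) (hp8 : p % 8 = 3) (F : ModularForm (Gamma0 p) 2)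
    (d : ℕ) (hd : d.Coprime 2) (h0 : (qExpansion 1 F).coeff 0 = 1)
    (hF : ∀ k, 1 ≤ k → ∃ m : ℤ, (d : ℂ) * (qExpansion 1 F).coeff k = ((8 : ℕ) : ℂ) * (m : ℂ)) :
    False :=
  Arith.c2b_tr4 Fact.out hp8 (trData hUU hTR F h0) d hd hF

end Fermat.Agent.S16Lib.ClaimsTR
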