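/-
S16 long shot, helper piece (helper3): Eisenstein-type forms on `Γ₀(N)`.
* `resForm N f`  : a level-one form seen on `Γ₀(N)`;
* `vForm N f`    : `z ↦ f (N z)` on `Γ₀(N)` for a level-one form `f`;
* `AN N`         : `(N E₂(N z) - E₂(z)) / (N - 1)` in `M₂(Γ₀(N))`;
together with their `q`-expansions.
-/
import Mathlib
import Fermat.Prelude.Def_ModularForm_HeckeOperator
import Fermat.Prelude.Thm_CongruenceSubgroup_one_mem_strictPeriods_Gamma0

set_option autoImplicit false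

namespace Fermat.Agent.S16Lib.EisLevel

open UpperHalfPlane ModularForm EisensteinSeries CongruenceSubgroup MatrixGroups OnePoint
open Matrix.SpecialLinearGroup
open scoped Manifold

noncomputable section

variable (N : ℕ) [NeZero N]

omit [NeZero N] in
theorem dvd_of_mem_Gamma0 {γ : SL(2, ℤ)} (h : γ ∈ Gamma0 N) : (N : ℤ) ∣ γ 1 0 := by
  rw [Gamma0_mem] at h
  exact (ZMod.intCast_zmod_eq_zero_iff_dvd _ _).mp h

/-- the companion matrix `[[a, N b], [c / N, d]]` of `γ = [[a, b], [c, d]] ∈ Γ₀(N)`. -/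
def conjMat (γ : SL(2, ℤ)) (h : γ ∈ Gamma0 N) : SL(2, ℤ) :=
  ⟨!![γ 0 0, N * γ 0 1; γ 1 0 / N, γ 1 1], by
    have hd := dvd_of_mem_Gamma0 N h
    have hdet := γ.det_coe
    rw [Matrix.det_fin_two] at hdet
    rw [Matrix.det_fin_two_of]
    have : (N : ℤ) * γ 0 1 * (γ 1 0 / N) = γ 0 1 * γ 1 0 := by
      rw [mul_comm (N : ℤ), mul_assoc, Int.mul_ediv_cancel' hd]
    linarith⟩

omit [NeZero N] in
theorem conjMat_coe (γ : SL(2, ℤ)) (h : γ ∈ Gamma0 N) :
    (conjMat N γ h : Matrix (Fin 2) (Fin 2) ℤ) = !![γ 0 0, N * γ 0 1; γ 1 0 / N, γ 1 1] := rfl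

theorem diag_mul_eq (γ : SL(2, ℤ)) (h : γ ∈ Gamma0 N) :
    heckeDiagMatrix N * mapGL ℝ γ = mapGL ℝ (conjMat N γ h) * heckeDiagMatrix N := by
  have hd := dvd_of_mem_Gamma0 N h
  have hN : (N : ℝ) ≠ 0 := Nat.cast_ne_zero.mpr (NeZero.ne N)
  have hc : ((γ 1 0 / (N : ℤ) : ℤ) : ℝ) * N = γ 1 0 := by
    obtain ⟨t, ht⟩ := hd
    rw [ht, Int.mul_ediv_cancel_left _ (by exact_mod_cast NeZero.ne N)]
    push_cast; ring
  apply Units.ext
  rw [Units.val_mul, Units.val_mul, mapGL_coe_matrix, mapGL_coe_matrix,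
    val_heckeDiagMatrix (NeZero.ne N)]
  ext i j
  fin_cases i <;> fin_cases j <;>
    simp [Matrix.mul_apply, Fin.sum_univ_two, conjMat_coe, Matrix.SpecialLinearGroup.map_apply_coe,
      hc, mul_comm]

theorem slash_diag_slash (f : ℍ → ℂ) (k : ℤ) (γ : SL(2, ℤ)) (h : γ ∈ Gamma0 N) :
    (f ∣[k] heckeDiagMatrix N) ∣[k] (mapGL ℝ γ) =
      (f ∣[k] (mapGL ℝ (conjMat N γ h))) ∣[k] heckeDiagMatrix N := by
  rw [← SlashAction.slash_mul, diag_mul_eq N γ h, SlashAction.slash_mul]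

/-- `diag(N, 1)` over `ℚ`. -/
def dQ : GL (Fin 2) ℚ :=
  Matrix.GeneralLinearGroup.mkOfDetNeZero !![(N : ℚ), 0; 0, 1]
    (by simp [Matrix.det_fin_two_of, NeZero.ne N])

theorem dQ_map : (dQ N).map (Rat.castHom ℝ) = heckeDiagMatrix N := by
  apply Units.ext
  rw [val_heckeDiagMatrix (NeZero.ne N)]
  ext i j
  fin_cases i <;> fin_cases j <;> simp [dQ]

theorem isCusp_diag_smul {c : OnePoint ℝ} (hc : IsCusp c 𝒮ℒ) :
    IsCusp (heckeDiagMatrix N • c) 𝒮ℒ := by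
  have h1 := hc.smul (heckeDiagMatrix N)
  rw [← dQ_map] at h1 ⊢
  have := isArithmetic_conj_SL2Z (dQ N)
  exact (Subgroup.IsArithmetic.isCusp_iff_isCusp_SL2Z _).mp h1

theorem isBoundedAt_slash_diag {f : ℍ → ℂ} {k : ℤ}
    (hf : ∀ γ : SL(2, ℤ), IsBoundedAtImInfty (f ∣[k] γ))
    {c : OnePoint ℝ} (hc : IsCusp c 𝒮ℒ) : c.IsBoundedAt (f ∣[k] heckeDiagMatrix N) k := by
  rw [← OnePoint.IsBoundedAt.smul_iff,
    OnePoint.isBoundedAt_iff_forall_SL2Z (isCusp_diag_smul N hc)]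
  exact fun γ _ => hf γ

omit [NeZero N] in
theorem isBoundedAt_smul {c : OnePoint ℝ} {F : ℍ → ℂ} {k : ℤ} (a : ℂ)
    (h : c.IsBoundedAt F k) : c.IsBoundedAt (a • F) k := fun g hg => by
  rw [ModularForm.smul_slash]
  exact (h g hg).const_smul_left _

theorem isCusp_SL_of_Gamma0 {c : OnePoint ℝ}
    (hc : IsCusp c ((Gamma0 N : Subgroup SL(2, ℤ)) : Subgroup (GL (Fin 2) ℝ))) : IsCusp c 𝒮ℒ :=
  (Subgroup.IsArithmetic.isCusp_iff_isCusp_SL2Z _).mp hc

/-- a level-one form seen as a form on `Γ₀(N)`. -/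
def resForm {k : ℤ} (f : ModularForm 𝒮ℒ k) : ModularForm (Gamma0 N) k where
  toFun := f
  slash_action_eq' A hA := f.slash_action_eq' A (by obtain ⟨γ, -, rfl⟩ := hA; exact ⟨γ, rfl⟩)
  holo' := f.holo'
  bdd_at_cusps' hc := f.bdd_at_cusps' (isCusp_SL_of_Gamma0 N hc)

theorem resForm_apply {k : ℤ} (f : ModularForm 𝒮ℒ k) (τ : ℍ) : resForm N f τ = f τ := rfl

theorem qExpansion_resForm {k : ℤ} (f : ModularForm 𝒮ℒ k) :
    qExpansion 1 (resForm N f) = qExpansion 1 f := rfl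

theorem bdd_slash_levelOne {k : ℤ} (f : ModularForm 𝒮ℒ k) (γ : SL(2, ℤ)) :
    IsBoundedAtImInfty ((f : ℍ → ℂ) ∣[k] γ) := by
  have h1 : (f : ℍ → ℂ) ∣[k] γ = f := f.slash_action_eq' _ ⟨γ, rfl⟩
  rw [h1]
  exact OnePoint.isBoundedAt_infty_iff.mp (f.bdd_at_cusps' (isCusp_SL2Z_iff'.mpr ⟨1, by simp⟩))

theorem vFun_eq {k : ℤ} (f : ℍ → ℂ) :
    (fun τ : ℍ => f (heckeDiagMatrix N • τ)) =
      ((N : ℂ) ^ (k - 1))⁻¹ • (f ∣[k] heckeDiagMatrix N) := by
  funext τ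
  have hN : ((N : ℂ) ^ (k - 1)) ≠ 0 := zpow_ne_zero _ (Nat.cast_ne_zero.mpr (NeZero.ne N))
  rw [Pi.smul_apply, slash_heckeDiagMatrix_apply k (NeZero.ne N), smul_eq_mul,
    inv_mul_cancel_left₀ hN]

/-- `z ↦ f (N z)` on `Γ₀(N)`, for a level-one form `f`. -/
def vForm {k : ℤ} (f : ModularForm 𝒮ℒ k) : ModularForm (Gamma0 N) k where
  toFun := fun τ => f (heckeDiagMatrix N • τ)
  slash_action_eq' A hA := by
    obtain ⟨γ, hγ, rfl⟩ := hA
    rw [vFun_eq N (k := k)]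
    show (_ • _) ∣[k] γ = _
    rw [SL_smul_slash]
    congr 1
    show ((f : ℍ → ℂ) ∣[k] heckeDiagMatrix N) ∣[k] (mapGL ℝ γ) = _
    rw [slash_diag_slash N _ k γ hγ]
    congr 1
    exact f.slash_action_eq' _ ⟨_, rfl⟩
  holo' := by
    show MDiff (fun τ : ℍ => f (heckeDiagMatrix N • τ))
    rw [vFun_eq N (k := k)]
    exact ((ModularFormClass.holo f).slash k _).const_smul _
  bdd_at_cusps' hc := by
    rw [vFun_eq N (k := k)]
    exact isBoundedAt_smul _ (isBoundedAt_slash_diag N (bdd_slash_levelOne f)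
      (isCusp_SL_of_Gamma0 N hc))

theorem vForm_apply {k : ℤ} (f : ModularForm 𝒮ℒ k) (τ : ℍ) :
    vForm N f τ = f (heckeDiagMatrix N • τ) := rfl

/-! ### `q`-expansions under `z ↦ N z` -/

theorem qParam_diag (τ : ℍ) :
    Function.Periodic.qParam (1 : ℝ) ((heckeDiagMatrix N • τ : ℍ) : ℂ) =
      Function.Periodic.qParam (1 : ℝ) (τ : ℂ) ^ N := by
  simp only [Function.Periodic.qParam, coe_heckeDiagMatrix_smul (NeZero.ne N)]
  rw [← Complex.exp_nat_mul]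
  congr 1
  push_cast
  ring

theorem hasSum_comp_diag {f : ℍ → ℂ} {a : ℕ → ℂ}
    (hf : ∀ τ : ℍ, HasSum (fun m => a m • Function.Periodic.qParam (1 : ℝ) (τ : ℂ) ^ m) (f τ))
    (τ : ℍ) :
    HasSum (fun n => (if N ∣ n then a (n / N) else 0) • Function.Periodic.qParam (1 : ℝ) (τ : ℂ) ^ n)
      (f (heckeDiagMatrix N • τ)) := by
  have h1 := hf (heckeDiagMatrix N • τ)
  rw [qParam_diag N τ] at h1
  have hinj : Function.Injective (fun m : ℕ => N * m) := mul_right_injective₀ (NeZero.ne N)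
  refine (hinj.hasSum_iff ?_).mp ?_
  · intro n hn
    have : ¬ N ∣ n := fun ⟨m, hm⟩ => hn ⟨m, hm.symm⟩
    simp [this]
  · convert h1 using 1
    funext m
    simp [Nat.mul_div_cancel_left _ (Nat.pos_of_ne_zero (NeZero.ne N)), pow_mul]

theorem hasSum_levelOne {k : ℤ} (f : ModularForm 𝒮ℒ k) (τ : ℍ) :
    HasSum (fun m => (qExpansion 1 f).coeff m • Function.Periodic.qParam (1 : ℝ) (τ : ℂ) ^ m)
      (f τ) := by
  simpa [smul_eq_mul] using ModularForm.hasSum_qExpansion (f := f) one_pos one_mem_strictPeriods_SL τ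

theorem qExpansion_vForm_coeff {k : ℤ} (f : ModularForm 𝒮ℒ k) (n : ℕ) :
    (qExpansion 1 (vForm N f)).coeff n =
      if N ∣ n then (qExpansion 1 f).coeff (n / N) else 0 :=
  (ModularFormClass.qExpansion_coeff_unique
    (c := fun n => if N ∣ n then (qExpansion 1 f).coeff (n / N) else 0) one_pos
    (CongruenceSubgroup.one_mem_strictPeriods_Gamma0 N) (f := vForm N f)
    (fun τ => hasSum_comp_diag N (hasSum_levelOne f) τ) n).symm

/-! ### The weight two form `A_N = (N E₂(N z) - E₂(z)) / (N - 1)` -/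

omit [NeZero N] in
theorem bdd_D2 (γ : SL(2, ℤ)) : IsBoundedAtImInfty (D2 γ) := by
  rw [UpperHalfPlane.isBoundedAtImInfty_iff]
  refine ⟨2 * Real.pi, 1, fun z hz => ?_⟩
  by_cases hc : (γ 1 0 : ℤ) = 0
  · simp only [D2, hc, Int.cast_zero, mul_zero, zero_div, norm_zero]
    positivity
  · have hc' : (0 : ℝ) < |((γ 1 0 : ℤ) : ℝ)| := abs_pos.mpr (by exact_mod_cast hc)
    have hden : |((γ 1 0 : ℤ) : ℝ)| ≤ ‖denom γ z‖ := by
      have h1 : (denom γ z).im = ((γ 1 0 : ℤ) : ℝ) * z.im := by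
        rw [ModularGroup.denom_apply]
        simp
      calc |((γ 1 0 : ℤ) : ℝ)| ≤ |((γ 1 0 : ℤ) : ℝ)| * z.im :=
            le_mul_of_one_le_right (abs_nonneg _) hz
        _ = |(denom γ z).im| := by rw [h1, abs_mul, abs_of_pos z.im_pos]
        _ ≤ ‖denom γ z‖ := Complex.abs_im_le_norm _
    have hnorm : ‖D2 γ z‖ = 2 * Real.pi * |((γ 1 0 : ℤ) : ℝ)| / ‖denom γ z‖ := by
      simp [D2, abs_of_pos Real.pi_pos]
    rw [hnorm, div_le_iff₀ (lt_of_lt_of_le hc' hden)]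
    nlinarith [Real.pi_pos]

omit [NeZero N] in
theorem bdd_E2_slash (γ : SL(2, ℤ)) : IsBoundedAtImInfty (E2 ∣[(2 : ℤ)] γ) := by
  rw [E2_slash_action]
  exact isBoundedAtImInfty_E2.sub ((bdd_D2 γ).const_smul_left _)

theorem D2_conj (γ : SL(2, ℤ)) (h : γ ∈ Gamma0 N) :
    (D2 (conjMat N γ h)) ∣[(2 : ℤ)] heckeDiagMatrix N = D2 γ := by
  funext z
  have hd := dvd_of_mem_Gamma0 N h
  have hN : (N : ℂ) ≠ 0 := Nat.cast_ne_zero.mpr (NeZero.ne N)
  have hc : (((conjMat N γ h) 1 0 : ℤ) : ℂ) * N = ((γ 1 0 : ℤ) : ℂ) := by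
    have : (conjMat N γ h) 1 0 = γ 1 0 / N := rfl
    rw [this]
    obtain ⟨t, ht⟩ := hd
    rw [ht, Int.mul_ediv_cancel_left _ (by exact_mod_cast NeZero.ne N)]
    push_cast; ring
  have hd' : (conjMat N γ h) 1 1 = γ 1 1 := rfl
  have hden : denom (conjMat N γ h) ((heckeDiagMatrix N • z : ℍ) : ℂ) = denom γ (z : ℂ) := by
    rw [ModularGroup.denom_apply, ModularGroup.denom_apply,
      coe_heckeDiagMatrix_smul (NeZero.ne N), hd', ← hc]
    ring
  rw [slash_heckeDiagMatrix_apply 2 (NeZero.ne N)]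
  simp only [D2, hden, ← hc]
  norm_num
  ring

/-- the function `(N E₂(N z) - E₂(z)) / (N - 1)`. -/
def ANfun : ℍ → ℂ := ((N : ℂ) - 1)⁻¹ • (E2 ∣[(2 : ℤ)] heckeDiagMatrix N - E2)

theorem ANfun_apply (τ : ℍ) :
    ANfun N τ = ((N : ℂ) - 1)⁻¹ * ((N : ℂ) * E2 (heckeDiagMatrix N • τ) - E2 τ) := by
  simp [ANfun, slash_heckeDiagMatrix_apply 2 (NeZero.ne N)]

theorem E2_diag_slash_sub (γ : SL(2, ℤ)) (h : γ ∈ Gamma0 N) :
    (E2 ∣[(2 : ℤ)] heckeDiagMatrix N - E2) ∣[(2 : ℤ)] (mapGL ℝ γ) =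
      E2 ∣[(2 : ℤ)] heckeDiagMatrix N - E2 := by
  have h1 : E2 ∣[(2 : ℤ)] (mapGL ℝ (conjMat N γ h)) =
      E2 - (1 / (2 * riemannZeta 2)) • D2 (conjMat N γ h) := E2_slash_action _
  have h2 : E2 ∣[(2 : ℤ)] (mapGL ℝ γ) = E2 - (1 / (2 * riemannZeta 2)) • D2 γ :=
    E2_slash_action _
  rw [sub_eq_add_neg, SlashAction.add_slash, SlashAction.neg_slash, slash_diag_slash N _ 2 γ h,
    h1, h2, sub_eq_add_neg E2, SlashAction.add_slash, SlashAction.neg_slash,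
    ModularForm.smul_slash, D2_conj N γ h, σ_heckeDiagMatrix]
  simp only [ContinuousAlgEquiv.refl_apply]
  abel

/-- `A_N = (N E₂(N z) - E₂(z)) / (N - 1)` as a modular form of weight two on `Γ₀(N)`. -/
def AN : ModularForm (Gamma0 N) 2 where
  toFun := ANfun N
  slash_action_eq' A hA := by
    obtain ⟨γ, hγ, rfl⟩ := hA
    show (_ • _) ∣[(2 : ℤ)] γ = _
    rw [SL_smul_slash]
    congr 1
    exact E2_diag_slash_sub N γ hγ
  holo' := ((E2_mdifferentiable.slash 2 _).sub E2_mdifferentiable).const_smul _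
  bdd_at_cusps' hc := by
    have hc' := isCusp_SL_of_Gamma0 N hc
    refine isBoundedAt_smul _ ?_
    have h1 := isBoundedAt_slash_diag N (f := E2) (k := 2) bdd_E2_slash hc'
    have h2 : OnePoint.IsBoundedAt _ E2 2 :=
      (OnePoint.isBoundedAt_iff_forall_SL2Z hc').mpr (fun γ _ => bdd_E2_slash γ)
    have h3 := h1.add (isBoundedAt_smul (-1 : ℂ) h2)
    simpa [sub_eq_add_neg] using h3

theorem AN_apply (τ : ℍ) :
    AN N τ = ((N : ℂ) - 1)⁻¹ * ((N : ℂ) * E2 (heckeDiagMatrix N • τ) - E2 τ) :=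
  ANfun_apply N τ

/-- the `q`-expansion coefficients of `E₂`. -/
def cE2 (m : ℕ) : ℂ := if m = 0 then 1 else -24 * (ArithmeticFunction.sigma 1 m : ℂ)

omit [NeZero N] in
theorem hasSum_E2 (τ : ℍ) :
    HasSum (fun m : ℕ => cE2 m • Function.Periodic.qParam (1 : ℝ) (τ : ℂ) ^ m) (E2 τ) := by
  simpa only [cE2, Function.Periodic.qParam, Complex.ofReal_one, div_one] using
    hasSum_qExpansion_E2 (z := τ)

theorem hasSum_AN (τ : ℍ) :
    HasSum (fun n : ℕ => (((N : ℂ) - 1)⁻¹ *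
        ((N : ℂ) * (if N ∣ n then cE2 (n / N) else 0) - cE2 n)) •
          Function.Periodic.qParam (1 : ℝ) (τ : ℂ) ^ n) (AN N τ) := by
  rw [AN_apply]
  have h1 := hasSum_comp_diag N hasSum_E2 τ
  have h2 := hasSum_E2 τ
  have h3 := ((h1.mul_left (N : ℂ)).sub h2).mul_left ((N : ℂ) - 1)⁻¹
  have hfun : (fun n : ℕ => (((N : ℂ) - 1)⁻¹ *
        ((N : ℂ) * (if N ∣ n then cE2 (n / N) else 0) - cE2 n)) •
          Function.Periodic.qParam (1 : ℝ) (τ : ℂ) ^ n) =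
      fun i : ℕ => ((N : ℂ) - 1)⁻¹ *
        ((N : ℂ) * ((if N ∣ i then cE2 (i / N) else 0) •
          Function.Periodic.qParam (1 : ℝ) (τ : ℂ) ^ i) -
          cE2 i • Function.Periodic.qParam (1 : ℝ) (τ : ℂ) ^ i) := by
    funext n
    simp only [smul_eq_mul]
    ring
  rw [hfun]
  exact h3

/-- **`q`-expansion of `A_N`**: constant term `1`, and for `n ≥ 1` the coefficient
`24 / (N - 1) * (σ(n) - N σ(n / N))` (the second term only if `N ∣ n`). -/
theorem qExpansion_AN_coeff (hN : 2 ≤ N) (n : ℕ) :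
    (qExpansion 1 (AN N)).coeff n =
      if n = 0 then 1 else
        24 / ((N : ℂ) - 1) * ((ArithmeticFunction.sigma 1 n : ℂ) -
          N * (if N ∣ n then (ArithmeticFunction.sigma 1 (n / N) : ℂ) else 0)) := by
  rw [← ModularFormClass.qExpansion_coeff_unique one_pos
    (CongruenceSubgroup.one_mem_strictPeriods_Gamma0 N) (f := AN N) (hasSum_AN N) n]
  have hN1 : (N : ℂ) - 1 ≠ 0 := by
    have : (N : ℂ) ≠ 1 := by
      have : N ≠ 1 := by omega
      exact_mod_cast this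
    exact sub_ne_zero.mpr this
  by_cases hn : n = 0
  · subst hn
    simp only [dvd_zero, if_true, Nat.zero_div, cE2]
    field_simp
  · by_cases hd : N ∣ n
    · have hq : n / N ≠ 0 := by
        obtain ⟨t, rfl⟩ := hd
        rw [Nat.mul_div_cancel_left _ (Nat.pos_of_ne_zero (NeZero.ne N))]
        rintro rfl
        exact hn (mul_zero _)
      simp only [cE2, hn, hd, hq, if_true, if_false]
      field_simp
      ring
    · simp only [cE2, hn, hd, if_false]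
      field_simp
      ring

/-! ### `E₄`, `E₆` on `Γ₀(N)` -/

omit [NeZero N] in
theorem E4_coeff (m : ℕ) :
    (qExpansion 1 E₄).coeff m =
      if m = 0 then 1 else 240 * (ArithmeticFunction.sigma 3 m : ℂ) := by
  rw [E_qExpansion_coeff _ ⟨2, rfl⟩]
  split_ifs
  · rfl
  · norm_num [show bernoulli 4 = -1 / 30 by decide +kernel]

omit [NeZero N] in
theorem E6_coeff (m : ℕ) :
    (qExpansion 1 E₆).coeff m =
      if m = 0 then 1 else -504 * (ArithmeticFunction.sigma 5 m : ℂ) := by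
  rw [E_qExpansion_coeff _ ⟨3, rfl⟩]
  split_ifs
  · rfl
  · norm_num [show bernoulli 6 = 1 / 42 by decide +kernel]

/-- `E₄(z)` on `Γ₀(N)`. -/
def E4res : ModularForm (Gamma0 N) 4 := resForm N E₄
/-- `E₄(N z)` on `Γ₀(N)`. -/
def E4V : ModularForm (Gamma0 N) 4 := vForm N E₄
/-- `E₆(z)` on `Γ₀(N)`. -/
def E6res : ModularForm (Gamma0 N) 6 := resForm N E₆
/-- `E₆(N z)` on `Γ₀(N)`. -/
def E6V : ModularForm (Gamma0 N) 6 := vForm N E₆

theorem qExpansion_E4res_coeff (m : ℕ) :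
    (qExpansion 1 (E4res N)).coeff m =
      if m = 0 then 1 else 240 * (ArithmeticFunction.sigma 3 m : ℂ) := E4_coeff m

theorem qExpansion_E6res_coeff (m : ℕ) :
    (qExpansion 1 (E6res N)).coeff m =
      if m = 0 then 1 else -504 * (ArithmeticFunction.sigma 5 m : ℂ) := E6_coeff m

theorem qExpansion_E4V_coeff (m : ℕ) :
    (qExpansion 1 (E4V N)).coeff m =
      if N ∣ m then (if m / N = 0 then 1 else 240 * (ArithmeticFunction.sigma 3 (m / N) : ℂ))
      else 0 := by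
  rw [E4V, qExpansion_vForm_coeff, E4_coeff]

theorem qExpansion_E6V_coeff (m : ℕ) :
    (qExpansion 1 (E6V N)).coeff m =
      if N ∣ m then (if m / N = 0 then 1 else -504 * (ArithmeticFunction.sigma 5 (m / N) : ℂ))
      else 0 := by
  rw [E6V, qExpansion_vForm_coeff, E6_coeff]

end

end Fermat.Agent.S16Lib.EisLevel
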