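/-
S16 long shot, helper piece (helper3): the (I-Eis) interface statements in the shape of
`S16Lib.QDefs` (`ANser`, `E4ser`, `E6ser`, `Vop`).
-/
import Fermat.Agent.S16Lib.QDefs
import Fermat.Agent.S16Lib.EisLevel

set_option autoImplicit false

namespace Fermat.Agent.S16Lib.EisLevel

open UpperHalfPlane ModularForm CongruenceSubgroup MatrixGroups
open Fermat.Agent.S16Lib

noncomputable section

/-- the divisors of `n` split into those prime to... not divisible by `N` and the multiples
of `N`, which are `N` times the divisors of `n / N`. -/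
theorem sigPrime_add (N n : ℕ) (hN : 0 < N) (hn : n ≠ 0) :
    sigPrime N n + (if N ∣ n then N * ArithmeticFunction.sigma 1 (n / N) else 0) =
      ArithmeticFunction.sigma 1 n := by
  simp only [ArithmeticFunction.sigma_one_apply]
  rw [sigPrime, ← Finset.sum_filter_add_sum_filter_not n.divisors (fun d => ¬ N ∣ d)]
  congr 1
  simp only [not_not]
  split_ifs with h
  · obtain ⟨m, rfl⟩ := h
    have hm : m ≠ 0 := by
      rintro rfl
      simp at hn
    rw [Nat.mul_div_cancel_left _ hN, Finset.mul_sum]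
    refine Finset.sum_bij (fun d' _ => N * d') ?_ ?_ ?_ ?_
    · intro d' hd'
      rw [Nat.mem_divisors] at hd'
      rw [Finset.mem_filter, Nat.mem_divisors]
      exact ⟨⟨Nat.mul_dvd_mul_left N hd'.1, hn⟩, dvd_mul_right N d'⟩
    · intro a _ b _ hab
      exact Nat.eq_of_mul_eq_mul_left hN hab
    · intro d hd
      rw [Finset.mem_filter, Nat.mem_divisors] at hd
      obtain ⟨⟨hdn, _⟩, ⟨e, rfl⟩⟩ := hd
      exact ⟨e, Nat.mem_divisors.mpr ⟨(Nat.mul_dvd_mul_iff_left hN).mp hdn, hm⟩, rfl⟩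
    · intros
      rfl
  · symm
    apply Finset.sum_eq_zero
    intro d hd
    rw [Finset.mem_filter, Nat.mem_divisors] at hd
    exact absurd (hd.2.trans hd.1.1) h

theorem coeff_ANser (N n : ℕ) :
    PowerSeries.coeff n (ANser N) =
      if n = 0 then 1 else 24 / ((N : ℂ) - 1) * (sigPrime N n : ℂ) := by
  by_cases hn : n = 0
  · subst hn
    simp [ANser, sigPrimeSer]
  · simp [ANser, sigPrimeSer, hn, PowerSeries.coeff_one]

theorem coeff_E4ser (n : ℕ) :
    PowerSeries.coeff n E4ser =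
      if n = 0 then 1 else 240 * (ArithmeticFunction.sigma 3 n : ℂ) := by
  by_cases hn : n = 0
  · subst hn
    simp [E4ser, sigSer]
  · simp [E4ser, sigSer, hn, PowerSeries.coeff_one]

theorem coeff_E6ser (n : ℕ) :
    PowerSeries.coeff n E6ser =
      if n = 0 then 1 else -504 * (ArithmeticFunction.sigma 5 n : ℂ) := by
  by_cases hn : n = 0
  · subst hn
    simp [E6ser, sigSer]
  · simp [E6ser, sigSer, hn, PowerSeries.coeff_one]

theorem coeff_Vop (N : ℕ) (s : PowerSeries ℂ) (n : ℕ) :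
    PowerSeries.coeff n (Vop N s) = if N ∣ n then PowerSeries.coeff (n / N) s else 0 := by
  simp [Vop]

/-- **(I-Eis)** the `q`-expansion of `A_N` is `ANser N`. -/
theorem qExpansion_AN (N : ℕ) [NeZero N] (hN : 2 ≤ N) : qExpansion 1 (AN N) = ANser N := by
  ext n
  rw [qExpansion_AN_coeff N hN, coeff_ANser]
  by_cases hn : n = 0
  · simp [hn]
  · rw [if_neg hn, if_neg hn]
    congr 1
    have h := sigPrime_add N n (by omega) hn
    have h' : ((sigPrime N n : ℕ) : ℂ) +
        (if N ∣ n then (N : ℂ) * (ArithmeticFunction.sigma 1 (n / N) : ℂ) else 0) =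
          (ArithmeticFunction.sigma 1 n : ℂ) := by
      rw [← h]
      split_ifs <;> push_cast <;> ring
    rw [← h']
    split_ifs <;> ring

/-- **(I-Eis)** for every prime `N` (indeed every `N ≥ 2`). -/
theorem exists_AN (N : ℕ) (hN : N.Prime) :
    ∃ A : ModularForm (Gamma0 N) 2, qExpansion 1 A = ANser N :=
  haveI : NeZero N := ⟨hN.ne_zero⟩
  ⟨AN N, qExpansion_AN N hN.two_le⟩

theorem qExpansion_E4 : qExpansion 1 E₄ = E4ser := by
  ext n
  rw [E4_coeff, coeff_E4ser]

theorem qExpansion_E6 : qExpansion 1 E₆ = E6ser := by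
  ext n
  rw [E6_coeff, coeff_E6ser]

theorem qExpansion_E4res (N : ℕ) [NeZero N] : qExpansion 1 (E4res N) = E4ser := qExpansion_E4

theorem qExpansion_E6res (N : ℕ) [NeZero N] : qExpansion 1 (E6res N) = E6ser := qExpansion_E6

theorem qExpansion_vForm (N : ℕ) [NeZero N] {k : ℤ} (f : ModularForm 𝒮ℒ k) :
    qExpansion 1 (vForm N f) = Vop N (qExpansion 1 f) := by
  ext n
  rw [qExpansion_vForm_coeff, coeff_Vop]

theorem qExpansion_E4V (N : ℕ) [NeZero N] : qExpansion 1 (E4V N) = Vop N E4ser := by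
  rw [E4V, qExpansion_vForm, qExpansion_E4]

theorem qExpansion_E6V (N : ℕ) [NeZero N] : qExpansion 1 (E6V N) = Vop N E6ser := by
  rw [E6V, qExpansion_vForm, qExpansion_E6]

theorem exists_E4 (N : ℕ) [NeZero N] :
    ∃ E : ModularForm (Gamma0 N) 4, qExpansion 1 E = E4ser := ⟨E4res N, qExpansion_E4res N⟩

theorem exists_E6 (N : ℕ) [NeZero N] :
    ∃ E : ModularForm (Gamma0 N) 6, qExpansion 1 E = E6ser := ⟨E6res N, qExpansion_E6res N⟩

theorem exists_E4V (N : ℕ) [NeZero N] :
    ∃ E : ModularForm (Gamma0 N) 4, qExpansion 1 E = Vop N E4ser := ⟨E4V N, qExpansion_E4V N⟩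

theorem exists_E6V (N : ℕ) [NeZero N] :
    ∃ E : ModularForm (Gamma0 N) 6, qExpansion 1 E = Vop N E6ser := ⟨E6V N, qExpansion_E6V N⟩

end

end Fermat.Agent.S16Lib.EisLevel
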