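import Fermat.Agent.S16Lib.QDefs

/-!
# S16Lib.NormArith — the arithmetic of the norm argument (lead)

`RR r` is the subring of `ℂ` of numbers `x` such that `b * x` is an algebraic integer for some
`b` prime to `r`; `rR r = r • RR r`.  If a power series `P` is a combination of a triangular
integral family `m j` (`j ≤ J`) and `P(w^p)` is a product of `p + 1` series each congruent to
`eps • X(w^p)` modulo `rR`, with `X = q + ...` and `J < p + 1`, then `eps ^ (p+1) ∈ rR`.
-/

set_option autoImplicit false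

namespace Fermat.Agent.S16Lib.NormArith

open PowerSeries Finset Fermat.Agent.S16Lib

/-- Numbers `x` with `b * x` an algebraic integer for some `b` prime to `r`. -/
def RR (r : ℕ) : Subring ℂ where
  carrier := {x | ∃ b : ℕ, b.Coprime r ∧ IsIntegral ℤ ((b : ℂ) * x)}
  mul_mem' := by
    rintro x y ⟨b, hb, hx⟩ ⟨b', hb', hy⟩
    refine ⟨b * b', Nat.Coprime.mul_left hb hb', ?_⟩
    have : ((b * b' : ℕ) : ℂ) * (x * y) = ((b : ℂ) * x) * ((b' : ℂ) * y) := by push_cast; ring
    rw [this]; exact hx.mul hy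
  one_mem' := ⟨1, Nat.coprime_one_left r, by simpa using isIntegral_one⟩
  add_mem' := by
    rintro x y ⟨b, hb, hx⟩ ⟨b', hb', hy⟩
    refine ⟨b * b', Nat.Coprime.mul_left hb hb', ?_⟩
    have : ((b * b' : ℕ) : ℂ) * (x + y) = (b' : ℂ) * ((b : ℂ) * x) + (b : ℂ) * ((b' : ℂ) * y) := by
      push_cast; ring
    rw [this]
    have hb'i : IsIntegral ℤ ((b' : ℂ)) := by
      simpa using (isIntegral_algebraMap (R := ℤ) (A := ℂ) (x := (b' : ℤ)))
    have hbi : IsIntegral ℤ ((b : ℂ)) := by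
      simpa using (isIntegral_algebraMap (R := ℤ) (A := ℂ) (x := (b : ℤ)))
    exact (hb'i.mul hx).add (hbi.mul hy)
  zero_mem' := ⟨1, Nat.coprime_one_left r, by simpa using isIntegral_zero⟩
  neg_mem' := by
    rintro x ⟨b, hb, hx⟩
    refine ⟨b, hb, ?_⟩
    have : (b : ℂ) * (-x) = -((b : ℂ) * x) := by ring
    rw [this]; exact hx.neg

lemma int_mem_RR (r : ℕ) (z : ℤ) : (z : ℂ) ∈ RR r := by
  simpa using (RR r).intCast_mem z

lemma nat_mem_RR (r : ℕ) (n : ℕ) : (n : ℂ) ∈ RR r := by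
  simpa using (RR r).natCast_mem n

lemma rint_mem_RR {r : ℕ} {x : ℂ} (hx : RInt r x) (hr : r.Prime) : x ∈ RR r := by
  obtain ⟨a, b, hb0, hb, hab⟩ := hx
  refine ⟨b, (Nat.Coprime.symm ((Nat.Prime.coprime_iff_not_dvd hr).2 hb)), ?_⟩
  rw [hab]
  simpa using (isIntegral_algebraMap (R := ℤ) (A := ℂ) (x := a))

lemma isIntegral_mem_RR (r : ℕ) {x : ℂ} (hx : IsIntegral ℤ x) : x ∈ RR r :=
  ⟨1, Nat.coprime_one_left r, by simpa using hx⟩

/-- Inverse of a natural number prime to `r`. -/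
lemma inv_nat_mem_RR {r b : ℕ} (hb : b.Coprime r) (hb0 : b ≠ 0) : ((b : ℂ))⁻¹ ∈ RR r := by
  refine ⟨b, hb, ?_⟩
  have : (b : ℂ) * ((b : ℂ))⁻¹ = 1 := mul_inv_cancel₀ (by exact_mod_cast hb0)
  rw [this]; exact isIntegral_one

/-- `r • RR r` as an additive subgroup. -/
def rR (r : ℕ) : AddSubgroup ℂ where
  carrier := {x | ∃ y ∈ RR r, x = (r : ℂ) * y}
  add_mem' := by
    rintro x y ⟨a, ha, rfl⟩ ⟨b, hb, rfl⟩
    exact ⟨a + b, (RR r).add_mem ha hb, by ring⟩
  zero_mem' := ⟨0, (RR r).zero_mem, by ring⟩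
  neg_mem' := by
    rintro x ⟨a, ha, rfl⟩
    exact ⟨-a, (RR r).neg_mem ha, by ring⟩

lemma rR_mul_right {r : ℕ} {x y : ℂ} (hx : x ∈ rR r) (hy : y ∈ RR r) : x * y ∈ rR r := by
  obtain ⟨a, ha, rfl⟩ := hx
  exact ⟨a * y, (RR r).mul_mem ha hy, by ring⟩

lemma rR_mul_left {r : ℕ} {x y : ℂ} (hy : y ∈ RR r) (hx : x ∈ rR r) : y * x ∈ rR r := by
  rw [mul_comm]; exact rR_mul_right hx hy

lemma r_mul_mem_rR {r : ℕ} {y : ℂ} (hy : y ∈ RR r) : (r : ℂ) * y ∈ rR r := ⟨y, hy, rfl⟩

lemma rR_le_RR {r : ℕ} {x : ℂ} (hx : x ∈ rR r) : x ∈ RR r := by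
  obtain ⟨a, ha, rfl⟩ := hx
  exact (RR r).mul_mem (nat_mem_RR r r) ha

/-- `1 ∉ r • RR r` for a prime `r`. -/
lemma one_not_mem_rR {r : ℕ} (hr : r.Prime) : (1 : ℂ) ∉ rR r := by
  rintro ⟨y, ⟨b, hb, hy⟩, h1⟩
  have hr0 : (r : ℂ) ≠ 0 := by exact_mod_cast hr.ne_zero
  have hyv : y = ((r : ℂ))⁻¹ := by
    field_simp
    rw [mul_comm]; exact h1.symm
  have hq : (b : ℂ) * y = algebraMap ℚ ℂ ((b : ℚ) / (r : ℚ)) := by
    rw [hyv]; simp [div_eq_mul_inv]
  rw [hq] at hy
  have hy' : IsIntegral ℤ ((b : ℚ) / (r : ℚ)) :=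
    (isIntegral_algebraMap_iff (algebraMap ℚ ℂ).injective).1 hy
  obtain ⟨z, hz⟩ := IsIntegrallyClosed.isIntegral_iff.1 hy'
  have hrq : (r : ℚ) ≠ 0 := by exact_mod_cast hr.ne_zero
  have hbz : (b : ℚ) = (z : ℚ) * (r : ℚ) := by
    have : (algebraMap ℤ ℚ) z = (z : ℚ) := rfl
    rw [this] at hz
    field_simp at hz
    linarith
  have hbz' : (b : ℤ) = z * (r : ℤ) := by exact_mod_cast hbz
  have hdvd : (r : ℤ) ∣ (b : ℤ) := ⟨z, by rw [hbz']; ring⟩
  have hdvd' : r ∣ b := by exact_mod_cast hdvd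
  have := Nat.Coprime.eq_one_of_dvd (Nat.Coprime.symm hb) hdvd'
  exact hr.one_lt.ne' this

/-- An integer prime to `r` is not in `r • RR r`. -/
lemma int_not_mem_rR {r : ℕ} (hr : r.Prime) {u : ℤ} (hu : IsCoprime u (r : ℤ)) :
    (u : ℂ) ∉ rR r := by
  intro h
  obtain ⟨s, t, hst⟩ := hu
  apply one_not_mem_rR hr
  have h1 : (1 : ℂ) = (s : ℂ) * (u : ℂ) + (r : ℂ) * (t : ℂ) := by
    have := congrArg (fun z : ℤ => (z : ℂ)) hst
    push_cast at this
    rw [← this]; ring
  rw [h1]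
  exact (rR r).add_mem (rR_mul_left (int_mem_RR r s) h) (r_mul_mem_rR (int_mem_RR r t))

/-- Integrality of a power series. -/
def IntS (r : ℕ) (s : PowerSeries ℂ) : Prop := ∀ n, coeff n s ∈ RR r

/-- Congruence of power series modulo `r • RR r`. -/
def CongS (r : ℕ) (s t : PowerSeries ℂ) : Prop := ∀ n, coeff n s - coeff n t ∈ rR r

lemma IntS.mul {r : ℕ} {s t : PowerSeries ℂ} (hs : IntS r s) (ht : IntS r t) : IntS r (s * t) := by
  intro n
  rw [coeff_mul]
  exact (RR r).sum_mem fun x _ => (RR r).mul_mem (hs _) (ht _)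

lemma IntS.prod {r : ℕ} {ι : Type*} (S : Finset ι) (s : ι → PowerSeries ℂ)
    (hs : ∀ j ∈ S, IntS r (s j)) : IntS r (∏ j ∈ S, s j) := by
  classical
  induction S using Finset.induction_on with
  | empty =>
    intro n
    simp only [Finset.prod_empty, coeff_one]
    split_ifs
    · exact (RR r).one_mem
    · exact (RR r).zero_mem
  | insert a S ha ih =>
    rw [Finset.prod_insert ha]
    exact IntS.mul (hs a (Finset.mem_insert_self a S))
      (ih fun j hj => hs j (Finset.mem_insert_of_mem hj))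

lemma CongS.mul {r : ℕ} {s s' t t' : PowerSeries ℂ} (hs' : IntS r s') (ht : IntS r t)
    (h : CongS r s t) (h' : CongS r s' t') : CongS r (s * s') (t * t') := by
  intro n
  rw [coeff_mul, coeff_mul, ← Finset.sum_sub_distrib]
  refine (rR r).sum_mem fun x _ => ?_
  have : coeff x.1 s * coeff x.2 s' - coeff x.1 t * coeff x.2 t'
      = (coeff x.1 s - coeff x.1 t) * coeff x.2 s' + coeff x.1 t * (coeff x.2 s' - coeff x.2 t') := by
    ring
  rw [this]
  exact (rR r).add_mem (rR_mul_right (h _) (hs' _)) (rR_mul_left (ht _) (h' _))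

lemma CongS.prod {r : ℕ} {ι : Type*} (S : Finset ι) (s t : ι → PowerSeries ℂ)
    (hs : ∀ j ∈ S, IntS r (s j)) (ht : ∀ j ∈ S, IntS r (t j))
    (h : ∀ j ∈ S, CongS r (s j) (t j)) : CongS r (∏ j ∈ S, s j) (∏ j ∈ S, t j) := by
  classical
  induction S using Finset.induction_on with
  | empty => intro n; simp
  | insert a S ha ih =>
    rw [Finset.prod_insert ha, Finset.prod_insert ha]
    exact CongS.mul
      (IntS.prod S s fun j hj => hs j (Finset.mem_insert_of_mem hj))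
      (ht a (Finset.mem_insert_self a S))
      (h a (Finset.mem_insert_self a S))
      (ih (fun j hj => hs j (Finset.mem_insert_of_mem hj))
        (fun j hj => ht j (Finset.mem_insert_of_mem hj))
        (fun j hj => h j (Finset.mem_insert_of_mem hj)))


/-- `Vop p P` at a multiple of `p`. -/
lemma coeff_Vop_mul {p : ℕ} (hp : 0 < p) (P : PowerSeries ℂ) (i : ℕ) :
    coeff (p * i) (Vop p P) = coeff i P := by
  unfold Vop
  rw [coeff_mk, if_pos (Dvd.intro i rfl), Nat.mul_div_cancel_left i hp]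

lemma coeff_Vop_of_not_dvd {p : ℕ} (P : PowerSeries ℂ) {n : ℕ} (h : ¬ p ∣ n) :
    coeff n (Vop p P) = 0 := by
  unfold Vop
  rw [coeff_mk, if_neg h]

/-- The coefficients of `(eps • Vop p X)^m` for `X = q + ...`. -/
lemma coeff_pow_vop {p : ℕ} (hp : 0 < p) (X : PowerSeries ℂ) (hX0 : coeff 0 X = 0)
    (hX1 : coeff 1 X = 1) (eps : ℂ) (m : ℕ) :
    (∀ n, n < p * m → coeff n ((eps • Vop p X) ^ m) = 0) ∧
      coeff (p * m) ((eps • Vop p X) ^ m) = eps ^ m := by
  set u : PowerSeries ℂ := PowerSeries.mk fun n => coeff (n + p) (Vop p X) with hu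
  have hfac : Vop p X = (PowerSeries.X : PowerSeries ℂ) ^ p * u := by
    ext n
    rw [coeff_X_pow_mul']
    split_ifs with h
    · rw [hu, coeff_mk, Nat.sub_add_cancel h]
    · have h' : n < p := Nat.lt_of_not_le h
      unfold Vop
      rw [coeff_mk]
      split_ifs with hd
      · have : n = 0 := Nat.eq_zero_of_dvd_of_lt hd h'
        subst this
        simpa using hX0
      · rfl
  have hu0 : coeff 0 u = 1 := by
    rw [hu, coeff_mk, zero_add]
    have := coeff_Vop_mul hp X 1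
    rw [mul_one] at this
    rw [this, hX1]
  have hpow : (eps • Vop p X) ^ m
      = eps ^ m • ((PowerSeries.X : PowerSeries ℂ) ^ (p * m) * u ^ m) := by
    rw [hfac, smul_pow, mul_pow, ← pow_mul]
  have hu0' : coeff 0 (u ^ m) = 1 := by
    rw [coeff_zero_eq_constantCoeff_apply, map_pow, ← coeff_zero_eq_constantCoeff_apply, hu0,
      one_pow]
  constructor
  · intro n hn
    rw [hpow, coeff_smul, coeff_X_pow_mul', if_neg (by omega), smul_zero]
  · rw [hpow, coeff_smul, coeff_X_pow_mul', if_pos le_rfl, Nat.sub_self, hu0', smul_eq_mul,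
      mul_one]

/-- **The norm contradiction.**  If `P(w^p)` is a product of `m` series, each congruent to
`eps • X(w^p)` modulo `r • RR r` (`X = q + ...`), and `P` satisfies a Sturm bound `J < m`
modulo `r • RR r`, then `eps ^ m ∈ r • RR r`. -/
theorem norm_contra {r p m : ℕ} (hp : 0 < p) {J : ℕ} (hJ : J < m)
    (X : PowerSeries ℂ) (hX0 : coeff 0 X = 0) (hX1 : coeff 1 X = 1) (hXint : IntS r X)
    (eps : ℂ) (heps : eps ∈ RR r) (hepsne : eps ^ m ∉ rR r)
    (t : Fin m → PowerSeries ℂ) (hti : ∀ i, IntS r (t i))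
    (ht : ∀ i, CongS r (t i) (eps • Vop p X))
    (P : PowerSeries ℂ)
    (hprod : ∀ n, coeff n (∏ i, t i) = if p ∣ n then coeff (n / p) P else 0)
    (hsturm : (∀ n ≤ J, coeff n P ∈ rR r) → ∀ n, coeff n P ∈ rR r) : False := by
  -- integrality of the target factor
  have htint : IntS r (eps • Vop p X) := by
    intro n
    rw [coeff_smul, smul_eq_mul]
    refine (RR r).mul_mem heps ?_
    unfold Vop
    rw [coeff_mk]
    split_ifs
    · exact hXint _
    · exact (RR r).zero_mem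
  -- the product congruence
  have hcong : CongS r (∏ i, t i) ((eps • Vop p X) ^ m) := by
    have h1 : (eps • Vop p X) ^ m = ∏ _i : Fin m, (eps • Vop p X) := by
      rw [Finset.prod_const, Finset.card_univ, Fintype.card_fin]
    rw [h1]
    exact CongS.prod _ _ _ (fun i _ => hti i) (fun _ _ => htint) (fun i _ => ht i)
  obtain ⟨hlow, htop⟩ := coeff_pow_vop hp X hX0 hX1 eps m
  have hP : ∀ i, coeff (p * i) (∏ i, t i) = coeff i P := by
    intro i
    rw [hprod, if_pos (Dvd.intro i rfl), Nat.mul_div_cancel_left i hp]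
  -- low coefficients of `P`
  have hPlow : ∀ i, i ≤ J → coeff i P ∈ rR r := by
    intro i hi
    have h := hcong (p * i)
    rw [hP, hlow (p * i) (Nat.mul_lt_mul_of_pos_left (by omega) hp), sub_zero] at h
    exact h
  have hPtop : coeff m P - eps ^ m ∈ rR r := by
    have h := hcong (p * m)
    rwa [hP, htop] at h
  apply hepsne
  have h := (rR r).sub_mem (hsturm hPlow m) hPtop
  simpa using h

end Fermat.Agent.S16Lib.NormArith
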