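import Fermat.Agent.S16Lib.NormArith

/-!
# S16Lib.NormCases — the norm argument for `F ≡ 1 mod M`, `p ≡ -1 mod M` (lead)

Abstract form: `f` is the `q`-expansion of `F`, `a = 1 + cA ∑ σ^{(N')}(n) q^n` that of the
Eisenstein series of level `N'`, and the factors `t i` of the norm of `lam • (F - A)` are either
`lam • (f - a)(w^p)` or `-(lam/p) • g(ζ w) - lam • a(w^p)`.
-/

set_option autoImplicit false

namespace Fermat.Agent.S16Lib.NormCases

open PowerSeries Finset Fermat.Agent.S16Lib Fermat.Agent.S16Lib.NormArith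

lemma coeff_sigPrimeSer_zero (N : ℕ) : coeff 0 (sigPrimeSer N) = 0 := by
  unfold sigPrimeSer; rw [coeff_mk]; simp

lemma coeff_sigPrimeSer (N : ℕ) {n : ℕ} (hn : 1 ≤ n) :
    coeff n (sigPrimeSer N) = (sigPrime N n : ℂ) := by
  unfold sigPrimeSer; rw [coeff_mk, if_neg (by omega)]

lemma intS_sigPrimeSer (r N : ℕ) : IntS r (sigPrimeSer N) := by
  intro n
  unfold sigPrimeSer
  rw [coeff_mk]
  split_ifs
  · exact (RR r).zero_mem
  · exact nat_mem_RR r _

lemma root_pow_mem_RR (r : ℕ) {p : ℕ} (hp : 0 < p) {ζ : ℂ} (hζ : ζ ^ p = 1) (n : ℕ) :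
    ζ ^ n ∈ RR r := by
  have h1 : IsIntegral ℤ ζ := IsIntegral.of_pow hp (by rw [hζ]; exact isIntegral_one)
  exact isIntegral_mem_RR r (h1.pow n)

theorem norm_case {r p : ℕ} (hr : r.Prime) (hp : p.Prime) (hpr : p ≠ r) (M : ℕ)
    (cA lam eps : ℂ) (N' : ℕ) (f a : PowerSeries ℂ)
    (ha0 : coeff 0 a = 1) (ha : ∀ n, 1 ≤ n → coeff n a = cA * (sigPrime N' n : ℂ))
    (hN'1 : sigPrime N' 1 = 1)
    (d : ℕ) (hd : d.Coprime r) (hf0 : coeff 0 f = 1)
    (hf : ∀ k, 1 ≤ k → ∃ z : ℤ, (d : ℂ) * coeff k f = (M : ℂ) * z)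
    (hlamM : lam * (M : ℂ) ∈ rR r) (hlamp : lam * ((p : ℂ) + 1) ∈ rR r)
    (hmuc : lam * cA + eps ∈ rR r) (hmucR : lam * cA ∈ RR r) (heps : eps ∈ RR r)
    (m : ℕ) (J : ℕ) (hJ : J < m) (hepsne : eps ^ m ∉ rR r)
    (P : PowerSeries ℂ) (t : Fin m → PowerSeries ℂ)
    (ht : ∀ i, (∀ n, coeff n (t i)
            = if p ∣ n then lam * coeff (n / p) f - lam * coeff (n / p) a else 0) ∨
          (∃ ζ : ℂ, ζ ^ p = 1 ∧ ∀ n, coeff n (t i)
            = -(lam / p) * ζ ^ n * coeff (p * n) f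
              - lam * (if p ∣ n then coeff (n / p) a else 0)))
    (hprod : ∀ n, coeff n (∏ i, t i) = if p ∣ n then coeff (n / p) P else 0)
    (hsturm : (∀ n ≤ J, coeff n P ∈ rR r) → ∀ n, coeff n P ∈ rR r) : False := by
  have hd0 : d ≠ 0 := by
    rintro rfl
    rw [Nat.coprime_zero_left] at hd
    exact hr.one_lt.ne' hd
  have hdC : (d : ℂ) ≠ 0 := by exact_mod_cast hd0
  have hpC : (p : ℂ) ≠ 0 := by exact_mod_cast hp.ne_zero
  have hpinv : ((p : ℂ))⁻¹ ∈ RR r :=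
    inv_nat_mem_RR ((Nat.coprime_primes hp hr).2 hpr) hp.ne_zero
  have hdinv : ((d : ℂ))⁻¹ ∈ RR r := inv_nat_mem_RR hd hd0
  -- (K1)
  have K1 : ∀ k, 1 ≤ k → lam * coeff k f ∈ rR r := by
    intro k hk
    obtain ⟨z, hz⟩ := hf k hk
    have : coeff k f = (M : ℂ) * z * ((d : ℂ))⁻¹ := by
      field_simp
      rw [mul_comm]; exact hz
    rw [this]
    have h2 : lam * ((M : ℂ) * z * ((d : ℂ))⁻¹) = (lam * (M : ℂ)) * ((z : ℂ) * ((d : ℂ))⁻¹) := by
      ring
    rw [h2]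
    exact rR_mul_right hlamM ((RR r).mul_mem (int_mem_RR r z) hdinv)
  have hX0 := coeff_sigPrimeSer_zero N'
  have hX1 : coeff 1 (sigPrimeSer N') = 1 := by
    rw [coeff_sigPrimeSer N' le_rfl, hN'1]; simp
  -- coefficients of the target
  have htgt : ∀ n, coeff n (eps • Vop p (sigPrimeSer N'))
      = if p ∣ n then eps * coeff (n / p) (sigPrimeSer N') else 0 := by
    intro n
    rw [coeff_smul, smul_eq_mul]
    unfold Vop
    rw [coeff_mk]
    split_ifs <;> simp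
  -- the two basic memberships: difference and integrality for the "A-part"
  have hApart : ∀ j, lam * coeff j f - lam * coeff j a - eps * coeff j (sigPrimeSer N') ∈ rR r := by
    intro j
    rcases Nat.eq_zero_or_pos j with rfl | hj
    · rw [hf0, ha0, hX0]; simp
    · rw [ha j hj, coeff_sigPrimeSer N' hj]
      have : lam * coeff j f - lam * (cA * (sigPrime N' j : ℂ)) - eps * (sigPrime N' j : ℂ)
          = lam * coeff j f - (lam * cA + eps) * (sigPrime N' j : ℂ) := by ring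
      rw [this]
      exact (rR r).sub_mem (K1 j hj) (rR_mul_right hmuc (nat_mem_RR r _))
  have hAint : ∀ j, lam * coeff j f - lam * coeff j a ∈ RR r := by
    intro j
    rcases Nat.eq_zero_or_pos j with rfl | hj
    · rw [hf0, ha0]; simp
    · rw [ha j hj]
      have : lam * (cA * (sigPrime N' j : ℂ)) = (lam * cA) * (sigPrime N' j : ℂ) := by ring
      rw [this]
      exact (RR r).sub_mem (rR_le_RR (K1 j hj)) ((RR r).mul_mem hmucR (nat_mem_RR r _))
  have hAonly : ∀ j, 1 ≤ j → lam * coeff j a + eps * coeff j (sigPrimeSer N') ∈ rR r := by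
    intro j hj
    rw [ha j hj, coeff_sigPrimeSer N' hj]
    have : lam * (cA * (sigPrime N' j : ℂ)) + eps * (sigPrime N' j : ℂ)
        = (lam * cA + eps) * (sigPrime N' j : ℂ) := by ring
    rw [this]
    exact rR_mul_right hmuc (nat_mem_RR r _)
  have hAonlyInt : ∀ j, 1 ≤ j → lam * coeff j a ∈ RR r := by
    intro j hj
    rw [ha j hj]
    have : lam * (cA * (sigPrime N' j : ℂ)) = (lam * cA) * (sigPrime N' j : ℂ) := by ring
    rw [this]
    exact (RR r).mul_mem hmucR (nat_mem_RR r _)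
  -- the ζ-part: `-(lam/p) ζ^n f_{pn}`
  have hZ : ∀ (ζ : ℂ), ζ ^ p = 1 → ∀ n, 1 ≤ n →
      -(lam / p) * ζ ^ n * coeff (p * n) f ∈ rR r := by
    intro ζ hζ n hn
    have h1 := K1 (p * n) (Nat.mul_pos hp.pos hn)
    have : -(lam / p) * ζ ^ n * coeff (p * n) f
        = (lam * coeff (p * n) f) * (-(ζ ^ n * ((p : ℂ))⁻¹)) := by
      field_simp
    rw [this]
    exact rR_mul_right h1 ((RR r).neg_mem ((RR r).mul_mem (root_pow_mem_RR r hp.pos hζ n) hpinv))
  have hZ0 : -(lam / p) - lam ∈ rR r := by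
    have : -(lam / p) - lam = (lam * ((p : ℂ) + 1)) * (-((p : ℂ))⁻¹) := by
      field_simp
      ring
    rw [this]
    exact rR_mul_right hlamp ((RR r).neg_mem hpinv)
  -- difference and integrality for each factor
  have hboth : ∀ i, IntS r (t i) ∧ CongS r (t i) (eps • Vop p (sigPrimeSer N')) := by
    intro i
    rcases ht i with h | ⟨ζ, hζ, h⟩
    · constructor
      · intro n
        rw [h n]
        split_ifs
        · exact hAint _
        · exact (RR r).zero_mem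
      · intro n
        rw [h n, htgt n]
        split_ifs
        · exact hApart _
        · simp
    · -- the ζ-type factor
      have hdiff : ∀ n, coeff n (t i) - coeff n (eps • Vop p (sigPrimeSer N')) ∈ rR r := by
        intro n
        rw [h n, htgt n]
        rcases Nat.eq_zero_or_pos n with rfl | hn
        · simp only [pow_zero, mul_one, mul_zero, dvd_zero, if_true, Nat.zero_div]
          rw [hf0, ha0, hX0]
          simpa using hZ0
        · by_cases hpn : p ∣ n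
          · rw [if_pos hpn, if_pos hpn]
            have hj : 1 ≤ n / p := Nat.div_pos (Nat.le_of_dvd hn hpn) hp.pos
            have : -(lam / p) * ζ ^ n * coeff (p * n) f - lam * coeff (n / p) a
                  - eps * coeff (n / p) (sigPrimeSer N')
                = -(lam / p) * ζ ^ n * coeff (p * n) f
                  - (lam * coeff (n / p) a + eps * coeff (n / p) (sigPrimeSer N')) := by ring
            rw [this]
            exact (rR r).sub_mem (hZ ζ hζ n hn) (hAonly _ hj)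
          · rw [if_neg hpn, if_neg hpn]
            simpa using hZ ζ hζ n hn
      constructor
      · intro n
        have h1 := hdiff n
        have h2 : coeff n (eps • Vop p (sigPrimeSer N')) ∈ RR r := by
          rw [htgt n]
          split_ifs
          · exact (RR r).mul_mem heps (intS_sigPrimeSer r N' _)
          · exact (RR r).zero_mem
        have := (RR r).add_mem (rR_le_RR h1) h2
        simpa using this
      · exact hdiff
  exact norm_contra hp.pos hJ (sigPrimeSer N') hX0 hX1 (intS_sigPrimeSer r N') eps heps hepsne t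
    (fun i => (hboth i).1) (fun i => (hboth i).2) P hprod hsturm


lemma sigPrime_two_one : sigPrime 2 1 = 1 := by decide

lemma sigPrime_three_one : sigPrime 3 1 = 1 := by decide

/-- `r = 2`, `M = 8`, `p ≡ 7 mod 8`, auxiliary level `3` (`a = 1 + 12 ∑ σ^{(3)}(n) q^n`),
`lam = 1/4`. -/
theorem norm_case_two {p : ℕ} (hp : p.Prime) (hp8 : p % 8 = 7) (f a : PowerSeries ℂ)
    (ha0 : coeff 0 a = 1) (ha : ∀ n, 1 ≤ n → coeff n a = (12 : ℂ) * (sigPrime 3 n : ℂ))
    (d : ℕ) (hd : d.Coprime 2) (hf0 : coeff 0 f = 1)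
    (hf : ∀ k, 1 ≤ k → ∃ z : ℤ, (d : ℂ) * coeff k f = ((8 : ℕ) : ℂ) * z)
    (m : ℕ) (J : ℕ) (hJ : J < m)
    (P : PowerSeries ℂ) (t : Fin m → PowerSeries ℂ)
    (ht : ∀ i, (∀ n, coeff n (t i)
            = if p ∣ n then (1 / 4 : ℂ) * coeff (n / p) f - (1 / 4 : ℂ) * coeff (n / p) a else 0) ∨
          (∃ ζ : ℂ, ζ ^ p = 1 ∧ ∀ n, coeff n (t i)
            = -((1 / 4 : ℂ) / p) * ζ ^ n * coeff (p * n) f
              - (1 / 4 : ℂ) * (if p ∣ n then coeff (n / p) a else 0)))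
    (hprod : ∀ n, coeff n (∏ i, t i) = if p ∣ n then coeff (n / p) P else 0)
    (hsturm : (∀ n ≤ J, coeff n P ∈ rR 2) → ∀ n, coeff n P ∈ rR 2) : False := by
  have hp2 : p ≠ 2 := by rintro rfl; omega
  have hpk : (p : ℂ) + 1 = 8 * (((p / 8 : ℕ) : ℂ) + 1) := by
    have h := Nat.div_add_mod p 8
    rw [hp8] at h
    have h' : (p : ℂ) = 8 * ((p / 8 : ℕ) : ℂ) + 7 := by exact_mod_cast h.symm
    rw [h']; ring
  refine norm_case Nat.prime_two hp hp2 8 12 (1 / 4) 1 3 f a ha0 ha sigPrime_three_one d hd hf0 hf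
    ?_ ?_ ?_ ?_ (RR 2).one_mem m J hJ ?_ P t ht hprod hsturm
  · exact ⟨1, (RR 2).one_mem, by push_cast; norm_num⟩
  · refine ⟨((p / 8 : ℕ) : ℂ) + 1, (RR 2).add_mem (nat_mem_RR 2 _) (RR 2).one_mem, ?_⟩
    rw [hpk]; push_cast; ring
  · exact ⟨2, by simpa using nat_mem_RR 2 2, by push_cast; norm_num⟩
  · have : (1 / 4 : ℂ) * 12 = ((3 : ℕ) : ℂ) := by push_cast; norm_num
    rw [this]; exact nat_mem_RR 2 3
  · rw [one_pow]; exact one_not_mem_rR Nat.prime_two

/-- `r = 3`, `M = 9`, `p ≡ 8 mod 9`, auxiliary level `2` (`a = 1 + 24 ∑ σ^{(2)}(n) q^n`),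
`lam = 1/3`. -/
theorem norm_case_three {p : ℕ} (hp : p.Prime) (hp9 : p % 9 = 8) (f a : PowerSeries ℂ)
    (ha0 : coeff 0 a = 1) (ha : ∀ n, 1 ≤ n → coeff n a = (24 : ℂ) * (sigPrime 2 n : ℂ))
    (d : ℕ) (hd : d.Coprime 3) (hf0 : coeff 0 f = 1)
    (hf : ∀ k, 1 ≤ k → ∃ z : ℤ, (d : ℂ) * coeff k f = ((9 : ℕ) : ℂ) * z)
    (m : ℕ) (J : ℕ) (hJ : J < m)
    (P : PowerSeries ℂ) (t : Fin m → PowerSeries ℂ)
    (ht : ∀ i, (∀ n, coeff n (t i)
            = if p ∣ n then (1 / 3 : ℂ) * coeff (n / p) f - (1 / 3 : ℂ) * coeff (n / p) a else 0) ∨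
          (∃ ζ : ℂ, ζ ^ p = 1 ∧ ∀ n, coeff n (t i)
            = -((1 / 3 : ℂ) / p) * ζ ^ n * coeff (p * n) f
              - (1 / 3 : ℂ) * (if p ∣ n then coeff (n / p) a else 0)))
    (hprod : ∀ n, coeff n (∏ i, t i) = if p ∣ n then coeff (n / p) P else 0)
    (hsturm : (∀ n ≤ J, coeff n P ∈ rR 3) → ∀ n, coeff n P ∈ rR 3) : False := by
  have hp3 : p ≠ 3 := by rintro rfl; omega
  have hpk : (p : ℂ) + 1 = 9 * (((p / 9 : ℕ) : ℂ) + 1) := by
    have h := Nat.div_add_mod p 9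
    rw [hp9] at h
    have h' : (p : ℂ) = 9 * ((p / 9 : ℕ) : ℂ) + 8 := by exact_mod_cast h.symm
    rw [h']; ring
  refine norm_case Nat.prime_three hp hp3 9 24 (1 / 3) 1 2 f a ha0 ha sigPrime_two_one d hd hf0 hf
    ?_ ?_ ?_ ?_ (RR 3).one_mem m J hJ ?_ P t ht hprod hsturm
  · exact ⟨1, (RR 3).one_mem, by push_cast; norm_num⟩
  · refine ⟨((p / 9 : ℕ) : ℂ) + 1, (RR 3).add_mem (nat_mem_RR 3 _) (RR 3).one_mem, ?_⟩
    rw [hpk]; push_cast; ring
  · exact ⟨3, by simpa using nat_mem_RR 3 3, by push_cast; norm_num⟩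
  · have : (1 / 3 : ℂ) * 24 = ((8 : ℕ) : ℂ) := by push_cast; norm_num
    rw [this]; exact nat_mem_RR 3 8
  · rw [one_pow]; exact one_not_mem_rR Nat.prime_three

/-- `r ≥ 5`, `M = r`, `p ≡ -1 mod r`, auxiliary level `2`, `lam = 1`, `eps = -24`. -/
theorem norm_case_big {r p : ℕ} (hr : r.Prime) (hr5 : 5 ≤ r) (hp : p.Prime) (hpr : r ∣ p + 1)
    (f a : PowerSeries ℂ)
    (ha0 : coeff 0 a = 1) (ha : ∀ n, 1 ≤ n → coeff n a = (24 : ℂ) * (sigPrime 2 n : ℂ))
    (d : ℕ) (hd : d.Coprime r) (hf0 : coeff 0 f = 1)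
    (hf : ∀ k, 1 ≤ k → ∃ z : ℤ, (d : ℂ) * coeff k f = (r : ℂ) * z)
    (m : ℕ) (J : ℕ) (hJ : J < m)
    (P : PowerSeries ℂ) (t : Fin m → PowerSeries ℂ)
    (ht : ∀ i, (∀ n, coeff n (t i)
            = if p ∣ n then (1 : ℂ) * coeff (n / p) f - (1 : ℂ) * coeff (n / p) a else 0) ∨
          (∃ ζ : ℂ, ζ ^ p = 1 ∧ ∀ n, coeff n (t i)
            = -((1 : ℂ) / p) * ζ ^ n * coeff (p * n) f
              - (1 : ℂ) * (if p ∣ n then coeff (n / p) a else 0)))
    (hprod : ∀ n, coeff n (∏ i, t i) = if p ∣ n then coeff (n / p) P else 0)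
    (hsturm : (∀ n ≤ J, coeff n P ∈ rR r) → ∀ n, coeff n P ∈ rR r) : False := by
  have hpr' : p ≠ r := by
    rintro rfl
    have : p ∣ 1 := (Nat.dvd_add_right (dvd_refl p)).1 hpr
    exact hp.one_lt.ne' (Nat.dvd_one.1 this)
  obtain ⟨k, hk⟩ := hpr
  have hpk : (p : ℂ) + 1 = (r : ℂ) * (k : ℂ) := by exact_mod_cast hk
  have hcop : IsCoprime ((-24 : ℤ) ^ m) (r : ℤ) := by
    apply IsCoprime.pow_left
    rw [IsCoprime.neg_left_iff]
    have h24 : Nat.Coprime 24 r := by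
      rw [Nat.coprime_comm, Nat.Prime.coprime_iff_not_dvd hr]
      intro h
      have h1 : r ∣ 2 ^ 3 * 3 := by simpa using h
      rcases (Nat.Prime.dvd_mul hr).1 h1 with h2 | h3
      · have := Nat.Prime.dvd_of_dvd_pow hr h2
        have := Nat.le_of_dvd (by norm_num) this
        omega
      · have := Nat.le_of_dvd (by norm_num) h3
        omega
    exact_mod_cast Nat.isCoprime_iff_coprime.2 h24
  refine norm_case hr hp hpr' r 24 1 (-24) 2 f a ha0 ha sigPrime_two_one d hd hf0 hf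
    ?_ ?_ ?_ ?_ ?_ m J hJ ?_ P t ht hprod hsturm
  · exact ⟨1, (RR r).one_mem, by ring⟩
  · refine ⟨(k : ℂ), nat_mem_RR r k, ?_⟩
    rw [one_mul, hpk]
  · have : (1 : ℂ) * 24 + -24 = 0 := by norm_num
    rw [this]; exact (rR r).zero_mem
  · have : (1 : ℂ) * 24 = ((24 : ℕ) : ℂ) := by push_cast; norm_num
    rw [this]; exact nat_mem_RR r 24
  · have : (-24 : ℂ) = ((-24 : ℤ) : ℂ) := by push_cast; rfl
    rw [this]; exact int_mem_RR r (-24)
  · have : (-24 : ℂ) ^ m = (((-24 : ℤ) ^ m : ℤ) : ℂ) := by push_cast; rfl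
    rw [this]; exact int_not_mem_rR hr hcop

end Fermat.Agent.S16Lib.NormCases
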