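import Mathlib

set_option autoImplicit false
set_option linter.unusedSectionVars false

namespace Fermat.Agent.S16Lib.Trace

open UpperHalfPlane ModularForm ModularGroup CongruenceSubgroup Function
open scoped MatrixGroups ModularForm Manifold

variable {p : ℕ} [Fact p.Prime] {k : ℤ}

theorem slash_Gamma0 (F : ModularForm (Gamma0 p) k) (g : SL(2, ℤ)) (hg : g ∈ Gamma0 p) :
    (⇑F) ∣[k] g = ⇑F := by
  rw [SL_slash]
  exact SlashInvariantForm.slash_action_eqn F _ (Subgroup.mem_map_of_mem _ hg)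

theorem slash_eq_of_row (F : ModularForm (Gamma0 p) k) (γ δ : SL(2, ℤ))
    (h : ((γ 1 0 * δ 1 1 - γ 1 1 * δ 1 0 : ℤ) : ZMod p) = 0) :
    (⇑F) ∣[k] γ = (⇑F) ∣[k] δ := by
  have hmem : γ * δ⁻¹ ∈ Gamma0 p := by
    rw [Gamma0_mem]
    have : (γ * δ⁻¹) 1 0 = γ 1 0 * δ 1 1 - γ 1 1 * δ 1 0 := by
      simp [Matrix.SpecialLinearGroup.coe_mul, Matrix.mul_apply, Fin.sum_univ_two,
        Matrix.SpecialLinearGroup.coe_inv, Matrix.adjugate_fin_two]
      ring
    rw [this]; exact h
  have h1 := slash_Gamma0 F _ hmem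
  calc (⇑F) ∣[k] γ = (⇑F) ∣[k] (γ * δ⁻¹ * δ) := by simp
    _ = ((⇑F) ∣[k] (γ * δ⁻¹)) ∣[k] δ := SlashAction.slash_mul ..
    _ = (⇑F) ∣[k] δ := by rw [h1]

/-- the translates `F ∣ S T^x`, indexed by `x : ZMod p` -/
noncomputable def psi (F : ModularForm (Gamma0 p) k) (x : ZMod p) : ℍ → ℂ :=
  (⇑F) ∣[k] (S * T ^ (x.val : ℤ))

theorem ST_row (m : ℤ) : (S * T ^ m) 1 0 = 1 ∧ (S * T ^ m) 1 1 = m := by
  simp [Matrix.SpecialLinearGroup.coe_mul, Matrix.mul_apply, Fin.sum_univ_two, coe_T_zpow, S]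

theorem STS_row (m : ℤ) : (S * T ^ m * S) 1 0 = m ∧ (S * T ^ m * S) 1 1 = -1 := by
  simp [Matrix.SpecialLinearGroup.coe_mul, Matrix.mul_apply, Fin.sum_univ_two, coe_T_zpow, S]

theorem slash_ST (F : ModularForm (Gamma0 p) k) (m : ℤ) :
    (⇑F) ∣[k] (S * T ^ m) = psi F (m : ZMod p) := by
  unfold psi
  apply slash_eq_of_row
  rw [(ST_row m).1, (ST_row m).2, (ST_row _).1, (ST_row _).2]
  simp

/-- the trace of `F` to level one, as a function -/
noncomputable def traceFun (F : ModularForm (Gamma0 p) k) : ℍ → ℂ :=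
  ⇑F + ∑ x : ZMod p, psi F x

theorem traceFun_T (F : ModularForm (Gamma0 p) k) : traceFun F ∣[k] T = traceFun F := by
  unfold traceFun
  rw [SlashAction.add_slash, SlashAction.sum_slash]
  have h0 : (⇑F) ∣[k] T = ⇑F := slash_Gamma0 F T (by rw [Gamma0_mem]; simp [T])
  have h1 : ∀ x : ZMod p, psi F x ∣[k] T = psi F (x + 1) := by
    intro x
    unfold psi
    rw [← SlashAction.slash_mul, mul_assoc, ← zpow_add_one, slash_ST]
    congr 1
    simp
  rw [h0, Finset.sum_congr rfl (fun x _ => h1 x)]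
  congr 1
  exact Equiv.sum_comp (Equiv.addRight (1 : ZMod p)) (psi F)

theorem traceFun_S (F : ModularForm (Gamma0 p) k) : traceFun F ∣[k] S = traceFun F := by
  unfold traceFun
  rw [SlashAction.add_slash, SlashAction.sum_slash]
  have h0 : (⇑F) ∣[k] S = psi F 0 := by
    have := slash_ST F 0
    simpa using this
  have h1 : psi F 0 ∣[k] S = ⇑F := by
    unfold psi
    rw [← SlashAction.slash_mul]
    have := slash_eq_of_row F (S * T ^ ((0 : ZMod p).val : ℤ) * S) 1 (by
      rw [(STS_row _).1]; simp)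
    rw [this, SlashAction.slash_one]
  have h2 : ∀ x : ZMod p, x ≠ 0 → psi F x ∣[k] S = psi F (-x⁻¹) := by
    intro x hx
    unfold psi
    rw [← SlashAction.slash_mul]
    apply slash_eq_of_row
    rw [(STS_row _).1, (STS_row _).2, (ST_row _).1, (ST_row _).2]
    push_cast
    rw [ZMod.natCast_zmod_val, ZMod.natCast_zmod_val]
    field_simp
    ring
  have h3 : ∑ x ∈ Finset.univ.erase (0 : ZMod p), psi F x ∣[k] S =
      ∑ x ∈ Finset.univ.erase (0 : ZMod p), psi F x := by
    rw [Finset.sum_congr rfl (fun x hx => h2 x (Finset.ne_of_mem_erase hx))]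
    refine Finset.sum_nbij' (fun x => -x⁻¹) (fun x => -x⁻¹) ?_ ?_ ?_ ?_ ?_
    · intro x hx; simpa using hx
    · intro x hx; simpa using hx
    · intro x hx; simp [inv_neg]
    · intro x hx; simp [inv_neg]
    · intro x hx; rfl
  rw [← Finset.add_sum_erase _ _ (Finset.mem_univ (0 : ZMod p)), h3, h0, h1,
    ← Finset.add_sum_erase Finset.univ (psi F) (Finset.mem_univ (0 : ZMod p))]
  abel

theorem traceFun_slash (F : ModularForm (Gamma0 p) k) (γ : SL(2, ℤ)) :
    traceFun F ∣[k] γ = traceFun F :=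
  SlashInvariantForm.slash_action_generators_SL2Z (traceFun_S F) (traceFun_T F) γ

theorem psi_holo (F : ModularForm (Gamma0 p) k) (x : ZMod p) :
    MDifferentiable 𝓘(ℂ) 𝓘(ℂ) (psi F x) := by
  unfold psi
  rw [SL_slash]
  exact (ModularFormClass.holo F).slash k _

theorem psi_bdd (F : ModularForm (Gamma0 p) k) (x : ZMod p) :
    IsBoundedAtImInfty (psi F x) :=
  ModularFormClass.bdd_at_infty_slash F _

theorem F_bdd (F : ModularForm (Gamma0 p) k) : IsBoundedAtImInfty (⇑F) := by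
  have := ModularFormClass.bdd_at_infty_slash F (1 : SL(2, ℤ))
  simpa using this

/-- the trace of `F` to level one, as a modular form -/
noncomputable def traceMF (F : ModularForm (Gamma0 p) k) : ModularForm 𝒮ℒ k where
  toFun := traceFun F
  slash_action_eq' := fun _ ⟨γ, hγ⟩ => hγ ▸ (by
    have := traceFun_slash F γ
    rwa [SL_slash] at this)
  holo' := by
    unfold traceFun
    exact (ModularFormClass.holo F).add (MDifferentiable.sum fun x _ => psi_holo F x)
  bdd_at_cusps' {c} hc := by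
    rw [OnePoint.isBoundedAt_iff_forall_SL2Z hc]
    intro γ _
    rw [traceFun_slash F γ]
    unfold traceFun
    refine (F_bdd F).add ?_
    refine Finset.sum_induction _ IsBoundedAtImInfty (fun a b ha hb => ha.add hb)
      zero_form_isBoundedAtImInfty (fun x _ => psi_bdd F x)

theorem traceMF_coe (F : ModularForm (Gamma0 p) k) : ⇑(traceMF F) = traceFun F := rfl

theorem exists_levelOne (F : ModularForm (Gamma0 p) k) :
    ∃ H : ModularForm 𝒮ℒ k, ⇑H = traceFun F := ⟨traceMF F, rfl⟩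

theorem traceFun_two (F : ModularForm (Gamma0 p) 2) : traceFun F = 0 := by
  have h := ModularForm.levelOne_weight_two_rank_zero
  rw [rank_zero_iff_forall_zero] at h
  have := h (traceMF F)
  rw [← traceMF_coe, this]; rfl

theorem traceFun_four (F : ModularForm (Gamma0 p) 4) : ∃ c : ℂ, traceFun F = c • ⇑E₄ := by
  obtain ⟨c, hc⟩ := (finrank_eq_one_iff_of_nonzero' E₄ (EisensteinSeries.E_ne_zero _ ⟨2, rfl⟩)).mp
      (Module.rank_eq_one_iff_finrank_eq_one.mp levelOne_weight_four_rank_one) (traceMF F)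
  exact ⟨c, by rw [← traceMF_coe, ← hc]; rfl⟩

/-! ### q-expansions -/

theorem sum_zmod_val {M : Type*} [AddCommMonoid M] (f : ℕ → M) :
    ∑ x : ZMod p, f x.val = ∑ j ∈ Finset.range p, f j := by
  have : NeZero p := ⟨(Fact.out : p.Prime).ne_zero⟩
  refine Finset.sum_bij' (fun x _ => x.val) (fun j _ => (j : ZMod p)) ?_ ?_ ?_ ?_ ?_
  · intro x _; exact Finset.mem_range.mpr (ZMod.val_lt x)
  · intro j _; exact Finset.mem_univ _
  · intro x _; exact ZMod.natCast_zmod_val x
  · intro j hj; exact ZMod.val_natCast_of_lt (Finset.mem_range.mp hj)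
  · intro x _; rfl

theorem sum_root (m : ℕ) :
    ∑ j ∈ Finset.range p, (Complex.exp (2 * Real.pi * Complex.I / p)) ^ (j * m) =
      if p ∣ m then (p : ℂ) else 0 := by
  have hp0 : p ≠ 0 := (Fact.out : p.Prime).ne_zero
  have hζ := Complex.isPrimitiveRoot_exp p hp0
  split_ifs with h
  · have : ∀ j ∈ Finset.range p, Complex.exp (2 * Real.pi * Complex.I / p) ^ (j * m) = 1 := by
      intro j _
      obtain ⟨c, rfl⟩ := h
      rw [show j * (p * c) = p * (j * c) by ring, pow_mul, hζ.pow_eq_one, one_pow]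
    rw [Finset.sum_congr rfl this]; simp
  · have hne : Complex.exp (2 * Real.pi * Complex.I / p) ^ m ≠ 1 :=
      fun h1 => h ((hζ.pow_eq_one_iff_dvd m).mp h1)
    have : ∀ j ∈ Finset.range p, Complex.exp (2 * Real.pi * Complex.I / p) ^ (j * m) =
        (Complex.exp (2 * Real.pi * Complex.I / p) ^ m) ^ j := by
      intro j _; rw [← pow_mul, mul_comm j m]
    rw [Finset.sum_congr rfl this, geom_sum_eq hne, ← pow_mul, mul_comm m p, pow_mul, hζ.pow_eq_one,
      one_pow, sub_self, zero_div]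

theorem periodic_of_vadd (f : ℍ → ℂ) (h : ℝ) (hf : ∀ τ : ℍ, f (h +ᵥ τ) = f τ) :
    Periodic (f ∘ ofComplex) h := by
  intro w
  by_cases! hw : 0 < Complex.im w
  · have : 0 < Complex.im (w + h) := by simp [hw]
    simp only [comp_apply, ofComplex_apply_of_im_pos this, ofComplex_apply_of_im_pos hw]
    rw [← hf ⟨w, hw⟩]
    congr 1
    ext
    simp [add_comm]
  · have : Complex.im (w + h) ≤ 0 := by simpa using hw
    simp [ofComplex_apply_of_im_nonpos this, ofComplex_apply_of_im_nonpos hw]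

theorem qParam_vadd (j : ℕ) (τ : ℍ) :
    Periodic.qParam (p : ℝ) (((j : ℝ) +ᵥ τ : ℍ) : ℂ) =
      Periodic.qParam (p : ℝ) τ * Complex.exp (2 * Real.pi * Complex.I / p) ^ j := by
  have hp0 : (p : ℂ) ≠ 0 := Nat.cast_ne_zero.mpr (Fact.out : p.Prime).ne_zero
  rw [← Complex.exp_nat_mul]
  simp only [Periodic.qParam, coe_vadd]
  rw [← Complex.exp_add]
  congr 1
  push_cast
  field_simp
  ring

theorem qParam_pow (τ : ℍ) (n : ℕ) :
    Periodic.qParam (p : ℝ) τ ^ (p * n) = Periodic.qParam (1 : ℝ) τ ^ n := by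
  have hp0 : (p : ℂ) ≠ 0 := Nat.cast_ne_zero.mpr (Fact.out : p.Prime).ne_zero
  rw [pow_mul]
  congr 1
  simp only [Periodic.qParam]
  rw [← Complex.exp_nat_mul]
  congr 1
  push_cast
  field_simp

theorem hasSum_trace_aux (φ : ℍ → ℂ) (hper : Periodic (φ ∘ ofComplex) (p : ℝ))
    (hhol : MDifferentiable 𝓘(ℂ) 𝓘(ℂ) φ) (hbdd : IsBoundedAtImInfty φ) (τ : ℍ) :
    HasSum (fun n : ℕ => ((p : ℂ) * (qExpansion (p : ℝ) φ).coeff (p * n)) •
        Periodic.qParam (1 : ℝ) τ ^ n)
      (∑ j ∈ Finset.range p, φ ((j : ℝ) +ᵥ τ)) := by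
  have hpp : 0 < p := (Fact.out : p.Prime).pos
  have hp0 : 0 < (p : ℝ) := Nat.cast_pos.mpr hpp
  have h1 : ∀ j : ℕ, HasSum (fun m : ℕ => (qExpansion (p : ℝ) φ).coeff m •
      (Periodic.qParam (p : ℝ) τ ^ m * Complex.exp (2 * Real.pi * Complex.I / p) ^ (j * m)))
      (φ ((j : ℝ) +ᵥ τ)) := by
    intro j
    have := hasSum_qExpansion hp0 hper hhol hbdd ((j : ℝ) +ᵥ τ)
    rw [qParam_vadd] at this
    simp_rw [mul_pow, ← pow_mul] at this
    exact this
  have h2 := hasSum_sum (fun j (_ : j ∈ Finset.range p) => h1 j)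
  have h3 : ∀ m, ∑ j ∈ Finset.range p, (qExpansion (p : ℝ) φ).coeff m •
      (Periodic.qParam (p : ℝ) τ ^ m * Complex.exp (2 * Real.pi * Complex.I / p) ^ (j * m)) =
      if p ∣ m then ((p : ℂ) * (qExpansion (p : ℝ) φ).coeff m) • Periodic.qParam (p : ℝ) τ ^ m
      else 0 := by
    intro m
    simp_rw [smul_eq_mul, ← mul_assoc]
    rw [← Finset.mul_sum, sum_root]
    split_ifs <;> ring
  simp_rw [h3] at h2
  have hinj : Function.Injective (fun n : ℕ => p * n) :=
    fun a b h => Nat.eq_of_mul_eq_mul_left hpp h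
  have h4 := (hinj.hasSum_iff (f := fun m => if p ∣ m then
      ((p : ℂ) * (qExpansion (p : ℝ) φ).coeff m) • Periodic.qParam (p : ℝ) τ ^ m else 0) (by
    intro m hm
    simp only [Set.mem_range, not_exists] at hm
    rw [if_neg]; rintro ⟨c, rfl⟩; exact hm c rfl)).mpr h2
  convert h4 using 1
  funext n
  simp only [Function.comp, dvd_mul_right, if_true]
  rw [qParam_pow]

end Fermat.Agent.S16Lib.Trace
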