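import Mathlib
import Fermat.Prelude.Def_ModularForm_HeckeOperator
import Fermat.Prelude.Sol.S_ModularForm_heckeT_slash_eq_self_of_mem_Gamma0

/-!
# S16, W-step: the form `Ft(z) = p · (F∣S)(p z)` on `Γ₀(p)`

For `F ∈ M₂(Γ₀(p))` the function `z ↦ p · (F ∣[2] S)(p z)` is again a modular form of weight 2
on `Γ₀(p)` (it is `F ∣[2] (S · diag(p,1))`, and `S · diag(p,1)` normalises `Γ₀(p)`).
-/

set_option autoImplicit false

noncomputable section

namespace Fermat.Agent.S16Lib.TraceFt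

open UpperHalfPlane CongruenceSubgroup Matrix.SpecialLinearGroup
open scoped MatrixGroups ModularForm
open ConjAct Pointwise
open P2MW.S_ModularForm_heckeT_slash_eq_self_of_mem_Gamma0.ModularForm.HeckeSlashInvariance

/-- restriction of a modular form to a smaller subgroup -/
def restrictSub {Γ Γ' : Subgroup (GL (Fin 2) ℝ)} (h : Γ' ≤ Γ) {k : ℤ} (f : ModularForm Γ k) :
    ModularForm Γ' k where
  toFun := f
  slash_action_eq' γ hγ := f.slash_action_eq' γ (h hγ)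
  holo' := f.holo'
  bdd_at_cusps' hc := f.bdd_at_cusps' (hc.mono h)

theorem coe_restrictSub {Γ Γ' : Subgroup (GL (Fin 2) ℝ)} (h : Γ' ≤ Γ) {k : ℤ}
    (f : ModularForm Γ k) : (⇑(restrictSub h f) : ℍ → ℂ) = ⇑f := rfl

/-- the Atkin–Lehner matrix `S · diag(p, 1) = [[0, -1], [p, 0]]` -/
def wMat (p : ℕ) : GL (Fin 2) ℝ := mapGL ℝ ModularGroup.S * ModularForm.heckeDiagMatrix p

theorem conj_mem {p : ℕ} (hp : p ≠ 0) (γ : SL(2, ℤ)) (hγ : γ ∈ Gamma0 p) :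
    ∃ γ' : SL(2, ℤ), γ' ∈ Gamma0 p ∧ wMat p * mapGL ℝ γ = mapGL ℝ γ' * wMat p := by
  obtain ⟨e, he⟩ : (p : ℤ) ∣ γ 1 0 :=
    (ZMod.intCast_zmod_eq_zero_iff_dvd _ _).mp (Gamma0_mem.mp hγ)
  have hdet := det_eq γ
  refine ⟨⟨!![γ 1 1, -e; -(p * γ 0 1), γ 0 0], ?_⟩, ?_, ?_⟩
  · rw [Matrix.det_fin_two_of]
    linear_combination hdet + (γ 0 1) * he
  · rw [Gamma0_mem]
    simp
  · unfold wMat
    ext i j
    fin_cases i <;> fin_cases j <;>
      simp [hp, Matrix.mul_apply, Fin.sum_univ_two, ModularGroup.S]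
    all_goals first
      | (have := congrArg (Int.cast : ℤ → ℝ) he; push_cast at this ⊢; linear_combination this)
      | (have := congrArg (Int.cast : ℤ → ℝ) he; push_cast at this ⊢; linear_combination -this)
      | ring1

theorem Gamma0_le_conj {p : ℕ} (hp : p ≠ 0) :
    ((Gamma0 p : Subgroup SL(2, ℤ)) : Subgroup (GL (Fin 2) ℝ)) ≤
      toConjAct (wMat p)⁻¹ • ((Gamma0 p : Subgroup SL(2, ℤ)) : Subgroup (GL (Fin 2) ℝ)) := by
  rintro _ ⟨γ, hγ, rfl⟩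
  obtain ⟨γ', hγ', hmul⟩ := conj_mem hp γ hγ
  rw [map_inv, Subgroup.mem_inv_pointwise_smul_iff, toConjAct_smul, hmul, mul_inv_cancel_right]
  exact ⟨γ', hγ', rfl⟩

variable {p : ℕ} [Fact p.Prime]

/-- `Ft(z) = p · (F∣S)(p z)` as a modular form on `Γ₀(p)` -/
def Ft (F : ModularForm (Gamma0 p) 2) : ModularForm (Gamma0 p) 2 :=
  restrictSub (Gamma0_le_conj (Fact.out : p.Prime).ne_zero) (ModularForm.translate F (wMat p))

theorem Ft_apply (F : ModularForm (Gamma0 p) 2) (z w : ℍ) (hw : (w : ℂ) = (p : ℂ) * (z : ℂ)) :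
    Ft F z = (p : ℂ) * (⇑F ∣[(2 : ℤ)] ModularGroup.S) w := by
  have hp0 : p ≠ 0 := (Fact.out : p.Prime).ne_zero
  show ((⇑F) ∣[(2 : ℤ)] (wMat p)) z = _
  unfold wMat
  rw [SlashAction.slash_mul, ModularForm.slash_heckeDiagMatrix_apply 2 hp0]
  have h1 : ModularForm.heckeDiagMatrix p • z = w :=
    UpperHalfPlane.ext (by rw [ModularForm.coe_heckeDiagMatrix_smul hp0, hw])
  rw [h1]
  norm_num
  left
  rfl

/-- the W-step form, in the shape consumed downstream -/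
theorem exists_Ft (F : ModularForm (Gamma0 p) 2) :
    ∃ (G : ModularForm (Gamma0 p) 2) (c : ℂ), c ≠ 0 ∧
      ∀ z w : ℍ, (w : ℂ) = (p : ℂ) * (z : ℂ) → G z = c * (⇑F ∣[(2 : ℤ)] ModularGroup.S) w :=
  ⟨Ft F, p, Nat.cast_ne_zero.mpr (Fact.out : p.Prime).ne_zero, Ft_apply F⟩

end Fermat.Agent.S16Lib.TraceFt
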