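import Fermat.Agent.S16Lib.TraceBase

set_option autoImplicit false
set_option linter.unusedSectionVars false

namespace Fermat.Agent.S16Lib.Trace

open UpperHalfPlane ModularForm ModularGroup CongruenceSubgroup Function
open scoped MatrixGroups ModularForm Manifold

variable {p : ℕ} [Fact p.Prime] {k : ℤ}

theorem psi_zero (F : ModularForm (Gamma0 p) k) : psi F 0 = (⇑F) ∣[k] S := by
  unfold psi; simp

theorem slash_T_zpow (f : ℍ → ℂ) (m : ℤ) (τ : ℍ) :
    (f ∣[k] (T ^ m)) τ = f ((m : ℝ) +ᵥ τ) := by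
  rw [SL_slash_apply, modular_T_zpow_smul]
  have : denom ((T ^ m : SL(2, ℤ)) : GL (Fin 2) ℝ) τ = 1 := by
    rw [ModularGroup.denom_apply]; simp [coe_T_zpow]
  rw [this]; simp

theorem psi_apply (F : ModularForm (Gamma0 p) k) (x : ZMod p) (τ : ℍ) :
    psi F x τ = psi F 0 ((x.val : ℝ) +ᵥ τ) := by
  have h1 : psi F x = (psi F 0) ∣[k] (T ^ (x.val : ℤ)) := by
    rw [psi_zero, ← SlashAction.slash_mul]; rfl
  rw [h1, slash_T_zpow]; simp

theorem psi_vadd (F : ModularForm (Gamma0 p) k) (τ : ℍ) :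
    psi F 0 ((p : ℝ) +ᵥ τ) = psi F 0 τ := by
  have h1 : ((⇑F) ∣[k] (S * T ^ (p : ℤ))) τ = psi F 0 ((p : ℝ) +ᵥ τ) := by
    rw [SlashAction.slash_mul, ← psi_zero, slash_T_zpow]; simp
  rw [← h1, slash_ST]; simp

theorem psi_periodic (F : ModularForm (Gamma0 p) k) :
    Periodic (psi F 0 ∘ ofComplex) (p : ℝ) :=
  periodic_of_vadd _ _ (psi_vadd F)

theorem psi_analytic (F : ModularForm (Gamma0 p) k) :
    AnalyticAt ℂ (cuspFunction (p : ℝ) (psi F 0)) 0 :=
  analyticAt_cuspFunction_zero (Nat.cast_pos.mpr (Fact.out : p.Prime).pos) (psi_periodic F)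
    (psi_holo F 0) (psi_bdd F 0)

theorem one_mem_sp : (1 : ℝ) ∈ ((Gamma0 p : Subgroup SL(2, ℤ)) : Subgroup (GL (Fin 2) ℝ)).strictPeriods := by
  simp

theorem hasSum_F (F : ModularForm (Gamma0 p) k) (τ : ℍ) :
    HasSum (fun n : ℕ => (qExpansion 1 F).coeff n • Periodic.qParam (1 : ℝ) τ ^ n) (F τ) :=
  hasSum_qExpansion one_pos (SlashInvariantFormClass.periodic_comp_ofComplex F one_mem_sp)
    (ModularFormClass.holo F) (F_bdd F) τ

theorem hasSum_traceFun (F : ModularForm (Gamma0 p) k) (τ : ℍ) :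
    HasSum (fun n : ℕ => ((qExpansion 1 F).coeff n +
        (p : ℂ) * (qExpansion (p : ℝ) (psi F 0)).coeff (p * n)) • Periodic.qParam (1 : ℝ) τ ^ n)
      (traceFun F τ) := by
  have h1 := hasSum_F F τ
  have h2 := hasSum_trace_aux (psi F 0) (psi_periodic F) (psi_holo F 0) (psi_bdd F 0) τ
  have h3 : traceFun F τ = F τ + ∑ j ∈ Finset.range p, psi F 0 ((j : ℝ) +ᵥ τ) := by
    unfold traceFun
    rw [Pi.add_apply, Finset.sum_apply, ← sum_zmod_val (fun j => psi F 0 ((j : ℝ) +ᵥ τ))]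
    congr 1
    exact Finset.sum_congr rfl (fun x _ => psi_apply F x τ)
  rw [h3]
  convert h1.add h2 using 1
  funext n
  rw [add_smul]

/-- (I): vanishing of the trace in weight two, on `q`-expansions -/
theorem coeff_add_eq_zero (F : ModularForm (Gamma0 p) 2) (n : ℕ) :
    (qExpansion 1 F).coeff n + (p : ℂ) * (qExpansion (p : ℝ) (psi F 0)).coeff (p * n) = 0 := by
  have h := fun τ => hasSum_traceFun F τ
  have h0 : ∀ τ : ℍ, traceFun F τ = (0 : ModularForm 𝒮ℒ 2) τ := by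
    intro τ; rw [traceFun_two]; rfl
  simp_rw [h0] at h
  have := ModularFormClass.qExpansion_coeff_unique one_pos one_mem_strictPeriods_SL h n
  rw [this]
  simp [qExpansion_zero]

end Fermat.Agent.S16Lib.Trace
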